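import Fermat.Agent.LT.Fou.Twist2
import Fermat.Agent.LT.Glob.Good
import Fermat.Agent.LT.Glob.ActE

set_option autoImplicit false
set_option linter.unusedSectionVars false
set_option linter.unusedVariables false

/-! # Invariance under the Galois group of a cubic extension -/

namespace Fermat.Agent.LT.Fou

open NumberField Sp Glob LocFam Matrix IsDedekindDomain IsDedekindDomain.HeightOneSpectrum
open WithZero
open scoped MatrixGroups

section Place

variable {k : Type*} [Field k] [NumberField k] {E : Type*} [Field E] [NumberField E]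
  [Algebra k E] {v : HeightOneSpectrum (𝓞 k)}

theorem act_symm_act (θ : E ≃ₐ[k] E) (w : HeightOneSpectrum (𝓞 E)) :
    Glob.act θ.symm (Glob.act θ w) = w := by
  have h1 := (above_act θ w).comp (above_act θ.symm (Glob.act θ w))
  have e : (((θ.symm : E ≃+* E) : E →+* E)).comp ((θ : E ≃+* E) : E →+* E) = RingHom.id E :=
    RingHom.ext fun x => θ.symm_apply_apply x
  rw [e] at h1
  apply HeightOneSpectrum.ext
  ext r
  rw [mem_iff_valuation_lt_one (K := E), mem_iff_valuation_lt_one (K := E), ← not_le, ← not_le]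
  have h2 := h1.2 (algebraMap (𝓞 E) E r)
  rw [RingHom.id_apply, mul_one, pow_one] at h2
  rw [h2]

theorem actF_symm_actF (θ : E ≃ₐ[k] E) (w : Fib E v) : actF θ.symm (actF θ w) = w :=
  Subtype.ext (act_symm_act θ w.1)

theorem sHom_unifE (θ : E ≃ₐ[k] E) (w : Fib E v) : ∃ u ∈ OU (OE E v),
    Units.map (sEquiv v θ : RE E v →* RE E v) (unifE w) = unifE (actF θ w) * u := by
  refine ⟨(unifE (actF θ w))⁻¹ * Units.map (sEquiv v θ : RE E v →* RE E v) (unifE w), ?_, ?_⟩
  · rw [mem_OU_OE]
    intro w'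
    have h2 : ((Units.map (sEquiv v θ : RE E v →* RE E v) (unifE w) : (RE E v)ˣ) : RE E v) w' =
        ext (above_actF_symm θ w') ((unifE w : RE E v) (actF θ.symm w')) := rfl
    rw [Units.val_mul, Pi.mul_apply, h2, map_mul]
    by_cases h : w' = actF θ w
    · subst h
      rw [unifE_inv_same, valued_unif_inv, valued_ext, pow_one, actF_symm_actF, unifE_same,
        valued_unif, ← exp_add]
      norm_num
    · have h3 : actF θ.symm w' ≠ w := by
        rintro rfl
        apply h
        have := actF_symm_actF θ.symm w'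
        exact this.symm
      rw [unifE_inv_ne h, unifE_ne h3, map_one, map_one, map_one, one_mul]
  · rw [mul_inv_cancel_left]

end Place

section Main

variable {k : Type*} [Field k] [NumberField k] {E : Type} [Field E] [NumberField E]
  [IsTotallyComplex E] [Algebra k E] {U : (locE k E).Level} {φ : HF E × D U → ℂ}

theorem isCubic_autoE {σ : E ≃ₐ[k] E} (h : LT.Loc.Gal3 σ) : (autoE σ).IsCubic := by
  refine ⟨h.cube, fun v x => ?_⟩
  have hc : σ * σ * σ = 1 := AlgEquiv.ext fun b => h.cube b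
  show sHom v σ (sHom v σ (sHom v σ x)) = x
  rw [sHom_comp, sHom_comp, hc, sHom_one]

variable {B : Finset (HeightOneSpectrum (𝓞 k))} {a0 : Eˣ}
  {J : ∀ v, Subgroup ((locE k E).G v)} {ψ : ∀ v, (locE k E).G v → ℂ}
  {lam : ∀ v : HeightOneSpectrum (𝓞 k), Fib E v → ℂ}

/-- **Forms over `E` whose type and eigenvalues are stable under `σ` are invariant.** -/
theorem AutForm.act_eq_E (hT : TypeData (locE k E) B a0 J ψ (fun v => Fib E v) (fun _ w => HE w) U)
    {σ : E ≃ₐ[k] E} (hσ : LT.Loc.Gal3 σ) (hP : (autoE σ).Pres U) (ha0 : σ (a0 : E) = a0)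
    (hJ : ∀ v ∈ B, ∀ j ∈ J v, (autoE σ).g v j ∈ J v)
    (hψ : ∀ v ∈ B, ∀ j ∈ J v, ψ v ((autoE σ).g v j) = ψ v j)
    (hlam : ∀ v ∉ B, ∀ w, lam v (actF σ w) = lam v w) (h : AutForm φ)
    (he : ∀ v ∈ B, EqvAt v (J v) (ψ v) φ)
    (hh : ∀ v ∉ B, ∀ w : Fib E v, HeckeAt (HE w) (lam v w) φ) :
    (fun y => φ ((Auto.twist (isCubic_autoE hσ) hP).act y)) = φ :=
  h.act_eq (lam := lam) hT (isCubic_autoE hσ) hP ha0 hJ hψ (fun v _ w => unif_OE w)
    (fun v w => actF σ w) (fun v _ w => sHom_unifE σ w) hlam he hh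

end Main

end Fermat.Agent.LT.Fou
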