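import Fermat.Agent.LT.Fou.LChar

set_option autoImplicit false
set_option linter.unusedSectionVars false

/-! # Multiplicity one: a form with a Kirillov type at the bad places is determined by its first
Fourier coefficient -/

namespace Fermat.Agent.LT.Fou

open Complex Topology NumberField Sp Glob LocFam Filter
open scoped Real ComplexConjugate MatrixGroups

universe w u i

variable {F : Type u} [Field F] [NumberField F] [IsTotallyComplex F] {ι : Type i}
  {L : LocFam.{w} F ι} {U : L.Level}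

/-- the local ring is generated, up to units, by finitely many prime elements -/
structure GoodPlace (L : LocFam.{w} F ι) (v : ι) {I : Type} [Fintype I] (H : I → HData L v) :
    Prop where
  card : ∀ i, (H i).S.Nonempty
  gen : ∀ x : (L.R v)ˣ, ∃ n : I → ℤ, x * (∏ i, (H i).ϖ ^ n i)⁻¹ ∈ OU (L.O v)
  pos : ∀ n : I → ℤ, ((∏ i, (H i).ϖ ^ n i : (L.R v)ˣ) : L.R v) ∈ L.O v → ∀ i, 0 ≤ n i

/-- the local additive character `x ↦ e(-Tr a0 x)` has conductor exactly `O v` -/
def CondAt (L : LocFam.{w} F ι) (a0 : F) (v : ι) : Prop :=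
  ∀ x : L.R v, (∀ y ∈ L.O v, lchar L v (L.loc v a0 * (x * y)) = 1) ↔ x ∈ L.O v

/-- `φ` transforms under right translations by `J` at the place `v` with the character `ψ` -/
def EqvAt (v : ι) (J : Subgroup (L.G v)) (ψ : L.G v → ℂ) (φ : HF F × D U → ℂ) : Prop :=
  ∀ (p : HF F) (d : D U) (g : L.G v), ∀ j ∈ J, d v = (g : L.G v ⧸ U.U v) →
    φ (p, setv d v ((g * j : L.G v) : L.G v ⧸ U.U v)) = ψ j * φ (p, d)

/-- **Kirillov type** at a place: the character is `x ↦ e(-Tr a0 x)` on unipotent elements, and the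
only frequencies which agree with `a0` are in the trivial coset. -/
structure KirAt (L : LocFam.{w} F ι) (a0 : Fˣ) (v : ι) (J : Subgroup (L.G v)) (ψ : L.G v → ℂ) :
    Prop where
  uni : ∀ b : L.R v, pN b ∈ J → ψ (pN b) = lchar L v (L.loc v a0 * b)
  kir : ∀ x : (L.R v)ˣ,
    (∀ b : L.R v, pN b ∈ J → lchar L v (((x : L.R v) - L.loc v a0) * b) = 1) →
      pA (x * (L.un v a0)⁻¹) ∈ J ∧ ψ (pA (x * (L.un v a0)⁻¹)) = 1

variable {φ : HF F × D U → ℂ}

theorem EqvAt.cof {v : ι} {J : Subgroup (L.G v)} {ψ : L.G v → ℂ} (h : IsInv φ)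
    (hE : EqvAt v J ψ φ) (ξ : F) (p : HF F) (d : D U) (g : L.G v) (j : L.G v) (hj : j ∈ J)
    (hg : d v = (g : L.G v ⧸ U.U v)) :
    cof φ ξ p (setv d v ((g * j : L.G v) : L.G v ⧸ U.U v)) = ψ j * cof φ ξ p d := by
  have h1 := cof_lin h {()} (fun _ => setv d v ((g * j : L.G v) : L.G v ⧸ U.U v)) (fun _ => 1)
    (ψ j) d (fun p => by
      simp only [Finset.sum_singleton, one_mul]
      exact hE p d g j hj hg) ξ p
  simpa only [Finset.sum_singleton, one_mul] using h1

section Local

variable {v : ι} {I : Type} [Fintype I] {H : I → HData L v} {lam : I → ℂ} {a0 : F}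

theorem mk_mul_PO (hU : U.U v = PO (L.O v)) (g : L.G v) {k : L.G v} (hk : k ∈ PO (L.O v)) :
    ((g * k : L.G v) : L.G v ⧸ U.U v) = (g : L.G v ⧸ U.U v) := by
  rw [QuotientGroup.eq, hU]
  have : (g * k)⁻¹ * g = k⁻¹ := by group
  rw [this]
  exact inv_mem hk

/-- Iwasawa decomposition of the points of the tree -/
theorem exists_pN_pA (hU : U.U v = PO (L.O v)) (x : X U v) : ∃ (b : L.R v) (a : (L.R v)ˣ),
    x = ((pN b * pA a : L.G v) : L.G v ⧸ U.U v) := by
  obtain ⟨g, rfl⟩ := QuotientGroup.mk_surjective x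
  obtain ⟨g, rfl⟩ := Matrix.ProjGenLinGroup.mk_surjective g
  obtain ⟨a, e, s, k, hk, rfl⟩ := L.iwasawa v g
  refine ⟨s * ((e⁻¹ : (L.R v)ˣ) : L.R v), a * e⁻¹, ?_⟩
  have h1 : tri a e s = sc e * (tri 1 1 (s * ((e⁻¹ : (L.R v)ˣ) : L.R v)) * tri (a * e⁻¹) 1 0) := by
    rw [tri_mul]
    apply Units.ext
    rw [Units.val_mul, sc_coe, tri_coe, tri_coe]
    ext i j
    fin_cases i <;> fin_cases j <;> simp
    · rw [mul_comm (a : L.R v), ← mul_assoc, Units.mul_inv, one_mul]
    · rw [mul_comm s, ← mul_assoc, Units.mul_inv, one_mul]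
  rw [map_mul, mk_mul_PO hU _ (mk_mem_PO hk), h1, map_mul]
  rw [show Matrix.ProjGenLinGroup.mk (sc e) = (1 : L.G v) from Matrix.ProjGenLinGroup.mk_scalar _,
    one_mul, map_mul]
  rfl

/-- vanishing outside the conductor -/
theorem cof_eq_zero_of_not_mem (h : IsInv φ) (hU : U.U v = PO (L.O v)) (hc : CondAt L a0 v)
    (p : HF F) (d : D U) {a : (L.R v)ˣ} (ha : (a : L.R v) ∉ L.O v) :
    cof φ a0 p (setv d v ((pA a : L.G v) : L.G v ⧸ U.U v)) = 0 := by
  have h1 : ¬ ∀ y ∈ L.O v, lchar L v (L.loc v a0 * ((a : L.R v) * y)) = 1 := fun h' =>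
    ha ((hc a).mp h')
  push Not at h1
  obtain ⟨y, hy, hne⟩ := h1
  have h2 := cof_local h a0 p (setv d v ((pA a : L.G v) : L.G v ⧸ U.U v)) v ((a : L.R v) * y)
  rw [setv_same, setv_setv] at h2
  have h3 : pN ((a : L.R v) * y) • ((pA a : L.G v) : L.G v ⧸ U.U v) =
      ((pA a : L.G v) : L.G v ⧸ U.U v) := by
    show ((pN ((a : L.R v) * y) * pA a : L.G v) : L.G v ⧸ U.U v) = _
    rw [← pA_mul_pN, mk_mul_PO hU _ (pN_mem_PO hy)]
  rw [h3] at h2
  have h4 : (lchar L v (L.loc v a0 * ((a : L.R v) * y)) - 1) *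
      cof φ a0 p (setv d v ((pA a : L.G v) : L.G v ⧸ U.U v)) = 0 := by
    rw [sub_mul, one_mul, ← h2, sub_self]
  rcases mul_eq_zero.mp h4 with h5 | h5
  · exact absurd (sub_eq_zero.mp h5) hne
  · exact h5

/-- the recursion -/
theorem cof_rec (h : IsInv φ) (hc : CondAt L a0 v) (i : I)
    (hH : HeckeAt (H i) (lam i) φ) (p : HF F) (d : D U) {a : (L.R v)ˣ} (ha : (a : L.R v) ∈ L.O v) :
    ((H i).S.card : ℂ) * cof φ a0 p (setv d v ((pA (a * (H i).ϖ) : L.G v) : L.G v ⧸ U.U v)) +
      cof φ a0 p (setv d v ((pA (a * (H i).ϖ⁻¹) : L.G v) : L.G v ⧸ U.U v)) =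
      lam i * cof φ a0 p (setv d v ((pA a : L.G v) : L.G v ⧸ U.U v)) := by
  have h1 := hH.cof h a0 p (setv d v ((pA a : L.G v) : L.G v ⧸ U.U v)) (pA a) (by rw [setv_same])
  simp only [setv_setv] at h1
  rw [← pA_mul] at h1
  rw [← h1]
  congr 1
  rw [← nsmul_eq_mul, ← Finset.sum_const]
  apply Finset.sum_congr rfl
  intro s hs
  have h2 := cof_local h a0 p (setv d v ((pA (a * (H i).ϖ) : L.G v) : L.G v ⧸ U.U v)) v
    ((a : L.R v) * s)
  rw [setv_same, setv_setv] at h2
  have h3 : pN ((a : L.R v) * s) • ((pA (a * (H i).ϖ) : L.G v) : L.G v ⧸ U.U v) =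
      ((pA a * (pN s * pA (H i).ϖ) : L.G v) : L.G v ⧸ U.U v) := by
    show ((pN ((a : L.R v) * s) * pA (a * (H i).ϖ) : L.G v) : L.G v ⧸ U.U v) = _
    rw [pA_mul, ← mul_assoc, ← mul_assoc, ← pA_mul_pN]
  rw [h3] at h2
  rw [h2, (hc a).mpr ha s ((H i).S_mem s hs), one_mul]

/-- local vanishing, diagonal part -/
theorem cof_zero_diag (h : IsInv φ) (hU : U.U v = PO (L.O v)) (hc : CondAt L a0 v)
    (hG : GoodPlace L v H) (hH : ∀ i, HeckeAt (H i) (lam i) φ) (p : HF F) (d : D U)
    (h0 : cof φ a0 p (setv d v (X.base U v)) = 0) (N : ℕ) : ∀ n : I → ℤ, ∑ i, (n i).toNat ≤ N →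
      cof φ a0 p (setv d v ((pA (∏ i, (H i).ϖ ^ n i) : L.G v) : L.G v ⧸ U.U v)) = 0 := by
  classical
  induction N using Nat.strong_induction_on with
  | _ N ih =>
  intro n hn
  by_cases hmem : ((∏ i, (H i).ϖ ^ n i : (L.R v)ˣ) : L.R v) ∈ L.O v
  · have hpos := hG.pos n hmem
    by_cases hz : ∀ i, n i = 0
    · have : (∏ i, (H i).ϖ ^ n i) = 1 := Finset.prod_eq_one fun i _ => by rw [hz i, zpow_zero]
      rw [this, pA_one]
      exact h0
    · push Not at hz
      obtain ⟨i, hi⟩ := hz
      have hi1 : 1 ≤ n i := by have := hpos i; omega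
      -- m = n - e_i
      set m : I → ℤ := Function.update n i (n i - 1) with hm
      have hmi : m i = n i - 1 := by rw [hm, Function.update_self]
      have hmj : ∀ j, j ≠ i → m j = n j := fun j hj => by rw [hm, Function.update_of_ne hj]
      have prod_upd : ∀ (n : I → ℤ) (c : ℤ), (∏ j, (H j).ϖ ^ (Function.update n i c) j) =
          (∏ j, (H j).ϖ ^ n j) * (H i).ϖ ^ (c - n i) := by
        intro n c
        rw [← Finset.mul_prod_erase Finset.univ (fun j => (H j).ϖ ^ (Function.update n i c) j)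
          (Finset.mem_univ i), ← Finset.mul_prod_erase Finset.univ (fun j => (H j).ϖ ^ n j)
          (Finset.mem_univ i), Function.update_self]
        have : ∏ x ∈ Finset.univ.erase i, (H x).ϖ ^ Function.update n i c x =
            ∏ x ∈ Finset.univ.erase i, (H x).ϖ ^ n x := by
          apply Finset.prod_congr rfl
          intro x hx
          rw [Function.update_of_ne (Finset.ne_of_mem_erase hx)]
        rw [this, show c = n i + (c - n i) by ring, zpow_add]
        simp only [add_sub_cancel_left]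
        rw [mul_right_comm]
      have sum_upd : ∀ (n : I → ℤ) (c : ℤ), 0 ≤ c → c < n i →
          ∑ j, (Function.update n i c j).toNat < ∑ j, (n j).toNat := by
        intro n c hc0 hc
        apply Finset.sum_lt_sum
        · intro j _
          by_cases hj : j = i
          · subst hj; rw [Function.update_self]; exact Int.toNat_le_toNat hc.le
          · rw [Function.update_of_ne hj]
        · refine ⟨i, Finset.mem_univ i, ?_⟩
          rw [Function.update_self]
          omega
      have hmmem : ((∏ j, (H j).ϖ ^ m j : (L.R v)ˣ) : L.R v) ∈ L.O v := by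
        by_contra hcon
        -- use positivity contrapositive through the conductor: m ≥ 0 products of ϖ
        apply hcon
        have hm0 : ∀ j, 0 ≤ m j := by
          intro j
          by_cases hj : j = i
          · subst hj; rw [hmi]; omega
          · rw [hmj j hj]; exact hpos j
        have : ∀ s : Finset I, ((∏ j ∈ s, (H j).ϖ ^ m j : (L.R v)ˣ) : L.R v) ∈ L.O v := by
          intro s
          induction s using Finset.induction_on with
          | empty => rw [Finset.prod_empty]; exact (L.O v).one_mem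
          | insert j s hj ihs =>
            rw [Finset.prod_insert hj, Units.val_mul]
            refine (L.O v).mul_mem ?_ ihs
            obtain ⟨k, hk⟩ := Int.eq_ofNat_of_zero_le (hm0 j)
            rw [hk, zpow_natCast, Units.val_pow_eq_pow_val]
            exact (L.O v).pow_mem (H j).mem k
        exact this Finset.univ
      have hrec := cof_rec h hc i (hH i) p d hmmem
      have e1 : (∏ j, (H j).ϖ ^ m j) * (H i).ϖ = ∏ j, (H j).ϖ ^ n j := by
        rw [hm, prod_upd n (n i - 1), show n i - 1 - n i = (-1 : ℤ) by ring, zpow_neg_one,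
          inv_mul_cancel_right]
      have e2 : (∏ j, (H j).ϖ ^ m j) * (H i).ϖ⁻¹ =
          ∏ j, (H j).ϖ ^ (Function.update n i (n i - 2)) j := by
        rw [hm, prod_upd n (n i - 1), prod_upd n (n i - 2), mul_assoc, ← zpow_neg_one, ← zpow_add]
        congr 2
        ring
      rw [e1, e2] at hrec
      have hA : cof φ a0 p (setv d v ((pA (∏ j, (H j).ϖ ^ m j) : L.G v) : L.G v ⧸ U.U v)) = 0 := by
        apply ih (∑ j, (m j).toNat) ((sum_upd n (n i - 1) (by omega) (by omega)).trans_le hn) m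
        exact le_rfl
      have hB : cof φ a0 p (setv d v ((pA (∏ j, (H j).ϖ ^ (Function.update n i (n i - 2)) j) :
          L.G v) : L.G v ⧸ U.U v)) = 0 := by
        by_cases h2 : 2 ≤ n i
        · apply ih (∑ j, (Function.update n i (n i - 2) j).toNat)
            ((sum_upd n (n i - 2) (by omega) (by omega)).trans_le hn)
          exact le_rfl
        · apply cof_eq_zero_of_not_mem h hU hc
          intro hcon
          have := hG.pos _ hcon i
          rw [Function.update_self] at this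
          omega
      rw [hA, hB, mul_zero, add_zero] at hrec
      rcases mul_eq_zero.mp hrec with h5 | h5
      · exfalso
        have := (hG.card i).card_pos
        rw [Nat.cast_eq_zero] at h5
        omega
      · exact h5
  · exact cof_eq_zero_of_not_mem h hU hc p d hmem

/-- **local vanishing** -/
theorem cof_zero_local (h : IsInv φ) (hU : U.U v = PO (L.O v)) (hc : CondAt L a0 v)
    (hG : GoodPlace L v H) (hH : ∀ i, HeckeAt (H i) (lam i) φ) (p : HF F) (d : D U)
    (h0 : cof φ a0 p (setv d v (X.base U v)) = 0) (x : X U v) :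
    cof φ a0 p (setv d v x) = 0 := by
  obtain ⟨b, a, rfl⟩ := exists_pN_pA hU x
  obtain ⟨n, hn⟩ := hG.gen a
  have h1 : ((pA a : L.G v) : L.G v ⧸ U.U v) =
      ((pA (∏ i, (H i).ϖ ^ n i) : L.G v) : L.G v ⧸ U.U v) := by
    have e : a = (∏ i, (H i).ϖ ^ n i) * (a * (∏ i, (H i).ϖ ^ n i)⁻¹) := by
      rw [mul_comm a, mul_inv_cancel_left]
    conv_lhs => rw [e, pA_mul]
    exact mk_mul_PO hU _ (pA_mem_PO hn)
  have h2 := cof_local h a0 p (setv d v ((pA a : L.G v) : L.G v ⧸ U.U v)) v b
  rw [setv_same, setv_setv] at h2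
  have h3 : pN b • ((pA a : L.G v) : L.G v ⧸ U.U v) = ((pN b * pA a : L.G v) : L.G v ⧸ U.U v) := rfl
  rw [h3, h1, cof_zero_diag h hU hc hG hH p d h0 _ n le_rfl, mul_zero] at h2
  exact h2

end Local

end Fermat.Agent.LT.Fou
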