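import Fermat.Agent.LT.Fou.Loc

set_option autoImplicit false
set_option linter.unusedSectionVars false

/-! # Local additive characters and the local behaviour of Fourier coefficients -/

namespace Fermat.Agent.LT.Fou

open Complex Topology NumberField Sp Glob LocFam Filter
open scoped Real ComplexConjugate MatrixGroups

universe w u i

variable {F : Type u} [Field F] [NumberField F] [IsTotallyComplex F] {ι : Type i}
  {L : LocFam.{w} F ι} {U : L.Level}

theorem ev_one_integral {b : F} (h : IsIntegral ℤ b) : ev (1 : F) (emb b) = 1 := by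
  apply ev_emb_of_trace_int (m := Algebra.trace ℤ (𝓞 F) ⟨b, h⟩)
  rw [one_mul]
  exact (Algebra.coe_trace_int (⟨b, h⟩ : 𝓞 F)).symm

theorem ev_eq_one (ξ : F) (b : F) : ev ξ (emb b) = ev 1 (emb (ξ * b)) := by
  unfold ev
  rw [← emb_mul, ← emb_mul, one_mul]

variable (L) in
theorem exists_lift (v : ι) (x : L.R v) : ∃ b : F, L.loc v b - x ∈ L.O v ∧
    ∀ v' ≠ v, L.loc v' b ∈ L.O v' := by
  classical
  obtain ⟨b, h1, h2⟩ := L.dense {v} (fun v' => if e : v' = v then e ▸ x else 0) 1 one_ne_zero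
  have hv := h1 v (Finset.mem_singleton_self v)
  simp only [dite_true] at hv
  exact ⟨b, NO_one.mp hv, fun v' hv' => h2 v' (by rwa [Finset.mem_singleton])⟩

variable (L) in
/-- the local additive character `x ↦ e(-Tr x)` -/
noncomputable def lchar (v : ι) (x : L.R v) : ℂ := ev 1 (emb (-(exists_lift L v x).choose))

theorem lchar_eq {v : ι} {x : L.R v} {b : F} (h1 : L.loc v b - x ∈ L.O v)
    (h2 : ∀ v' ≠ v, L.loc v' b ∈ L.O v') : lchar L v x = ev 1 (emb (-b)) := by
  unfold lchar
  obtain ⟨h3, h4⟩ := (exists_lift L v x).choose_spec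
  set c := (exists_lift L v x).choose
  have h5 : IsIntegral ℤ (c - b) := by
    rw [L.isIntegral_iff]
    intro v'
    rw [map_sub]
    by_cases h : v' = v
    · subst h
      have := (L.O v').sub_mem h3 h1
      rwa [sub_sub_sub_cancel_right] at this
    · exact (L.O v').sub_mem (h4 v' h) (h2 v' h)
  have h6 : (-b : F) = -c + (c - b) := by ring
  rw [h6, emb_add, ev_add, ev_one_integral h5, mul_one]

theorem lchar_of_mem {v : ι} {x : L.R v} (h : x ∈ L.O v) : lchar L v x = 1 := by
  rw [lchar_eq (b := 0) (by rw [map_zero, zero_sub]; exact (L.O v).neg_mem h)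
    (fun v' _ => by rw [map_zero]; exact (L.O v').zero_mem)]
  rw [neg_zero, emb_zero]
  simp [ev]

theorem lchar_ne_zero (v : ι) (x : L.R v) : lchar L v x ≠ 0 := ev_ne_zero _ _

theorem norm_lchar (v : ι) (x : L.R v) : ‖lchar L v x‖ = 1 := norm_ev _ _

theorem lchar_add (v : ι) (x y : L.R v) : lchar L v (x + y) = lchar L v x * lchar L v y := by
  obtain ⟨a, ha, ha'⟩ := exists_lift L v x
  obtain ⟨b, hb, hb'⟩ := exists_lift L v y
  rw [lchar_eq ha ha', lchar_eq hb hb', lchar_eq (b := a + b), ← ev_add, ← emb_add]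
  · congr 2; ring
  · rw [map_add, add_sub_add_comm]
    exact (L.O v).add_mem ha hb
  · intro v' hv'
    rw [map_add]
    exact (L.O v').add_mem (ha' v' hv') (hb' v' hv')

@[simp] theorem lchar_zero (v : ι) : lchar L v 0 = 1 := lchar_of_mem (L.O v).zero_mem

theorem lchar_neg (v : ι) (x : L.R v) : lchar L v (-x) = (lchar L v x)⁻¹ := by
  apply eq_inv_of_mul_eq_one_left
  rw [← lchar_add, neg_add_cancel, lchar_zero]

/-- global characters are products of local characters -/
theorem ev_eq_prod (S : Finset ι) (b : F) (hb : ∀ v ∉ S, L.loc v b ∈ L.O v) :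
    ev (1 : F) (emb (-b)) = ∏ v ∈ S, lchar L v (L.loc v b) := by
  classical
  induction S using Finset.induction_on generalizing b with
  | empty =>
    rw [Finset.prod_empty, emb_neg, ← ev_neg]
    have h1 : IsIntegral ℤ b := (L.isIntegral_iff b).mpr fun v => hb v (by simp)
    have h2 := ev_neg_mul (1 : F) (emb b)
    rwa [ev_one_integral h1, mul_one] at h2
  | insert v S hv ih =>
    rw [Finset.prod_insert hv]
    obtain ⟨c, hc, hc'⟩ := exists_lift L v (L.loc v b)
    have h1 : ∀ v' ∉ S, L.loc v' (b - c) ∈ L.O v' := by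
      intro v' hv'
      by_cases h : v' = v
      · subst h
        have := (L.O v').neg_mem hc
        rwa [neg_sub, ← map_sub] at this
      · rw [map_sub]
        exact (L.O v').sub_mem (hb v' (by simp [h, hv'])) (hc' v' h)
    have h2 := ih (b - c) h1
    have h3 : ∀ v' ∈ S, lchar L v' (L.loc v' (b - c)) = lchar L v' (L.loc v' b) := by
      intro v' hv'
      have hne : v' ≠ v := by rintro rfl; exact hv hv'
      have h4 : L.loc v' b = L.loc v' (b - c) + L.loc v' c := by rw [← map_add, sub_add_cancel]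
      rw [h4, lchar_add, lchar_of_mem (hc' v' hne), mul_one]
    rw [Finset.prod_congr rfl h3] at h2
    rw [← h2, lchar_eq hc hc', ← ev_add, ← emb_add]
    congr 2
    ring

section

variable {φ : HF F × D U → ℂ}

/-- the lift of a local translation, adapted to a frequency -/
theorem cof_local (h : IsInv φ) (ξ : F) (p : HF F) (d : D U) (v : ι) (b : L.R v) :
    cof φ ξ p (setv d v (pN b • d v)) = lchar L v (L.loc v ξ * b) * cof φ ξ p d := by
  classical
  obtain ⟨T, hT⟩ := exists_finset_compl (L.eventually_mem ξ)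
  obtain ⟨M, hM, hM'⟩ := L.finite_denom (insert v T) (fun v' => L.loc v' ξ)
  obtain ⟨b', h1, h2, h3, h4⟩ := exists_near d v b T M hM
  rw [← h1, cof_nMat h]
  congr 1
  rw [ev_eq_one, lchar_eq (b := ξ * b')]
  · congr 2; ring
  · obtain ⟨y, hy, e⟩ := h2
    rw [map_mul, ← mul_sub, e, ← mul_assoc, mul_comm (L.loc v ξ)]
    exact (L.O v).mul_mem (hM' v (Finset.mem_insert_self v T)) hy
  · intro v' hv'
    rw [map_mul]
    by_cases hv'' : v' ∈ T
    · obtain ⟨y, hy, e⟩ := h3 v' hv'' hv'
      rw [e, ← mul_assoc, mul_comm (L.loc v' ξ)]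
      exact (L.O v').mul_mem (hM' v' (Finset.mem_insert_of_mem hv'')) hy
    · exact (L.O v').mul_mem (hT v' hv'') (h4 v' hv')

/-- data of a Hecke operator at a place: a prime element and representatives -/
structure HData (L : LocFam.{w} F ι) (v : ι) where
  ϖ : (L.R v)ˣ
  mem : (ϖ : L.R v) ∈ L.O v
  S : Finset (L.R v)
  S_mem : ∀ s ∈ S, s ∈ L.O v

/-- the Hecke eigenvalue equation -/
def HeckeAt {v : ι} (H : HData L v) (lam : ℂ) (φ : HF F × D U → ℂ) : Prop :=
  ∀ (p : HF F) (d : D U) (g : L.G v), d v = (g : L.G v ⧸ U.U v) →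
    ∑ s ∈ H.S, φ (p, setv d v ((g * (pN s * pA H.ϖ) : L.G v) : L.G v ⧸ U.U v)) +
      φ (p, setv d v ((g * pA H.ϖ⁻¹ : L.G v) : L.G v ⧸ U.U v)) = lam * φ (p, d)

/-- finite sums of values give finite sums of coefficients -/
theorem cof_lin (h : IsInv φ) {κ : Type*} (s : Finset κ) (e : κ → D U) (c : κ → ℂ) (lam : ℂ)
    (d : D U) (he : ∀ p, ∑ i ∈ s, c i * φ (p, e i) = lam * φ (p, d)) (ξ : F) (p : HF F) :
    ∑ i ∈ s, c i * cof φ ξ p (e i) = lam * cof φ ξ p d := by
  classical
  -- common level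
  have hlev : ∃ N : ℕ, N ≠ 0 ∧ Lvl (F := F) N d ∧ ∀ i ∈ s, Lvl (F := F) N (e i) := by
    choose N hN hN' using fun d : D U => exists_Lvl (F := F) d
    refine ⟨N d * ∏ i ∈ s, N (e i), mul_ne_zero (hN d) (Finset.prod_ne_zero_iff.mpr fun i _ =>
      hN _), (hN' d).mono (Dvd.intro _ rfl), fun i hi => (hN' (e i)).mono ?_⟩
    exact (Finset.dvd_prod_of_mem (fun i => N (e i)) hi).mul_left _
  obtain ⟨N, hN, hd, hi⟩ := hlev
  unfold cof
  rw [← fc_const_mul hN (h.per hd p)]
  have h1 : ∀ i ∈ s, c i * fc (fun v => φ (tra v p, e i)) ξ =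
      fc (fun v => c i * φ (tra v p, e i)) ξ := fun i his =>
    (fc_const_mul hN (h.per (hi i his) p) (c i) ξ).symm
  rw [Finset.sum_congr rfl h1, ← fc_sum hN s _ fun i his => (h.per (hi i his) p).const_mul (c i)]
  congr 1
  funext v
  exact he (tra v p)

theorem HeckeAt.cof {v : ι} {H : HData L v} {lam : ℂ} (h : IsInv φ) (hH : HeckeAt H lam φ)
    (ξ : F) (p : HF F) (d : D U) (g : L.G v) (hg : d v = (g : L.G v ⧸ U.U v)) :
    ∑ s ∈ H.S, cof φ ξ p (setv d v ((g * (pN s * pA H.ϖ) : L.G v) : L.G v ⧸ U.U v)) +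
      cof φ ξ p (setv d v ((g * pA H.ϖ⁻¹ : L.G v) : L.G v ⧸ U.U v)) = lam * cof φ ξ p d := by
  classical
  have h1 := cof_lin h (Finset.insertNone H.S) (fun o : Option (L.R v) => match o with
    | some s => setv d v ((g * (pN s * pA H.ϖ) : L.G v) : L.G v ⧸ U.U v)
    | none => setv d v ((g * pA H.ϖ⁻¹ : L.G v) : L.G v ⧸ U.U v)) (fun _ => 1) lam d (fun p => by
      rw [Finset.sum_insertNone]
      simp only [one_mul]
      rw [add_comm]
      exact hH p d g hg) ξ p
  rw [Finset.sum_insertNone] at h1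
  simp only [one_mul] at h1
  rw [add_comm]
  exact h1

end

end Fermat.Agent.LT.Fou
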