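import Fermat.Agent.LT.Fou.TwistE
import Fermat.Agent.LT.Ty.Aut
import Fermat.Agent.LT.Ty.Kir
import Fermat.Agent.LT.T4.OmI

set_option autoImplicit false
set_option linter.unusedSectionVars false
set_option linter.unusedVariables false

/-! # Uniqueness and invariance of the form over `E` -/

namespace Fermat.Agent.LT.Fou

open NumberField Sp Glob LocFam Matrix IsDedekindDomain
open scoped MatrixGroups

universe w u i

section Gen

variable {F : Type u} [Field F] [NumberField F] [IsTotallyComplex F] {ι : Type i}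
  {L : LocFam.{w} F ι} {U : L.Level} {φ φ' : HF F × D U → ℂ}

theorem AutForm.cmul (h : AutForm φ) (c : ℂ) : AutForm (fun x => c * φ x) := by
  have h1 := Cls.AutForm_lin ({()} : Finset Unit) (fun _ => c) (φ := fun _ => φ) (fun _ _ => h)
  simpa using h1

theorem cof_cmul (h : IsInv φ) (c : ℂ) (ξ : F) (p : HF F) (d : D U) :
    cof (fun x => c * φ x) ξ p d = c * cof φ ξ p d := by
  obtain ⟨N, hN, hd⟩ := exists_Lvl (F := F) d
  exact fc_const_mul hN (h.per hd p) c ξ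

theorem EqvAt.cmul {v : ι} {J : Subgroup (L.G v)} {ψ : L.G v → ℂ} (h : EqvAt v J ψ φ) (c : ℂ) :
    EqvAt v J ψ (fun x => c * φ x) := by
  intro p d g j hj hg
  simp only
  rw [h p d g j hj hg]
  ring

theorem HeckeAt.cmul {v : ι} {H : HData L v} {lam : ℂ} (h : HeckeAt H lam φ) (c : ℂ) :
    HeckeAt H lam (fun x => c * φ x) := by
  intro p d g hg
  have h1 := h p d g hg
  simp only [← Finset.mul_sum]
  rw [← mul_add, h1]
  ring

variable {B : Finset ι} {a0 : Fˣ} {J : ∀ v, Subgroup (L.G v)} {ψ : ∀ v, L.G v → ℂ}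
  {I : ι → Type} [∀ v, Fintype (I v)] {H : ∀ v, I v → HData L v} {lam : ∀ v, I v → ℂ}

/-- **Multiplicity one**: forms of the same type and eigenvalues are proportional. -/
theorem AutForm.eq_smul_of_type (hT : TypeData L B a0 J ψ I H U) (h : AutForm φ)
    (h' : AutForm φ') (he : ∀ v ∈ B, EqvAt v (J v) (ψ v) φ)
    (he' : ∀ v ∈ B, EqvAt v (J v) (ψ v) φ') (hh : ∀ v ∉ B, ∀ i, HeckeAt (H v i) (lam v i) φ)
    (hh' : ∀ v ∉ B, ∀ i, HeckeAt (H v i) (lam v i) φ') (p : HF F)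
    (h0 : cof φ (a0 : F) p (D.base U) ≠ 0) :
    ∀ x, φ' x = (cof φ' (a0 : F) p (D.base U) / cof φ (a0 : F) p (D.base U)) * φ x := by
  have h1 := AutForm.eq_of_type hT h' (h.cmul (cof φ' (a0 : F) p (D.base U) /
    cof φ (a0 : F) p (D.base U))) he' (fun v hv => (he v hv).cmul _) hh'
    (fun v hv i => (hh v hv i).cmul _) p (by
      rw [cof_cmul h.toIsInv, div_mul_cancel₀ _ h0])
  exact fun x => congrFun h1 x

/-- a form of a given type with nonzero coefficient is not zero -/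
theorem AutForm.ne_zero_of_cof (p : HF F) {d : D U} {ξ : F} (h : IsInv φ)
    (h0 : cof φ ξ p d ≠ 0) : φ ≠ 0 := by
  rintro rfl
  apply h0
  have h1 := cof_sub h h ξ p d
  rw [sub_self] at h1
  have h2 : (fun x : HF F × D U => (0 : HF F × D U → ℂ) x - (0 : HF F × D U → ℂ) x) = 0 := by
    funext x
    exact sub_self _
  rwa [h2] at h1

/-- multiplicity one, without coefficients -/
theorem AutForm.exists_smul_of_type (hT : TypeData L B a0 J ψ I H U) (h : AutForm φ)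
    (h' : AutForm φ') (he : ∀ v ∈ B, EqvAt v (J v) (ψ v) φ)
    (he' : ∀ v ∈ B, EqvAt v (J v) (ψ v) φ') (hh : ∀ v ∉ B, ∀ i, HeckeAt (H v i) (lam v i) φ)
    (hh' : ∀ v ∉ B, ∀ i, HeckeAt (H v i) (lam v i) φ') (h0 : φ ≠ 0) :
    ∃ c : ℂ, ∀ x, φ' x = c * φ x := by
  refine ⟨_, h.eq_smul_of_type hT h' he he' hh hh' pt1 fun h1 => h0 ?_⟩
  exact h.eq_zero_of_type hT he hh pt1 h1

/-- the data of the type from the structure of the bad places -/
theorem typeData_of_adic {P : Ty.Par F} (hA : T4.Adic L B P.N) (hnt : ∀ v, Nontrivial (L.R v))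
    (hj : P.j ≠ 0) (hgood : ∀ v ∉ B, GoodPlace L v (H v)) (hU : ∀ v ∉ B, U.U v = PO (L.O v))
    (hU' : ∀ v ∈ B, U.U v ≤ P.J L v) :
    TypeData L B P.a0 (P.J L) (P.psi L) I H U := by
  refine Ty.Par.typeData (fun v hv y hy => ?_) hnt (fun v hv => ?_) hj hgood hU hU'
  · obtain ⟨d, hd, rfl⟩ := hy
    rw [pow_one]
    exact hA.deep v hv d hd
  · refine ⟨_, hA.unit v hv, ?_⟩
    rw [← map_natCast (L.loc v), ← map_mul, mul_inv_cancel₀ P.N_ne, map_one]

/-- the level of the type is stable -/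
theorem map_mem_PK (A : Auto L) {v : ι} {N : ℕ} {γ : L.G v} (h : γ ∈ PK (L.O v) N) :
    A.g v γ ∈ PK (L.O v) N := by
  obtain ⟨g, hg, rfl⟩ := h
  refine ⟨GeneralLinearGroup.map (A.s v : L.R v →+* L.R v) g, ⟨A.map_mem_GLO hg.1, fun i j => ?_⟩,
    ?_⟩
  · have h1 := hg.2 i j
    rw [mem_NO] at h1 ⊢
    obtain ⟨z, hz, e⟩ := h1
    refine ⟨A.s v z, (A.mem_O_iff v z).mpr hz, ?_⟩
    have e2 : (GeneralLinearGroup.map (A.s v : L.R v →+* L.R v) g) i j -
        (1 : Matrix (Fin 2) (Fin 2) (L.R v)) i j =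
        A.s v (g i j - (1 : Matrix (Fin 2) (Fin 2) (L.R v)) i j) := by
      rw [map_sub]
      congr 1
      by_cases hij : i = j
      · rw [hij, Matrix.one_apply_eq, map_one]
      · rw [Matrix.one_apply_ne hij, map_zero]
    rw [e2, e, map_mul, map_natCast]
  · rw [Auto.g, ProjGenLinGroup.map_mk]

theorem pres_of_PK (A : Auto L) {m : ℕ} (hU : ∀ v ∉ B, U.U v = PO (L.O v))
    (hU' : ∀ v ∈ B, U.U v = PK (L.O v) m) : A.Pres U := by
  classical
  intro v γ hγ
  by_cases hv : v ∈ B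
  · rw [hU' v hv] at hγ ⊢
    exact map_mem_PK A hγ
  · rw [hU v hv] at hγ ⊢
    exact A.map_mem_PO hγ

end Gen

section E

variable {k : Type*} [Field k] [NumberField k] {E : Type} [Field E] [NumberField E]
  [IsTotallyComplex E] [Algebra k E] {U : (locE k E).Level} {φ φ' : HF E × D U → ℂ}
  {P : Ty.Par E}

theorem typeData_E (hN : 0 < P.N) (hj : P.j ≠ 0)
    (hU : ∀ v ∉ T4.plN k P.N, U.U v = PO ((locE k E).O v))
    (hU' : ∀ v ∈ T4.plN k P.N, U.U v ≤ P.J (locE k E) v) :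
    TypeData (locE k E) (T4.plN k P.N) P.a0 (P.J (locE k E)) (P.psi (locE k E))
      (fun v => Fib E v) (fun _ w => HE w) U :=
  typeData_of_adic (T4.adic_locE k E hN) (fun v => (inferInstance : Nontrivial (RE E v))) hj
    (fun v _ => goodPlace_E v) hU hU'

/-- **Galois invariance of the form over `E`.** -/
theorem AutForm.act_eq_par (hN : 0 < P.N) (hj : P.j ≠ 0)
    (hU : ∀ v ∉ T4.plN k P.N, U.U v = PO ((locE k E).O v))
    (hU' : ∀ v ∈ T4.plN k P.N, U.U v ≤ P.J (locE k E) v)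
    {σ : E ≃ₐ[k] E} (hσ : LT.Loc.Gal3 σ) (hP : (autoE σ).Pres U)
    {lam : ∀ v : HeightOneSpectrum (𝓞 k), Fib E v → ℂ}
    (hlam : ∀ v ∉ T4.plN k P.N, ∀ w, lam v (actF σ w) = lam v w) (h : AutForm φ)
    (he : ∀ v ∈ T4.plN k P.N, EqvAt v (P.J (locE k E) v) (P.psi (locE k E) v) φ)
    (hh : ∀ v ∉ T4.plN k P.N, ∀ w : Fib E v, HeckeAt (HE w) (lam v w) φ) :
    (fun y => φ ((Auto.twist (isCubic_autoE hσ) hP).act y)) = φ :=
  h.act_eq_E (typeData_E hN hj hU hU') hσ hP (by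
      have h1 := congrArg σ P.a0_mul
      rw [map_mul, map_one, map_pow, map_natCast] at h1
      have h2 : σ (P.a0 : E) * (P.N : E) ^ (3 * P.j) = (P.a0 : E) * (P.N : E) ^ (3 * P.j) := by
        rw [h1, P.a0_mul]
      exact mul_right_cancel₀ (pow_ne_zero _ P.N_ne) h2)
    (fun v _ j hj' => (Ty.Par.g_mem_J_iff (autoE σ)).mpr hj')
    (fun v _ j _ => Ty.Par.psi_g (autoE σ) j) hlam he hh

end E

end Fermat.Agent.LT.Fou
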