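import Fermat.Agent.LT.Fou.Coef
import Fermat.Agent.LT.Sp.Cor
import Fermat.Agent.LT.H3.Horo

set_option autoImplicit false
set_option linter.unusedSectionVars false

/-! # Fourier coefficients of automorphic functions on `∏ H³ × D` -/

namespace Fermat.Agent.LT.Fou

open MeasureTheory Complex Topology NumberField Sp
open scoped Real ComplexConjugate

section Tra

variable {F : Type*} [Field F]

/-- translation of the `z`-coordinates -/
def tra (v : InfinitePlace F → ℂ) (p : HF F) : HF F := fun w => ⟨(p w).z + v w, (p w).y, (p w).pos⟩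

@[simp] theorem tra_z (v : InfinitePlace F → ℂ) (p : HF F) (w : InfinitePlace F) :
    (tra v p w).z = (p w).z + v w := rfl

@[simp] theorem tra_y (v : InfinitePlace F → ℂ) (p : HF F) (w : InfinitePlace F) :
    (tra v p w).y = (p w).y := rfl

theorem tra_zero (p : HF F) : tra 0 p = p := by
  funext w
  apply H3.ext <;> simp

theorem tra_add (u v : InfinitePlace F → ℂ) (p : HF F) : tra (u + v) p = tra u (tra v p) := by
  funext w
  apply H3.ext
  · simp only [tra_z, Pi.add_apply]; ring
  · simp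

theorem nMat_smul_HF (b : F) (p : HF F) : nMat b • p = tra (emb b) p := by
  funext w
  apply H3.ext
  · rw [nMat_smul_z]; rfl
  · rw [nMat_smul_y]; rfl

theorem aMat_smul_z (a : Fˣ) (p : HF F) (w : InfinitePlace F) :
    ((aMat a • p) w).z = w.embedding (a : F) * (p w).z := by
  rw [smul_HF_apply, H3.smul_z]
  have e1 : (embGL w (aMat a)) 0 0 = w.embedding (a : F) := by rw [embGL_apply, aMat_coe]; simp
  have e2 : (embGL w (aMat a)) 0 1 = 0 := by rw [embGL_apply, aMat_coe]; simp
  have e3 : (embGL w (aMat a)) 1 0 = 0 := by rw [embGL_apply, aMat_coe]; simp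
  have e4 : (embGL w (aMat a)) 1 1 = 1 := by rw [embGL_apply, aMat_coe]; simp
  rw [e1, e2, e3, e4]
  simp [H3.num, H3.den]

theorem aMat_smul_y (a : Fˣ) (p : HF F) (w : InfinitePlace F) :
    ((aMat a • p) w).y = ‖w.embedding (a : F)‖ * (p w).y := by
  rw [smul_HF_apply, H3.smul_y, det_embGL]
  have e3 : (embGL w (aMat a)) 1 0 = 0 := by rw [embGL_apply, aMat_coe]; simp
  have e4 : (embGL w (aMat a)) 1 1 = 1 := by rw [embGL_apply, aMat_coe]; simp
  rw [e3, e4, aMat_coe]
  simp [H3.den]

theorem aMat_smul_tra (a : Fˣ) (v : InfinitePlace F → ℂ) (p : HF F) :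
    aMat a • tra v p = tra (emb (a : F) * v) (aMat a • p) := by
  funext w
  apply H3.ext
  · rw [aMat_smul_z, tra_z, tra_z, aMat_smul_z, Pi.mul_apply, emb_apply]; ring
  · rw [aMat_smul_y, tra_y, tra_y, aMat_smul_y]

theorem aMat_inv (a : Fˣ) : (aMat a)⁻¹ = aMat a⁻¹ := by
  rw [inv_eq_iff_mul_eq_one]
  apply Units.ext
  rw [Units.val_mul, aMat_coe, aMat_coe, Units.val_one]
  simp [Matrix.one_fin_two]

theorem nMat_neg_inv (b : F) : (nMat b)⁻¹ = nMat (-b) := by
  rw [inv_eq_iff_mul_eq_one]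
  apply Units.ext
  rw [Units.val_mul, nMat_coe, nMat_coe, Units.val_one]
  simp [Matrix.one_fin_two]

theorem continuous_tra : Continuous fun q : (InfinitePlace F → ℂ) × HF F => tra q.1 q.2 := by
  apply continuous_pi
  intro w
  apply H3.continuous_mk
  · exact (H3.continuous_z.comp ((continuous_apply w).comp continuous_snd)).add
      ((continuous_apply w).comp continuous_fst)
  · have h : Continuous fun x : (InfinitePlace F → ℂ) × HF F => (x.2 w).y :=
      H3.continuous_y.comp ((continuous_apply w).comp continuous_snd)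
    exact h

theorem continuous_tra_left (p : HF F) : Continuous fun v : InfinitePlace F → ℂ => tra v p :=
  continuous_tra.comp (by fun_prop : Continuous fun v : InfinitePlace F → ℂ => (v, p))

/-- change of one coordinate -/
noncomputable def upd (p : HF F) (w : InfinitePlace F) (q : H3) : HF F :=
  open Classical in fun w' => if w' = w then q else p w'

theorem upd_same (p : HF F) (w : InfinitePlace F) (q : H3) : upd p w q w = q := if_pos rfl

theorem upd_ne (p : HF F) {w w' : InfinitePlace F} (h : w' ≠ w) (q : H3) : upd p w q w' = p w' :=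
  if_neg h

theorem upd_self (p : HF F) (w : InfinitePlace F) : upd p w (p w) = p := by
  funext w'
  by_cases h : w' = w
  · rw [h, upd_same]
  · rw [upd_ne p h]

theorem continuous_upd (w : InfinitePlace F) : Continuous fun x : HF F × H3 => upd x.1 w x.2 := by
  apply continuous_pi
  intro w'
  by_cases h : w' = w
  · subst h
    simp only [upd_same]
    exact continuous_snd
  · simp only [upd_ne _ h]
    exact (continuous_apply w').comp continuous_fst

/-- translation of `H3` -/
def tra3 (z : ℂ) (q : H3) : H3 := ⟨q.z + z, q.y, q.pos⟩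

theorem tra3_eq (z : ℂ) (q : H3) : tra3 z q = H3.upTri 1 z 1 (by simp) • q := by
  have e : ((H3.upTri 1 z 1 (by simp) : GL (Fin 2) ℂ) : Matrix (Fin 2) (Fin 2) ℂ) = !![1, z; 0, 1] :=
    H3.upTri_coe _ _ _ _
  have h : (H3.upTri 1 z 1 (by simp) : GL (Fin 2) ℂ) 1 0 = 0 := by rw [e]; rfl
  apply H3.ext
  · rw [H3.smul_z_of_upper h, e]
    simp [tra3]
  · rw [H3.smul_y_of_upper h, e]
    simp [tra3]

theorem cd_tra3 (z : ℂ) (p q : H3) : H3.cd (tra3 z p) (tra3 z q) = H3.cd p q := by
  rw [tra3_eq, tra3_eq, H3.cd_smul]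

theorem integral_tra3 {E : Type*} [NormedAddCommGroup E] [NormedSpace ℝ E] (z : ℂ) (f : H3 → E) :
    ∫ q, f (tra3 z q) = ∫ q, f q := by
  simp only [tra3_eq]
  exact H3.integral_smul_H3 _ f

theorem tra_upd (v : InfinitePlace F → ℂ) (p : HF F) (w : InfinitePlace F) (q : H3) :
    tra v (upd p w q) = upd (tra v p) w (tra3 (v w) q) := by
  funext w'
  by_cases h : w' = w
  · subst h
    rw [upd_same]
    show (⟨(upd p w' q w').z + v w', (upd p w' q w').y, _⟩ : H3) = _
    simp only [upd_same]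
    rfl
  · rw [upd_ne _ h]
    show (⟨(upd p w q w').z + v w', (upd p w q w').y, _⟩ : H3) = _
    simp only [upd_ne _ h]
    rfl

end Tra

section Form

variable {F : Type*} [Field F] [NumberField F] [IsTotallyComplex F]
variable {D : Type*} [MulAction (GL (Fin 2) F) D]

/-- continuous invariant functions -/
structure IsInv (φ : HF F × D → ℂ) : Prop where
  cont : ∀ d, Continuous fun p => φ (p, d)
  inv : ∀ (g : GL (Fin 2) F) (p : HF F) (d : D), φ (g • p, g • d) = φ (p, d)

/-- `N·𝓞` fixes `d` -/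
def Lvl (N : ℕ) (d : D) : Prop := ∀ t : 𝓞 F, nMat ((N : F) * t) • d = d

theorem exists_Lvl [FinPart F D] (d : D) : ∃ N : ℕ, N ≠ 0 ∧ Lvl (F := F) N d :=
  exists_mul_mem_trans d

theorem Lvl.mono {N N' : ℕ} (h : N ∣ N') {d : D} (hd : Lvl (F := F) N d) : Lvl (F := F) N' d := by
  obtain ⟨k, rfl⟩ := h
  intro t
  have := hd (k * t)
  rw [← this]
  congr 2
  push_cast
  ring

variable {φ : HF F × D → ℂ}

theorem IsInv.inv_left (h : IsInv φ) (g : GL (Fin 2) F) (p : HF F) (d : D) :
    φ (p, g • d) = φ (g⁻¹ • p, d) := by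
  rw [← h.inv g (g⁻¹ • p) d, smul_inv_smul]

theorem IsInv.per (h : IsInv φ) {N : ℕ} {d : D} (hd : Lvl (F := F) N d) (p : HF F) :
    Per N (fun v => φ (tra v p, d)) := by
  refine ⟨(h.cont d).comp (continuous_tra_left p), fun a v => ?_⟩
  rw [add_comm, tra_add, ← nMat_smul_HF]
  conv_lhs => rw [← hd a]
  exact h.inv _ _ _

/-- the Fourier coefficients -/
noncomputable def cof (φ : HF F × D → ℂ) (ξ : F) (p : HF F) (d : D) : ℂ :=
  fc (fun v => φ (tra v p, d)) ξ

variable [FinPart F D]

theorem cof_tra (h : IsInv φ) (ξ : F) (u : InfinitePlace F → ℂ) (p : HF F) (d : D) :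
    cof φ ξ (tra u p) d = ev ξ u * cof φ ξ p d := by
  obtain ⟨N, hN, hd⟩ := exists_Lvl (F := F) d
  unfold cof
  rw [← fc_trans hN (h.per hd p)]
  congr 1
  funext v
  rw [tra_add]

theorem cof_nMat (h : IsInv φ) (ξ : F) (b : F) (p : HF F) (d : D) :
    cof φ ξ p (nMat b • d) = ev ξ (emb (-b)) * cof φ ξ p d := by
  rw [← cof_tra h]
  unfold cof
  congr 1
  funext v
  rw [h.inv_left, nMat_neg_inv, nMat_smul_HF, ← tra_add, ← tra_add, add_comm]

theorem cof_aMat (h : IsInv φ) (ξ : F) (a : Fˣ) (p : HF F) (d : D) :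
    cof φ ξ p (aMat a • d) = cof φ ((a : F) * ξ) (aMat a⁻¹ • p) d := by
  obtain ⟨N, hN, hd⟩ := exists_Lvl (F := F) d
  unfold cof
  have h1 : ((a⁻¹ : Fˣ) : F) ≠ 0 := a⁻¹.ne_zero
  rw [← fc_scale hN (h.per hd (aMat a⁻¹ • p)) h1]
  congr 1
  · funext v
    rw [h.inv_left, aMat_inv, aMat_smul_tra]
  · rw [← mul_assoc]
    simp

/-- the support of the Fourier coefficients -/
theorem cof_eq_zero (h : IsInv φ) {N : ℕ} (hN : N ≠ 0) {d : D} (hd : Lvl (F := F) N d) {ξ : F}
    (hξ : ¬ IsDual N ξ) (p : HF F) : cof φ ξ p d = 0 :=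
  fc_eq_zero hN (h.per hd p) hξ

/-- uniqueness -/
theorem eq_of_cof {ψ : HF F × D → ℂ} (h : IsInv φ) (h' : IsInv ψ) (d : D)
    (hc : ∀ ξ p, cof φ ξ p d = cof ψ ξ p d) (p : HF F) : φ (p, d) = ψ (p, d) := by
  obtain ⟨N, hN, hd⟩ := exists_Lvl (F := F) d
  have := congrFun (eq_of_fc hN (h.per hd p) (h'.per hd p) fun ξ => hc ξ p) 0
  simpa only [tra_zero] using this

theorem norm_cof_le (h : IsInv φ) {C : ℝ} {d : D} (p : HF F)
    (hC : ∀ v, ‖φ (tra v p, d)‖ ≤ C) (ξ : F) : ‖cof φ ξ p d‖ ≤ C := by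
  obtain ⟨N, hN, hd⟩ := exists_Lvl (F := F) d
  exact norm_fc_le hN (h.per hd p) hC ξ

/-- integral formula for the coefficient -/
theorem exists_cof_formula (h : IsInv φ) (ξ : F) (d : D) : ∃ N : ℕ, N ≠ 0 ∧ ∀ p : HF F,
    cof φ ξ p d = ∫ t in box (0 : Ix F → ℤ), φ (tra (crd N t) p, d) * ev (-ξ) (crd N t) := by
  obtain ⟨N0, hN0, hd⟩ := exists_Lvl (F := F) d
  obtain ⟨N, hN, hdv, hξ, hf⟩ := exists_level hN0 ξ
  exact ⟨N, hN, fun p => hf (h.per hd p)⟩

theorem continuous_cof (h : IsInv φ) (ξ : F) (d : D) : Continuous fun p => cof φ ξ p d := by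
  obtain ⟨N, hN, hf⟩ := exists_cof_formula h ξ d
  simp only [hf]
  have hc : Continuous (Function.uncurry fun (p : HF F) (t : Ix F → ℝ) =>
      φ (tra (crd N t) p, d) * ev (-ξ) (crd N t)) := by
    have c1 : Continuous fun x : HF F × (Ix F → ℝ) => crd (F := F) N x.2 :=
      (continuous_crd (F := F) N).comp continuous_snd
    have c2 : Continuous fun x : HF F × (Ix F → ℝ) => tra (crd N x.2) x.1 :=
      continuous_tra.comp (c1.prodMk continuous_fst)
    exact ((h.cont d).comp c2).mul ((continuous_ev (-ξ)).comp c1)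
  -- the box is contained in a compact set
  have e : ∀ p : HF F, ∫ t in box (0 : Ix F → ℤ), φ (tra (crd N t) p, d) * ev (-ξ) (crd N t) =
      ∫ t in Set.Icc (0 : Ix F → ℝ) 1, φ (tra (crd N t) p, d) * ev (-ξ) (crd N t) := by
    intro p
    apply setIntegral_congr_set
    have h1 : box (0 : Ix F → ℤ) = Set.univ.pi fun _ => Set.Ioc (0 : ℝ) 1 := by
      ext x; simp [box]
    rw [h1]
    exact Measure.univ_pi_Ioc_ae_eq_Icc (f := fun _ : Ix F => (0 : ℝ)) (g := fun _ => (1 : ℝ))
  simp only [e]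
  exact continuous_parametric_integral_of_continuous hc isCompact_Icc

/-- **The Fourier coefficients inherit the eigenvalue equations.** -/
theorem cof_eig (h : IsInv φ) (w : InfinitePlace F) {k : ℝ → ℝ} (hk : Continuous k)
    (hs : HasCompactSupport k) {c : ℂ} {d : D}
    (he : ∀ p, ∫ q : H3, k (H3.cd (p w) q) • φ (upd p w q, d) = c * φ (p, d)) (ξ : F) (p : HF F) :
    ∫ q : H3, k (H3.cd (p w) q) • cof φ ξ (upd p w q) d = c * cof φ ξ p d := by
  obtain ⟨N, hN, hf⟩ := exists_cof_formula h ξ d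
  simp only [hf]
  obtain ⟨R, hR1, hR⟩ := H3.exists_R hs
  set G : (Ix F → ℝ) → H3 → ℂ := fun t q =>
    k (H3.cd (p w) q) • (φ (tra (crd N t) (upd p w q), d) * ev (-ξ) (crd N t)) with hG
  have hGc : Continuous (Function.uncurry G) := by
    rw [hG]
    have c1 : Continuous fun x : (Ix F → ℝ) × H3 => crd (F := F) N x.1 :=
      (continuous_crd (F := F) N).comp continuous_fst
    have c0 : Continuous fun x : (Ix F → ℝ) × H3 => upd p w x.2 :=
      (continuous_upd w).comp (continuous_const.prodMk continuous_snd)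
    have c2 : Continuous fun x : (Ix F → ℝ) × H3 => tra (crd N x.1) (upd p w x.2) :=
      continuous_tra.comp (c1.prodMk c0)
    have c3 : Continuous fun x : (Ix F → ℝ) × H3 => k (H3.cd (p w) x.2) :=
      hk.comp ((H3.continuous_cd_right (p w)).comp continuous_snd)
    exact c3.smul (((h.cont d).comp c2).mul ((continuous_ev (-ξ)).comp c1))
  have hGint : Integrable (Function.uncurry G)
      (((volume : Measure (Ix F → ℝ)).restrict (box 0)).prod (volume : Measure H3)) := by
    have hK : IsCompact (Set.Icc (0 : Ix F → ℝ) 1 ×ˢ {q : H3 | H3.cd (p w) q ≤ R}) :=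
      isCompact_Icc.prod (H3.isCompact_ball (p w) R)
    have h1 : IntegrableOn (Function.uncurry G)
        (Set.Icc (0 : Ix F → ℝ) 1 ×ˢ {q : H3 | H3.cd (p w) q ≤ R})
        ((volume : Measure (Ix F → ℝ)).prod (volume : Measure H3)) :=
      hGc.continuousOn.integrableOn_compact hK
    have h2 : IntegrableOn (Function.uncurry G)
        ((box 0 : Set (Ix F → ℝ)) ×ˢ {q : H3 | H3.cd (p w) q ≤ R})
        ((volume : Measure (Ix F → ℝ)).prod (volume : Measure H3)) := by
      apply h1.mono_set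
      apply Set.prod_mono_left
      intro t ht
      exact ⟨fun i => by simpa using (ht i).1.le, fun i => by simpa using (ht i).2⟩
    have h3 : IntegrableOn (Function.uncurry G)
        ((box 0 : Set (Ix F → ℝ)) ×ˢ (Set.univ : Set H3))
        ((volume : Measure (Ix F → ℝ)).prod (volume : Measure H3)) := by
      apply h2.of_forall_sdiff_eq_zero
      · exact (measurableSet_box 0).prod MeasurableSet.univ
      · rintro ⟨t, q⟩ ⟨⟨ht, _⟩, hq⟩
        have hq2 : ¬ H3.cd (p w) q ≤ R := fun hle => hq ⟨ht, hle⟩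
        show k (H3.cd (p w) q) • _ = (0 : ℂ)
        rw [hR _ (not_le.mp hq2), zero_smul]
    rw [IntegrableOn, ← Measure.prod_restrict, Measure.restrict_univ] at h3
    exact h3
  have e1 : ∫ q : H3, k (H3.cd (p w) q) • ∫ t in box (0 : Ix F → ℤ),
      φ (tra (crd N t) (upd p w q), d) * ev (-ξ) (crd N t) =
      ∫ q : H3, ∫ t in box (0 : Ix F → ℤ), G t q := by
    congr 1
    funext q
    rw [← integral_smul]
  rw [e1, ← integral_integral_swap hGint, ← integral_const_mul]
  congr 1
  funext t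
  have e2 : ∀ q, G t q = ev (-ξ) (crd N t) * (k (H3.cd (p w) q) •
      φ (tra (crd N t) (upd p w q), d)) := by
    intro q
    simp only [hG]
    rw [mul_smul_comm, mul_comm (ev _ _)]
  simp only [e2]
  rw [integral_const_mul]
  have e3 : ∫ q : H3, k (H3.cd (p w) q) • φ (tra (crd N t) (upd p w q), d) =
      c * φ (tra (crd N t) p, d) := by
    have e4 := integral_tra3 ((crd N t : InfinitePlace F → ℂ) w)
      (fun q => k (H3.cd ((tra (crd N t) p) w) q) • φ (upd (tra (crd N t) p) w q, d))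
    rw [← he (tra (crd N t) p), ← e4]
    congr 1
    funext q
    rw [tra_upd]
    congr 2
    exact (cd_tra3 (crd N t w) (p w) q).symm
  rw [e3]
  ring

end Form

end Fermat.Agent.LT.Fou
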