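import Fermat.Agent.LT.Fou.RegKer
import Fermat.Agent.LT.Op.Arch
import Fermat.Agent.LT.FA.AutKer

set_option autoImplicit false
set_option linter.unusedSectionVars false

/-! # Regularity of the eigenvectors -/

namespace Fermat.Agent.LT.Reg

open MeasureTheory NumberField Topology Module
open scoped MatrixGroups ContDiff NNReal ENNReal
open FA Sp Fou Op

variable {F : Type*} [Field F] [NumberField F] [IsTotallyComplex F]
variable {D : Type*} [MulAction (GL (Fin 2) F) D] [FinPart F D] [MeasurableSpace D]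
  [DiscreteMeasurableSpace D] [Countable D]

/-- the regular representative -/
noncomputable def rf (K : HF F × D → HF F × D → ℂ) (ν : Measure (HF F × D)) (a : ℂ)
    (f : HF F × D → ℂ) (y : HF F × D) : ℂ := a⁻¹ * ∫ y', K y y' * f y' ∂ν

section rf

variable {K : HF F × D → HF F × D → ℂ} {ν : Measure (HF F × D)} {a : ℂ} {f : HF F × D → ℂ}

theorem rf_bdd (hK : RegKer K) (hf : Integrable f ν) : ∃ C : ℝ, ∀ y, ‖rf K ν a f y‖ ≤ C := by
  obtain ⟨C, hC⟩ := hK.bdd
  refine ⟨‖a⁻¹‖ * ∫ y', C * ‖f y'‖ ∂ν, fun y => ?_⟩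
  rw [rf, norm_mul]
  refine mul_le_mul_of_nonneg_left ?_ (norm_nonneg _)
  refine norm_integral_le_of_norm_le (hf.norm.const_mul C) (Filter.Eventually.of_forall fun y' => ?_)
  rw [norm_mul]
  exact mul_le_mul_of_nonneg_right (hC y y') (norm_nonneg _)

theorem rf_inv (hK : RegKer K) (g : PGL(2, F)) (y : HF F × D) :
    rf K ν a f (g • y) = rf K ν a f y := by
  simp only [rf, hK.inv]

theorem rf_cont (hK : RegKer K) (hf : Integrable f ν) (d : D) :
    Continuous fun p : HF F => rf K ν a f (p, d) := by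
  obtain ⟨C, hC⟩ := hK.bdd
  refine continuous_const.mul ?_
  refine continuous_of_dominated (bound := fun y' => C * ‖f y'‖) ?_ ?_ (hf.norm.const_mul C) ?_
  · intro p
    have h1 : Measurable fun y' : HF F × D => K (p, d) y' := hK.meas.comp measurable_prodMk_left
    exact h1.aestronglyMeasurable.mul hf.aestronglyMeasurable
  · intro p
    refine Filter.Eventually.of_forall fun y' => ?_
    rw [norm_mul]
    exact mul_le_mul_of_nonneg_right (hC _ y') (norm_nonneg _)
  · exact Filter.Eventually.of_forall fun y' => (hK.cont d y').mul continuous_const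

theorem rf_isInv (hK : RegKer K) (hf : Integrable f ν) : IsInv (rf K ν a f) where
  cont d := rf_cont hK hf d
  inv g p d := rf_inv hK (Matrix.ProjGenLinGroup.mk g) (p, d)

theorem trF_eq_tra (v : InfinitePlace F → ℂ) (p : HF F) : Bd.trF v p = tra v p := rfl

theorem isDual_zero (N : ℕ) : IsDual N (0 : F) := fun b => ⟨0, by simp⟩

theorem rf_cusp (hK : RegKer K) [SFinite ν] (hf : Integrable f ν) (p : HF F) (d : D) :
    cof (rf K ν a f) 0 p d = 0 := by
  obtain ⟨C, hC⟩ := hK.bdd
  obtain ⟨N, hN, hd⟩ := exists_Lvl (F := F) d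
  have hI : IsInv (rf K ν a f) := rf_isInv hK hf
  rw [cof, fc_eq hN (hI.per hd p) (isDual_zero N), mn, boxMean]
  have h1 : ∀ t : Ix F → ℝ, rf K ν a f (tra (crd N t) p, d) * ev (-(0 : F)) (crd N t) =
      a⁻¹ * ∫ y', K (tra (crd N t) p, d) y' * f y' ∂ν := by
    intro t
    rw [neg_zero, ev_zero, mul_one, rf]
  simp_rw [h1]
  rw [integral_const_mul, integral_integral_swap]
  · have h2 : ∀ y', ∫ t in box (0 : Ix F → ℤ), K (tra (crd N t) p, d) y' * f y' = 0 := by
      intro y'
      rw [integral_mul_const]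
      have h3 := boxMean_eq_zero (F := F) hN (g := fun v => K (Bd.trF v p, d) y')
        (hK.mean d N hN (fun i => ⟨(N : F) * integralBasis F i, ?_, fun w => Bd.bN_apply F N hN i w⟩)
          p y')
      · simp only [trF_eq_tra] at h3
        rw [h3, zero_mul]
      · rw [integralBasis_apply]
        exact hd (RingOfIntegers.basis F i)
    simp_rw [h2]
    simp
  · have hm : Measurable fun q : (Ix F → ℝ) × (HF F × D) => K (tra (crd N q.1) p, d) q.2 := by
      have c1 : Continuous fun t : Ix F → ℝ => tra (crd N t) p :=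
        (continuous_tra_left p).comp (continuous_crd N)
      have c2 : Measurable fun q : (Ix F → ℝ) × (HF F × D) => tra (crd N q.1) p :=
        c1.measurable.comp measurable_fst
      have c3 : Measurable fun q : (Ix F → ℝ) × (HF F × D) => ((tra (crd N q.1) p, d), q.2) :=
        (c2.prodMk measurable_const).prodMk measurable_snd
      exact hK.meas.comp c3
    have hb : Integrable (fun q : (Ix F → ℝ) × (HF F × D) => C * ‖f q.2‖)
        (((volume : Measure (Ix F → ℝ)).restrict (box 0)).prod ν) := by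
      have := (integrable_const (μ := (volume : Measure (Ix F → ℝ)).restrict (box 0))
        (C : ℝ)).mul_prod hf.norm
      exact this
    refine hb.mono' ?_ (Filter.Eventually.of_forall fun q => ?_)
    · exact hm.aestronglyMeasurable.mul hf.aestronglyMeasurable.comp_snd
    · show ‖K (tra (crd N q.1) p, d) q.2 * f q.2‖ ≤ _
      rw [norm_mul]
      exact mul_le_mul_of_nonneg_right (hC _ _) (norm_nonneg _)

end rf

section eig

/-- continuity of the operators in one variable -/
theorem continuous_eigL {φ : HF F × D → ℂ} (hφ : IsInv φ) (j : InfinitePlace F) {k : ℝ → ℝ}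
    (hk : Continuous k) (hs : HasCompactSupport k) (d : D) :
    Continuous fun p : HF F => ∫ q : H3, k (H3.cd (p j) q) • φ (upd p j q, d) := by
  set κ := H3.kerOf hk hs with hκ
  have h : (fun p : HF F => ∫ q : H3, k (H3.cd (p j) q) • φ (upd p j q, d)) =
      fun p : HF F => ∫ q in {q | H3.cd H3.j q ≤ κ.R}, κ.k H3.j q •
        φ (upd p j (IKer.mv (p j) q), d) := by
    funext p
    have h1 := κ.op_eq (fun q => φ (upd p j q, d)) (p j)
    rw [IKer.op_def] at h1
    have h2 : ∫ q : H3, k (H3.cd (p j) q) • φ (upd p j q, d) =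
        ∫ q : H3, κ.k (p j) q • φ (upd p j q, d) := rfl
    rw [h2, h1]
    refine (setIntegral_eq_integral_of_forall_compl_eq_zero fun q hq => ?_).symm
    rw [κ.supp H3.j q (not_le.mp hq), zero_smul]
  rw [h]
  refine continuous_parametric_integral_of_continuous ?_ (H3.isCompact_ball H3.j κ.R)
  have c0 : Continuous fun x : HF F × H3 => (x.1 j, x.2) :=
    ((Bd.continuous_applyHF j).comp continuous_fst).prodMk continuous_snd
  have c1 : Continuous fun x : HF F × H3 => IKer.mv (x.1 j) x.2 := by
    have := IKer.continuous_mv.comp c0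
    simpa only [Function.comp_def] using this
  have c2 : Continuous fun x : HF F × H3 => upd x.1 j (IKer.mv (x.1 j) x.2) := by
    have := (continuous_upd j).comp (continuous_fst.prodMk c1)
    simpa only [Function.comp_def] using this
  have c3 : Continuous fun x : HF F × H3 => φ (upd x.1 j (IKer.mv (x.1 j) x.2), d) :=
    (hφ.cont d).comp c2
  have c4 : Continuous fun x : HF F × H3 => κ.k H3.j x.2 :=
    (κ.continuous_right H3.j).comp continuous_snd
  exact c4.smul c3

theorem isOpenPosMeasure_HF : (volume : Measure (HF F)).IsOpenPosMeasure :=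
  inferInstanceAs ((volume : Measure (InfinitePlace F → H3)).IsOpenPosMeasure)

/-- a.e. equality of functions continuous in the first variable -/
theorem eq_of_ae {u v : HF F × D → ℂ} (hu : ∀ d, Continuous fun p => u (p, d))
    (hv : ∀ d, Continuous fun p => v (p, d)) (h : ∀ᵐ y ∂(muY F D), u y = v y) (y : HF F × D) :
    u y = v y := by
  have h1 := Measure.ae_ae_of_ae_prod h
  have h2 : ∀ᵐ p ∂(volume : Measure (HF F)), ∀ d, u (p, d) = v (p, d) := by
    filter_upwards [h1] with p hp
    rwa [Measure.ae_count_iff] at hp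
  have h3 : (fun p => u (p, y.2)) =ᵐ[volume] fun p => v (p, y.2) := by
    filter_upwards [h2] with p hp
    exact hp y.2
  have := isOpenPosMeasure_HF (F := F)
  have h4 := (Continuous.ae_eq_iff_eq _ (hu y.2) (hv y.2)).mp h3
  exact congrFun h4 y.1

end eig

variable {w : HF F × D → ℝ≥0}

/-- **Regularity.** -/
theorem exists_autForm [SFinite (muY F D)] (hw : IsWt PGL(2, F) (muY F D) w)
    [IsFiniteMeasure (wtM (muY F D) w)] {K : HF F × D → HF F × D → ℂ} (hK : RegKer K) {a : ℂ}
    (ha : a ≠ 0) {x : HA PGL(2, F) (muY F D)}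
    (hx : ∀ᵐ y ∂(muY F D), a * afn x y = ∫ y', K y y' * afn x y' ∂(wtM (muY F D) w))
    (hR : ∀ (j : InfinitePlace F) (k : ℝ → ℝ) (hk : ContDiff ℝ ∞ k) (hs : HasCompactSupport k),
      (densA j (H3.kerOf hk.continuous hs)).cor.op hw x = (H3.khat k : ℂ) • x) :
    ∃ φ : HF F × D → ℂ, AutForm φ ∧ ∀ᵐ y ∂(muY F D), afn x y = φ y := by
  set ν := wtM (muY F D) w with hν
  have hf : Integrable (afn x) ν := (HA.memLp_fn hw x).integrable (by norm_num)
  set φ : HF F × D → ℂ := rf K ν a (afn x) with hφ
  have hI : IsInv φ := rf_isInv hK hf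
  have hae : ∀ᵐ y ∂(muY F D), afn x y = φ y := by
    filter_upwards [hx] with y hy
    rw [hφ, rf, ← hy, inv_mul_cancel_left₀ ha]
  refine ⟨φ, ⟨hI, rf_bdd hK hf, ?_, fun p d => rf_cusp hK hf p d⟩, hae⟩
  intro j k hk hs p d
  have hφm : Measurable φ := by
    have h1 : Measurable (fun p : HF F × D => ∫ y', K p y' * afn x y' ∂ν) := by
      have h2 : Measurable (fun q : (HF F × D) × (HF F × D) => K q.1 q.2 * afn x q.2) :=
        hK.meas.mul ((HA.stronglyMeasurable_fn x).measurable.comp measurable_snd)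
      exact (h2.stronglyMeasurable.integral_prod_right').measurable
    exact h1.const_mul a⁻¹
  set T := (densA (D := D) j (H3.kerOf hk.continuous hs)) with hT
  have e1 := T.cor.op_ae hw x
  have e2 := T.cor.app_congr hae
  have e3 := HA.afn_smulc hw (H3.khat k : ℂ) x
  rw [hR j k hk hs] at e1
  have e4 : ∀ᵐ y ∂(muY F D), (∫ q : H3, k (H3.cd (y.1 j) q) • φ (upd y.1 j q, y.2)) =
      (H3.khat k : ℂ) * φ y := by
    filter_upwards [e1, e2, e3, hae] with y h1 h2 h3 h4
    rw [← h4, ← h3, h1, h2, T.cor_app, integral_baseA j y]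
    · refine integral_congr_ae (Filter.Eventually.of_forall fun q => ?_)
      simp only [kA, upd_same, H3.kerOf_k, Complex.real_smul]
    · exact (T.meas.comp measurable_prodMk_left).mul hφm
  exact eq_of_ae (fun d => continuous_eigL hI j hk.continuous hs d)
    (fun d => continuous_const.mul (hI.cont d)) e4 (p, d)

/-- **Regularity**, for the automorphic kernels. -/
theorem exists_autForm_famKer [SFinite (muY F D)] (hw : IsWt PGL(2, F) (muY F D) w)
    [IsFiniteMeasure (wtM (muY F D) w)] {I : Type*} [Fintype I]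
    {Φ : I → (InfinitePlace F → ℝ) → ℂ} {κ : I → DKer F D} (hΦ : ∀ i, ContDiff ℝ ∞ (Φ i))
    (hc : ∀ i, HasCompactSupport (Φ i)) (h0 : Bd.MeanZero F (Bd.autK (Bd.famKer Φ κ)))
    {A : HA PGL(2, F) (muY F D) →L[ℂ] HA PGL(2, F) (muY F D)} (hA : KRep A (Bd.famKer Φ κ))
    {a : ℂ} (ha : a ≠ 0) {x : HA PGL(2, F) (muY F D)} (hx : A x = a • x)
    (hR : ∀ (j : InfinitePlace F) (k : ℝ → ℝ) (hk : ContDiff ℝ ∞ k) (hs : HasCompactSupport k),
      (densA j (H3.kerOf hk.continuous hs)).cor.op hw x = (H3.khat k : ℂ) • x) :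
    ∃ φ : HF F × D → ℂ, AutForm φ ∧ ∀ᵐ y ∂(muY F D), afn x y = φ y := by
  refine exists_autForm hw (regKer_autK hΦ hc h0) ha ?_ hR
  have h1 := hA.rep_per hw x
  rw [hx] at h1
  filter_upwards [h1, HA.afn_smulc hw a x] with y h2 h3
  rw [← h3, h2]
  rfl

end Fermat.Agent.LT.Reg
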