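import Fermat.Agent.LT.Fou.Form

set_option autoImplicit false
set_option linter.unusedSectionVars false

/-! # Automorphic eigenforms of spectral parameter zero -/

namespace Fermat.Agent.LT.Fou

open MeasureTheory Complex Topology NumberField Sp
open scoped Real ComplexConjugate ContDiff

variable {F : Type*} [Field F] [NumberField F] [IsTotallyComplex F]
variable {D : Type*} [MulAction (GL (Fin 2) F) D]

/-- **Automorphic eigenforms** (bounded, cuspidal, spectral parameter zero at all places). -/
structure AutForm (φ : HF F × D → ℂ) : Prop extends IsInv φ where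
  bdd : ∃ C : ℝ, ∀ x, ‖φ x‖ ≤ C
  eig : ∀ (w : InfinitePlace F) (k : ℝ → ℝ), ContDiff ℝ ∞ k → HasCompactSupport k →
    ∀ (p : HF F) (d : D), ∫ q : H3, k (H3.cd (p w) q) • φ (upd p w q, d) =
      (H3.khat k : ℂ) * φ (p, d)
  cusp : ∀ (p : HF F) (d : D), cof φ 0 p d = 0

end Fermat.Agent.LT.Fou
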