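import Fermat.Agent.LT.Fou.Unique

set_option autoImplicit false
set_option linter.unusedSectionVars false

/-! # Multiplicity one: the global statement -/

namespace Fermat.Agent.LT.Fou

open Complex Topology NumberField Sp Glob LocFam Filter
open scoped Real ComplexConjugate MatrixGroups

universe w u i

variable {F : Type u} [Field F] [NumberField F] [IsTotallyComplex F] {ι : Type i}
  {L : LocFam.{w} F ι} {U : L.Level}

/-- elements near `1` are units of `O v` -/
structure RadAt (L : LocFam.{w} F ι) (v : ι) : Prop where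
  nontriv : Nontrivial (L.R v)
  unit : ∃ N : ℕ, N ≠ 0 ∧ ∀ y ∈ NO (L.O v) N, ∃ z ∈ L.O v, (1 + y) * z = 1

/-- **Weak approximation** -/
theorem weak_approx (B : Finset ι) (hR : ∀ v ∈ B, RadAt L v) (x : ∀ v, L.G v) :
    ∃ g : GL (Fin 2) F, ∀ v ∈ B, L.emb v g * x v ∈ U.U v := by
  classical
  rcases B.eq_empty_or_nonempty with hB | hB
  · exact ⟨1, fun v hv => by rw [hB] at hv; simp at hv⟩
  choose h hh using fun v => Matrix.ProjGenLinGroup.mk_surjective (x v)
  have hR' : ∀ v, ∃ N : ℕ, N ≠ 0 ∧ (v ∈ B → ∀ y ∈ NO (L.O v) N, ∃ z ∈ L.O v, (1 + y) * z = 1) := by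
    intro v
    by_cases hv : v ∈ B
    · obtain ⟨N, hN, hN'⟩ := (hR v hv).unit
      exact ⟨N, hN, fun _ => hN'⟩
    · exact ⟨1, one_ne_zero, fun h => absurd h hv⟩
  choose N1 hN1 hN1' using hR'
  choose N2 hN2 hN2' using U.deep
  obtain ⟨M, hM, hM'⟩ := finite_denom_mat (L := L) B (fun v => ((h v : GL (Fin 2) (L.R v)) :
    Matrix (Fin 2) (Fin 2) (L.R v)))
  set P : ℕ := M * ∏ v ∈ B, (N1 v * N2 v) with hP
  have hP0 : P ≠ 0 := mul_ne_zero hM (Finset.prod_ne_zero_iff.mpr fun v _ =>
    mul_ne_zero (hN1 v) (hN2 v))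
  choose a ha _ using fun q : Fin 2 × Fin 2 => L.dense B
    (fun v => ((h v)⁻¹ : GL (Fin 2) (L.R v)) q.1 q.2) P hP0
  set A : Matrix (Fin 2) (Fin 2) F := fun i j => a (i, j) with hA
  -- local closeness
  have hclose : ∀ v ∈ B, ∀ i j, (A.map (L.loc v) * (h v : Matrix (Fin 2) (Fin 2) (L.R v))) i j -
      (1 : Matrix (Fin 2) (Fin 2) (L.R v)) i j ∈ NO (L.O v) (N1 v * N2 v) := by
    intro v hv i j
    have e1 : A.map (L.loc v) * (h v : Matrix (Fin 2) (Fin 2) (L.R v)) - 1 =
        (A.map (L.loc v) - ((h v)⁻¹ : GL (Fin 2) (L.R v))) *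
          (h v : Matrix (Fin 2) (Fin 2) (L.R v)) := by
      rw [sub_mul, ← Units.val_mul, inv_mul_cancel, Units.val_one]
    rw [← Matrix.sub_apply, e1, Matrix.mul_apply]
    refine sum_mem fun k _ => ?_
    obtain ⟨y, hy, e⟩ := ha (i, k) v hv
    have e2 : (A.map (L.loc v) - ((h v)⁻¹ : GL (Fin 2) (L.R v))) i k = (P : L.R v) * y := by
      rw [Matrix.sub_apply, Matrix.map_apply]
      exact e
    rw [e2, hP]
    have e3 : ((M * ∏ v ∈ B, (N1 v * N2 v) : ℕ) : L.R v) * y * (h v : GL (Fin 2) (L.R v)) k j =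
        ((N1 v * N2 v : ℕ) : L.R v) * (((∏ v ∈ B.erase v, (N1 v * N2 v) : ℕ) : L.R v) * y *
          ((M : L.R v) * (h v : GL (Fin 2) (L.R v)) k j)) := by
      rw [← Finset.mul_prod_erase B (fun v => N1 v * N2 v) hv]
      push_cast
      ring
    rw [e3]
    exact ⟨_, (L.O v).mul_mem ((L.O v).mul_mem (natCast_mem _ _) hy) (hM' v hv k j), rfl⟩
  have hO : ∀ v, ∀ {x : L.R v} {i j : Fin 2}, x - (1 : Matrix (Fin 2) (Fin 2) (L.R v)) i j ∈
      NO (L.O v) (N1 v * N2 v) → x ∈ L.O v := by
    intro v x i j hx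
    have h1 := NO_le _ _ hx
    have h2 : (1 : Matrix (Fin 2) (Fin 2) (L.R v)) i j ∈ L.O v := by
      rw [Matrix.one_apply]; split_ifs; exacts [(L.O v).one_mem, (L.O v).zero_mem]
    have := (L.O v).add_mem h1 h2
    rwa [sub_add_cancel] at this
  -- the determinant is a unit near `1`
  have hdet : ∀ v ∈ B, ∃ z ∈ L.O v,
      (A.map (L.loc v) * (h v : Matrix (Fin 2) (Fin 2) (L.R v))).det * z = 1 := by
    intro v hv
    set X := A.map (L.loc v) * (h v : Matrix (Fin 2) (Fin 2) (L.R v)) with hX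
    have hc := hclose v hv
    have h1 : X.det - 1 ∈ NO (L.O v) (N1 v) := by
      rw [Matrix.det_fin_two]
      have e : X 0 0 * X 1 1 - X 0 1 * X 1 0 - 1 = (X 0 0 - 1) * X 1 1 + (X 1 1 - 1) -
          X 0 1 * X 1 0 := by ring
      rw [e]
      have c00 := hc 0 0
      have c01 := hc 0 1
      have c11 := hc 1 1
      have o11 := hO v (hc 1 1)
      have o10 := hO v (hc 1 0)
      rw [Matrix.one_apply_eq] at c00 c11
      rw [Matrix.one_apply_ne (by decide), sub_zero] at c01
      exact sub_mem (add_mem (mul_mem_NO' (NO_mono (Dvd.intro _ rfl) c00) o11)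
        (NO_mono (Dvd.intro _ rfl) c11)) (mul_mem_NO' (NO_mono (Dvd.intro _ rfl) c01) o10)
    obtain ⟨z, hz, e⟩ := hN1' v hv _ h1
    exact ⟨z, hz, by rwa [add_sub_cancel] at e⟩
  have hAdet : A.det ≠ 0 := by
    intro h0
    obtain ⟨v, hv⟩ := hB
    obtain ⟨z, _, e⟩ := hdet v hv
    have := (hR v hv).nontriv
    rw [Matrix.det_mul] at e
    have h1 : (A.map (L.loc v)).det = L.loc v A.det := by
      rw [← RingHom.mapMatrix_apply, ← RingHom.map_det]
    rw [h1, h0, map_zero, zero_mul, zero_mul] at e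
    exact zero_ne_one e
  refine ⟨Matrix.GeneralLinearGroup.mkOfDetNeZero A hAdet, fun v hv => ?_⟩
  rw [← hh v, LocFam.emb_eq, ← map_mul]
  apply hN2' v
  apply mk_mem_PK
  have e5 : ((Matrix.GeneralLinearGroup.map (L.loc v)
      (Matrix.GeneralLinearGroup.mkOfDetNeZero A hAdet) * h v : GL (Fin 2) (L.R v)) :
      Matrix (Fin 2) (Fin 2) (L.R v)) = A.map (L.loc v) *
        (h v : Matrix (Fin 2) (Fin 2) (L.R v)) := rfl
  refine ⟨mem_GLO_iff.mpr ⟨fun i j => ?_, ?_⟩, fun i j => ?_⟩
  · rw [e5]; exact hO v (hclose v hv i j)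
  · obtain ⟨z, hz, e⟩ := hdet v hv
    have h2 : ((Matrix.GeneralLinearGroup.det (Matrix.GeneralLinearGroup.map (L.loc v)
        (Matrix.GeneralLinearGroup.mkOfDetNeZero A hAdet) * h v))⁻¹ : (L.R v)ˣ).val = z := by
      rw [← mul_one ((Matrix.GeneralLinearGroup.det _)⁻¹ : (L.R v)ˣ).val, ← e, ← mul_assoc]
      have h3 : ((Matrix.GeneralLinearGroup.det (Matrix.GeneralLinearGroup.map (L.loc v)
        (Matrix.GeneralLinearGroup.mkOfDetNeZero A hAdet) * h v))⁻¹ : (L.R v)ˣ).val *
        (A.map (L.loc v) * (h v : Matrix (Fin 2) (Fin 2) (L.R v))).det = 1 :=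
        (Matrix.GeneralLinearGroup.det _).inv_mul
      rw [h3, one_mul]
    rw [h2]
    exact hz
  · rw [e5]
    exact NO_mono (Dvd.intro_left _ rfl) (hclose v hv i j)

/-- **The hypotheses of the uniqueness theorem**: Hecke eigenform at all places outside `B`, with a
Kirillov type at the places of `B`. -/
structure TypeForm (B : Finset ι) (a0 : Fˣ) (J : ∀ v, Subgroup (L.G v)) (ψ : ∀ v, L.G v → ℂ)
    (I : ι → Type) [∀ v, Fintype (I v)] (H : ∀ v, I v → HData L v) (U : L.Level)
    (lam : ∀ v, I v → ℂ) (φ : HF F × D U → ℂ) : Prop where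
  inv : IsInv φ
  cusp : ∀ (p : HF F) (d : D U), cof φ 0 p d = 0
  eqv : ∀ v ∈ B, EqvAt v (J v) (ψ v) φ
  hecke : ∀ v ∉ B, ∀ i, HeckeAt (H v i) (lam v i) φ

/-- local hypotheses on the type (no automorphic form involved) -/
structure TypeData (L : LocFam.{w} F ι) (B : Finset ι) (a0 : Fˣ) (J : ∀ v, Subgroup (L.G v))
    (ψ : ∀ v, L.G v → ℂ) (I : ι → Type) [∀ v, Fintype (I v)] (H : ∀ v, I v → HData L v)
    (U : L.Level) : Prop where
  level : ∀ v ∉ B, U.U v = PO (L.O v)
  cond : ∀ v ∉ B, CondAt L (a0 : F) v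
  good : ∀ v ∉ B, GoodPlace L v (H v)
  le : ∀ v ∈ B, U.U v ≤ J v
  kir : ∀ v ∈ B, KirAt L a0 v (J v) (ψ v)
  rad : ∀ v ∈ B, RadAt L v

section

variable {B : Finset ι} {a0 : Fˣ} {J : ∀ v, Subgroup (L.G v)} {ψ : ∀ v, L.G v → ℂ}
  {I : ι → Type} [∀ v, Fintype (I v)] {H : ∀ v, I v → HData L v} {lam : ∀ v, I v → ℂ}
  {φ : HF F × D U → ℂ}

/-- the first coefficient determines all coefficients at the base frequency -/
theorem TypeForm.cof_base (hT : TypeData L B a0 J ψ I H U) (hφ : TypeForm B a0 J ψ I H U lam φ)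
    (p : HF F) (h0 : cof φ (a0 : F) p (D.base U) = 0) (d : D U)
    (hd : ∀ v ∈ B, d v = X.base U v) : cof φ (a0 : F) p d = 0 := by
  classical
  obtain ⟨T, hTf⟩ := exists_finset_compl d.2
  have key : ∀ T : Finset ι, (∀ v ∈ T, v ∉ B) → ∀ d : D U, (∀ v ∉ T, d v = X.base U v) →
      cof φ (a0 : F) p d = 0 := by
    intro T
    induction T using Finset.induction_on with
    | empty =>
      intro _ d hd
      have : d = D.base U := by
        apply D.ext
        intro v
        exact hd v (by simp)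
      rw [this]
      exact h0
    | insert v T hv ih =>
      intro hTB d hd
      have hvB : v ∉ B := hTB v (Finset.mem_insert_self v T)
      have h1 : cof φ (a0 : F) p (setv d v (X.base U v)) = 0 := by
        apply ih (fun v' hv' => hTB v' (Finset.mem_insert_of_mem hv'))
        intro v' hv'
        by_cases h : v' = v
        · subst h; rw [setv_same]
        · rw [setv_ne _ h]
          exact hd v' (by simp [h, hv'])
      have h2 := cof_zero_local hφ.inv (hT.level v hvB) (hT.cond v hvB) (hT.good v hvB)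
        (hφ.hecke v hvB) p d h1 (d v)
      rwa [setv_self] at h2
  apply key (T \ B)
  · intro v hv
    exact (Finset.mem_sdiff.mp hv).2
  · intro v hv
    by_cases hvB : v ∈ B
    · exact hd v hvB
    · apply hTf
      intro h
      exact hv (Finset.mem_sdiff.mpr ⟨h, hvB⟩)

/-- the first coefficient determines all coefficients -/
theorem TypeForm.cof_all (hT : TypeData L B a0 J ψ I H U) (hφ : TypeForm B a0 J ψ I H U lam φ)
    (h0 : ∀ p, cof φ (a0 : F) p (D.base U) = 0) (ξ : F) (p : HF F) (d : D U)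
    (hd : ∀ v ∈ B, d v = X.base U v) : cof φ ξ p d = 0 := by
  classical
  by_cases hξ : ξ = 0
  · rw [hξ]; exact hφ.cusp p d
  by_cases hcase : ∃ v ∈ B, ∃ b : L.R v, pN b ∈ J v ∧
      lchar L v ((L.loc v ξ - L.loc v a0) * b) ≠ 1
  · obtain ⟨v, hv, b, hb, hne⟩ := hcase
    have h1 := (hφ.eqv v hv).cof hφ.inv ξ p d 1 (pN b) hb (hd v hv)
    have h2 := cof_local hφ.inv ξ p d v b
    have e1 : pN b • d v = ((1 * pN b : L.G v) : L.G v ⧸ U.U v) := by
      rw [hd v hv, one_mul]
      show ((pN b * 1 : L.G v) : L.G v ⧸ U.U v) = _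
      rw [mul_one]
    rw [e1, h1, (hT.kir v hv).uni b hb] at h2
    have e2 : L.loc v ξ * b = (L.loc v ξ - L.loc v a0) * b + L.loc v a0 * b := by ring
    rw [e2, lchar_add] at h2
    have h3 : (lchar L v ((L.loc v ξ - L.loc v a0) * b) - 1) *
        (lchar L v (L.loc v a0 * b) * cof φ ξ p d) = 0 := by
      rw [sub_mul, one_mul, ← mul_assoc, ← h2, sub_self]
    rcases mul_eq_zero.mp h3 with h4 | h4
    · exact absurd (sub_eq_zero.mp h4) hne
    · exact (mul_eq_zero.mp h4).resolve_left (lchar_ne_zero v _)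
  · push Not at hcase
    set a : Fˣ := Units.mk0 ξ hξ * a0⁻¹ with ha
    have haξ : (a : F) * a0 = ξ := by rw [ha]; simp
    have hJ : ∀ v ∈ B, pA (L.un v a) ∈ J v := by
      intro v hv
      have h1 := (hT.kir v hv).kir (L.un v (Units.mk0 ξ hξ)) (fun b hb => hcase v hv b hb)
      have e : L.un v a = L.un v (Units.mk0 ξ hξ) * (L.un v a0)⁻¹ := by
        rw [ha, map_mul, map_inv]
      rw [e]
      exact h1.1
    have e1 : cof φ ξ p d = cof φ (a0 : F) (aMat a • p) (aMat a • d) := by
      rw [cof_aMat hφ.inv, haξ, ← aMat_inv, inv_smul_smul]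
    rw [e1]
    -- move to the base point at the places of `B`
    have key : ∀ S : Finset ι, S ⊆ B → ∀ e : D U,
        (∀ v ∈ S, ∃ j ∈ J v, e v = (j : L.G v ⧸ U.U v)) → (∀ v ∈ B, v ∉ S → e v = X.base U v) →
        cof φ (a0 : F) (aMat a • p) e = 0 := by
      intro S
      induction S using Finset.induction_on with
      | empty =>
        intro _ e _ he
        exact hφ.cof_base hT _ (h0 _) e fun v hv => he v hv (by simp)
      | insert v S hvS ih =>
        intro hSB e he he'
        obtain ⟨j, hj, hej⟩ := he v (Finset.mem_insert_self v S)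
        have hvB : v ∈ B := hSB (Finset.mem_insert_self v S)
        have h1 : cof φ (a0 : F) (aMat a • p) (setv e v (X.base U v)) = 0 := by
          apply ih (fun v' hv' => hSB (Finset.mem_insert_of_mem hv'))
          · intro v' hv'
            have hne : v' ≠ v := by rintro rfl; exact hvS hv'
            rw [setv_ne _ hne]
            exact he v' (Finset.mem_insert_of_mem hv')
          · intro v' hv' hv''
            by_cases h : v' = v
            · subst h; rw [setv_same]
            · rw [setv_ne _ h]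
              exact he' v' hv' (by simp [h, hv''])
        have h2 := (hφ.eqv v hvB).cof hφ.inv (a0 : F) (aMat a • p) (setv e v (X.base U v)) 1 j hj
          (by rw [setv_same]; rfl)
        rw [setv_setv, one_mul, ← hej, setv_self, h1, mul_zero] at h2
        exact h2
    apply key B subset_rfl
    · intro v hv
      refine ⟨pA (L.un v a), hJ v hv, ?_⟩
      rw [LocFam.smul_apply, hd v hv, emb_aMat]
      show ((pA (L.un v a) * 1 : L.G v) : L.G v ⧸ U.U v) = _
      rw [mul_one]
    · intro v hv hv'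
      exact absurd hv hv'

/-- **Multiplicity one.** -/
theorem TypeForm.eq_zero (hT : TypeData L B a0 J ψ I H U) (hφ : TypeForm B a0 J ψ I H U lam φ)
    (h0 : ∀ p, cof φ (a0 : F) p (D.base U) = 0) : φ = 0 := by
  classical
  have hz : ∀ (p : HF F) (d : D U), (∀ v ∈ B, d v = X.base U v) → φ (p, d) = 0 := by
    intro p d hd
    have h1 : IsInv (fun _ : HF F × D U => (0 : ℂ)) := ⟨fun _ => continuous_const, fun _ _ _ => rfl⟩
    have h2 : ∀ ξ p, cof (fun _ : HF F × D U => (0 : ℂ)) ξ p d = 0 := by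
      intro ξ p
      obtain ⟨N, hN, hd'⟩ := exists_Lvl (F := F) d
      have := norm_fc_le hN (h1.per hd' p) (C := 0) (fun v => by simp) ξ
      exact norm_le_zero_iff.mp this
    exact eq_of_cof hφ.inv h1 d (fun ξ p => by rw [h2, hφ.cof_all hT h0 ξ p d hd]) p
  have key : ∀ S : Finset ι, S ⊆ B → ∀ (p : HF F) (e : D U),
      (∀ v ∈ S, ∃ j ∈ J v, e v = (j : L.G v ⧸ U.U v)) → (∀ v ∈ B, v ∉ S → e v = X.base U v) →
      φ (p, e) = 0 := by
    intro S
    induction S using Finset.induction_on with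
    | empty =>
      intro _ p e _ he
      exact hz p e fun v hv => he v hv (by simp)
    | insert v S hvS ih =>
      intro hSB p e he he'
      obtain ⟨j, hj, hej⟩ := he v (Finset.mem_insert_self v S)
      have hvB : v ∈ B := hSB (Finset.mem_insert_self v S)
      have h1 : φ (p, setv e v (X.base U v)) = 0 := by
        apply ih (fun v' hv' => hSB (Finset.mem_insert_of_mem hv'))
        · intro v' hv'
          have hne : v' ≠ v := by rintro rfl; exact hvS hv'
          rw [setv_ne _ hne]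
          exact he v' (Finset.mem_insert_of_mem hv')
        · intro v' hv' hv''
          by_cases h : v' = v
          · subst h; rw [setv_same]
          · rw [setv_ne _ h]
            exact he' v' hv' (by simp [h, hv''])
      have h2 := hφ.eqv v hvB p (setv e v (X.base U v)) 1 j hj (by rw [setv_same]; rfl)
      rw [setv_setv, one_mul, ← hej, setv_self, h1, mul_zero] at h2
      exact h2
  funext x
  obtain ⟨p, d⟩ := x
  obtain ⟨g0, rfl, _⟩ := D.exists_eq_smul_base d
  obtain ⟨g, hg⟩ := weak_approx (U := U) B hT.rad (fun v => g0.1 v)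
  rw [← hφ.inv.inv g]
  apply key B subset_rfl
  · intro v hv
    refine ⟨L.emb v g * g0.1 v, hT.le v hv (hg v hv), ?_⟩
    rw [LocFam.smul_apply, GA_smul_apply]
    show ((L.emb v g * (g0.1 v * 1) : L.G v) : L.G v ⧸ U.U v) = _
    rw [mul_one]
  · intro v hv hv'
    exact absurd hv hv'

end

end Fermat.Agent.LT.Fou
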