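import Fermat.Agent.LT.Poisson

set_option autoImplicit false

/-! # Mean values of periodic functions on `ℝ^d` -/

namespace Fermat.Agent.LT.Fou

open MeasureTheory Complex Topology
open scoped Real

variable {d : Type*} [Fintype d]

/-- The mean value over the unit box. -/
noncomputable def boxMean (f : (d → ℝ) → ℂ) : ℂ := ∫ x in box 0, f x

/-- descent of a periodic function to the torus -/
noncomputable def tor (f : (d → ℝ) → ℂ) (t : UnitAddTorus d) : ℂ :=
  f (fun i => (AddCircle.equivIoc 1 0 (t i)).1)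

theorem tor_coe {f : (d → ℝ) → ℂ} (hp : ∀ (k : d → ℤ) x, f (x + zc k) = f x) (x : d → ℝ) :
    tor f (fun i => (x i : UnitAddCircle)) = f x := by
  unfold tor
  obtain ⟨k0, hk0⟩ := torus_eq_iff x
    (fun i => (AddCircle.equivIoc 1 0 ((x i : ℝ) : AddCircle (1 : ℝ))).1) (by
      funext i
      exact (AddCircle.coe_equivIoc (p := 1) (a := 0)).symm)
  rw [hk0, hp]

theorem continuous_tor {f : (d → ℝ) → ℂ} (hf : Continuous f)
    (hp : ∀ (k : d → ℤ) x, f (x + zc k) = f x) : Continuous (tor f) := by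
  rw [(isOpenQuotientMap_torus (d := d)).isQuotientMap.continuous_iff]
  have : tor f ∘ (fun (x : d → ℝ) => (fun i => (x i : UnitAddCircle) : UnitAddTorus d)) = f := by
    funext x
    exact tor_coe hp x
  rw [this]
  exact hf

/-- Approximation by trigonometric polynomials. -/
theorem approx {f : (d → ℝ) → ℂ} (hf : Continuous f)
    (hp : ∀ (k : d → ℤ) x, f (x + zc k) = f x) {ε : ℝ} (hε : 0 < ε) :
    ∃ (s : Finset (d → ℤ)) (c : (d → ℤ) → ℂ), ∀ x, ‖f x - ∑ m ∈ s, c m * ee m x‖ ≤ ε := by
  let F : C(UnitAddTorus d, ℂ) := ⟨tor f, continuous_tor hf hp⟩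
  have hF : F ∈ (Submodule.span ℂ (Set.range (UnitAddTorus.mFourier (d := d)))).topologicalClosure := by
    rw [UnitAddTorus.span_mFourier_closure_eq_top]
    trivial
  have hF2 : F ∈ closure ((Submodule.span ℂ (Set.range (UnitAddTorus.mFourier (d := d))) :
      Submodule ℂ C(UnitAddTorus d, ℂ)) : Set C(UnitAddTorus d, ℂ)) := hF
  rw [Metric.mem_closure_iff] at hF2
  obtain ⟨P, hP, hFP⟩ := hF2 ε hε
  obtain ⟨c, hc⟩ := (Finsupp.mem_span_range_iff_exists_finsupp).mp hP
  refine ⟨c.support, c, fun x => ?_⟩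
  have h1 : ‖(F - P) (fun i => (x i : UnitAddCircle))‖ ≤ ε :=
    ((F - P).norm_coe_le_norm _).trans (by rw [← dist_eq_norm]; exact hFP.le)
  have h2 : P (fun i => (x i : UnitAddCircle)) = ∑ m ∈ c.support, c m * ee m x := by
    rw [← hc, Finsupp.sum, ContinuousMap.sum_apply]
    apply Finset.sum_congr rfl
    intro m _
    rw [ContinuousMap.smul_apply, mFourier_coe, smul_eq_mul]
  rw [ContinuousMap.sub_apply, h2] at h1
  have h3 : F (fun i => (x i : UnitAddCircle)) = f x := tor_coe hp x
  rwa [h3] at h1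

theorem volume_box (k : d → ℤ) : (volume : Measure (d → ℝ)) (box k) = 1 := by
  have : box k = Set.univ.pi (fun i => Set.Ioc (k i : ℝ) ((k i : ℝ) + 1)) := by
    ext x; simp [box]
  rw [this, Real.volume_pi_Ioc]
  simp

instance : IsFiniteMeasure ((volume : Measure (d → ℝ)).restrict (box 0)) :=
  ⟨by rw [Measure.restrict_apply_univ, volume_box]; exact ENNReal.one_lt_top⟩

theorem isBounded_box (k : d → ℤ) : Bornology.IsBounded (box k) := by
  have : box k ⊆ Set.Icc (fun i => (k i : ℝ)) (fun i => (k i : ℝ) + 1) := by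
    intro x hx
    exact ⟨fun i => (hx i).1.le, fun i => (hx i).2⟩
  exact (Metric.isBounded_Icc _ _).subset this

theorem integrableOn_box {f : (d → ℝ) → ℂ} (hf : Continuous f) (k : d → ℤ) :
    IntegrableOn f (box k) := by
  have : IntegrableOn f (Set.Icc (fun i => (k i : ℝ)) (fun i => (k i : ℝ) + 1)) :=
    hf.continuousOn.integrableOn_compact isCompact_Icc
  exact this.mono_set fun x hx => ⟨fun i => (hx i).1.le, fun i => (hx i).2⟩

theorem norm_boxMean_le {f : (d → ℝ) → ℂ} {C : ℝ} (hC : ∀ x, ‖f x‖ ≤ C) : ‖boxMean f‖ ≤ C := by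
  unfold boxMean
  have h := norm_setIntegral_le_of_norm_le_const (μ := (volume : Measure (d → ℝ))) (s := box 0)
    (f := f) (C := C) (by rw [volume_box]; exact ENNReal.one_lt_top) (fun x _ => hC x)
  rwa [measureReal_def, volume_box, ENNReal.toReal_one, mul_one] at h

theorem boxMean_add {f g : (d → ℝ) → ℂ} (hf : Continuous f) (hg : Continuous g) :
    boxMean (fun x => f x + g x) = boxMean f + boxMean g :=
  integral_add (integrableOn_box hf 0) (integrableOn_box hg 0)

theorem boxMean_smul (c : ℂ) (f : (d → ℝ) → ℂ) :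
    boxMean (fun x => c * f x) = c * boxMean f := integral_const_mul _ _

theorem boxMean_ee (m : d → ℤ) : boxMean (ee m) = if m = 0 then 1 else 0 := by
  classical
  have h1 := UnitAddTorus.mFourierCoeff_eq_integral
    (UnitAddTorus.mFourier m : UnitAddTorus d → ℂ) 0 (0 : d → ℝ)
  have h2 : UnitAddTorus.mFourierCoeff (UnitAddTorus.mFourier m : UnitAddTorus d → ℂ) 0 =
      if m = 0 then 1 else 0 := by
    have h3 := (orthonormal_iff_ite.mp (UnitAddTorus.orthonormal_mFourier (d := d))) 0 m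
    rw [MeasureTheory.L2.inner_def] at h3
    have h4 : (if (0 : d → ℤ) = m then (1 : ℂ) else 0) = if m = 0 then 1 else 0 := by
      simp only [eq_comm]
    rw [← h4, ← h3]
    unfold UnitAddTorus.mFourierCoeff
    apply integral_congr_ae
    filter_upwards [UnitAddTorus.coeFn_mFourierLp 2 m, UnitAddTorus.coeFn_mFourierLp 2 0]
      with t ht1 ht2
    rw [ht1, ht2]
    simp [UnitAddTorus.mFourier_zero]
  rw [← h2, h1]
  unfold boxMean
  have h5 : {x : d → ℝ | ∀ i, x i ∈ Set.Ioc ((0 : d → ℝ) i) ((0 : d → ℝ) i + 1)} =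
      box (0 : d → ℤ) := by
    ext x; simp [box]
  rw [h5]
  apply setIntegral_congr_fun (measurableSet_box 0)
  intro x _
  simp only [neg_zero]
  rw [mFourier_coe, mFourier_coe]
  simp [ee]

end Fermat.Agent.LT.Fou
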