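import Fermat.Agent.LT.Fou.Mean

set_option autoImplicit false
set_option linter.unusedSectionVars false

/-! # Fourier coefficients of periodic functions on `∏_w ℂ` -/

namespace Fermat.Agent.LT.Fou

open MeasureTheory Complex Topology NumberField
open scoped Real ComplexConjugate

variable {F : Type*} [Field F] [NumberField F] [IsTotallyComplex F]
variable {N N' : ℕ} {f g : (InfinitePlace F → ℂ) → ℂ}

theorem IsDual.exists_common (hN : N ≠ 0) (ξ : F) : ∃ N' : ℕ, N' ≠ 0 ∧ N ∣ N' ∧ IsDual N' ξ := by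
  obtain ⟨M, hM, hξ⟩ := exists_isDual ξ
  exact ⟨N * M, mul_ne_zero hN hM, Dvd.intro _ rfl, hξ.mono (Dvd.intro_left _ rfl)⟩

open Classical in
/-- the Fourier coefficients -/
noncomputable def fc (f : (InfinitePlace F → ℂ) → ℂ) (ξ : F) : ℂ :=
  if h : ∃ N : ℕ, N ≠ 0 ∧ Per N f ∧ IsDual N ξ then mn h.choose (fun v => f v * ev (-ξ) v) else 0

theorem Per.twist (hf : Per N f) {ξ : F} (hξ : IsDual N ξ) : Per N (fun v => f v * ev (-ξ) v) :=
  hf.mul (per_ev hξ.neg)

theorem fc_eq (hN : N ≠ 0) (hf : Per N f) {ξ : F} (hξ : IsDual N ξ) :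
    fc f ξ = mn N (fun v => f v * ev (-ξ) v) := by
  have h : ∃ N : ℕ, N ≠ 0 ∧ Per N f ∧ IsDual N ξ := ⟨N, hN, hf, hξ⟩
  unfold fc
  rw [dif_pos h]
  obtain ⟨h1, h2, h3⟩ := h.choose_spec
  exact mn_eq hN h1 (hf.twist hξ) (h2.twist h3)

theorem fc_eq_zero (hN : N ≠ 0) (hf : Per N f) {ξ : F} (hξ : ¬ IsDual N ξ) : fc f ξ = 0 := by
  obtain ⟨N', hN', hd, hξ'⟩ := IsDual.exists_common hN ξ
  have hf' := hf.mono hd
  rw [fc_eq hN' hf' hξ']
  obtain ⟨a, ha⟩ := exists_ev_ne_one hξ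
  have h1 := mn_trans hN' (hf'.twist hξ') (emb ((N : F) * a))
  have h2 : (fun v => f (v + emb ((N : F) * a)) * ev (-ξ) (v + emb ((N : F) * a))) =
      fun v => ev (-ξ) (emb ((N : F) * a)) * (f v * ev (-ξ) v) := by
    funext v
    rw [hf.per, ev_add]
    ring
  rw [h2, (isMean_mn hN').smul _ (hf'.twist hξ')] at h1
  have h3 : ev (-ξ) (emb ((N : F) * a)) ≠ 1 := by
    intro h
    apply ha
    have := ev_neg_mul ξ (emb ((N : F) * a))
    rwa [h, one_mul] at this
  have h4 : (ev (-ξ) (emb ((N : F) * a)) - 1) * mn N' (fun v => f v * ev (-ξ) v) = 0 := by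
    rw [sub_mul, h1, one_mul, sub_self]
  rcases mul_eq_zero.mp h4 with h | h
  · exact absurd (sub_eq_zero.mp h) h3
  · exact h

theorem fc_ne_zero (hN : N ≠ 0) (hf : Per N f) {ξ : F} (h : fc f ξ ≠ 0) : IsDual N ξ := by
  by_contra hcon
  exact h (fc_eq_zero hN hf hcon)

/-- working formula with a common level -/
theorem exists_level (hN : N ≠ 0) (ξ : F) : ∃ N' : ℕ, N' ≠ 0 ∧ N ∣ N' ∧ IsDual N' ξ ∧
    ∀ {f : (InfinitePlace F → ℂ) → ℂ}, Per N f → fc f ξ = mn N' (fun v => f v * ev (-ξ) v) := by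
  obtain ⟨N', hN', hd, hξ'⟩ := IsDual.exists_common hN ξ
  exact ⟨N', hN', hd, hξ', fun hf => fc_eq hN' (hf.mono hd) hξ'⟩

theorem fc_add (hN : N ≠ 0) (hf : Per N f) (hg : Per N g) (ξ : F) :
    fc (fun v => f v + g v) ξ = fc f ξ + fc g ξ := by
  obtain ⟨N', hN', hd, hξ, h⟩ := exists_level hN ξ
  rw [h (hf.add hg), h hf, h hg,
    ← (isMean_mn hN').add ((hf.mono hd).twist hξ) ((hg.mono hd).twist hξ)]
  congr 1
  funext v
  ring

theorem fc_const_mul (hN : N ≠ 0) (hf : Per N f) (c : ℂ) (ξ : F) :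
    fc (fun v => c * f v) ξ = c * fc f ξ := by
  obtain ⟨N', hN', hd, hξ, h⟩ := exists_level hN ξ
  rw [h (hf.const_mul c), h hf, ← (isMean_mn hN').smul c ((hf.mono hd).twist hξ)]
  congr 1
  funext v
  ring

theorem fc_sum (hN : N ≠ 0) {ι : Type*} (s : Finset ι) (f : ι → (InfinitePlace F → ℂ) → ℂ)
    (hf : ∀ i ∈ s, Per N (f i)) (ξ : F) :
    fc (fun v => ∑ i ∈ s, f i v) ξ = ∑ i ∈ s, fc (f i) ξ := by
  classical
  induction s using Finset.induction_on with
  | empty =>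
    simp only [Finset.sum_empty]
    have := fc_const_mul hN (Per.const (F := F) (N := N) 0) 0 ξ
    simpa using this
  | insert a s ha ih =>
    rw [Finset.sum_insert ha, ← ih fun i hi => hf i (Finset.mem_insert_of_mem hi)]
    rw [← fc_add hN (hf a (Finset.mem_insert_self a s))
      (Per.sum s f fun i hi => hf i (Finset.mem_insert_of_mem hi))]
    congr 1
    funext v
    rw [Finset.sum_insert ha]

theorem fc_sub (hN : N ≠ 0) (hf : Per N f) (hg : Per N g) (ξ : F) :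
    fc (fun v => f v - g v) ξ = fc f ξ - fc g ξ := by
  have h1 := fc_add hN hf (hg.const_mul (-1)) ξ
  rw [fc_const_mul hN hg] at h1
  have h2 : (fun v => f v - g v) = fun v => f v + -1 * g v := by funext v; ring
  rw [h2, h1]
  ring

theorem norm_fc_le (hN : N ≠ 0) (hf : Per N f) {C : ℝ} (hC : ∀ v, ‖f v‖ ≤ C) (ξ : F) :
    ‖fc f ξ‖ ≤ C := by
  obtain ⟨N', hN', hd, hξ, h⟩ := exists_level hN ξ
  rw [h hf]
  apply (isMean_mn hN').bound ((hf.mono hd).twist hξ)
  intro v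
  rw [norm_mul, norm_ev, mul_one]
  exact hC v

theorem fc_trans (hN : N ≠ 0) (hf : Per N f) (u : InfinitePlace F → ℂ) (ξ : F) :
    fc (fun v => f (v + u)) ξ = ev ξ u * fc f ξ := by
  obtain ⟨N', hN', hd, hξ, h⟩ := exists_level hN ξ
  rw [h (hf.trans u), h hf, ← mn_trans hN' ((hf.mono hd).twist hξ) u,
    ← (isMean_mn hN').smul _ (((hf.mono hd).twist hξ).trans u)]
  congr 1
  funext v
  rw [ev_add]
  have := ev_neg_mul ξ u
  calc f (v + u) * ev (-ξ) v = f (v + u) * ev (-ξ) v * (ev (-ξ) u * ev ξ u) := by rw [this, mul_one]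
    _ = _ := by ring

theorem fc_ev_mul (hN : N ≠ 0) (hf : Per N f) {η : F} (hη : IsDual N η) (ξ : F) :
    fc (fun v => ev η v * f v) ξ = fc f (ξ - η) := by
  obtain ⟨N1, hN1, hd1, hξ⟩ := IsDual.exists_common hN ξ
  obtain ⟨N2, hN2, hd2, hξ2⟩ := IsDual.exists_common hN1 (ξ - η)
  have hp : Per N2 (fun v => ev η v * f v) :=
    ((per_ev hη).mul hf).mono (hd1.trans hd2)
  rw [fc_eq hN2 hp (hξ.mono hd2), fc_eq hN2 (hf.mono (hd1.trans hd2)) hξ2]
  congr 1
  funext v
  rw [show -(ξ - η) = η + (-ξ) by ring, ev_add_left]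
  ring

theorem fc_one (ξ : F) (h0 : ξ ≠ 0) : fc (fun _ => (1 : ℂ)) ξ = 0 := by
  obtain ⟨N', hN', hd, hξ, h⟩ := exists_level one_ne_zero ξ
  rw [h (Per.const 1)]
  have : (fun v : InfinitePlace F → ℂ => 1 * ev (-ξ) v) = ev (-ξ) := by funext v; rw [one_mul]
  rw [this]
  exact (isMean_mn hN').ev0 hξ.neg (neg_ne_zero.mpr h0)

theorem fc_one_zero : fc (fun _ => (1 : ℂ)) (0 : F) = 1 := by
  obtain ⟨N', hN', hd, hξ, h⟩ := exists_level one_ne_zero (0 : F)
  rw [h (Per.const 1)]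
  have : (fun v : InfinitePlace F → ℂ => 1 * ev (-(0 : F)) v) = fun _ => 1 := by
    funext v; rw [one_mul, neg_zero, ev_zero]
  rw [this]
  exact (isMean_mn hN').one

open Classical in
theorem fc_ev (ξ η : F) : fc (ev η) ξ = if ξ = η then 1 else 0 := by
  obtain ⟨N, hN, _, hη⟩ := IsDual.exists_common one_ne_zero η
  have h := fc_ev_mul hN (Per.const (F := F) (N := N) 1) hη ξ
  simp only [mul_one] at h
  have h' : fc (ev η) ξ = fc (fun _ => (1 : ℂ)) (ξ - η) := h
  rw [h']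
  split_ifs with h1
  · rw [h1, sub_self, fc_one_zero]
  · exact fc_one _ (sub_ne_zero.mpr h1)

/-- scaling by an element of the field -/
theorem fc_scale (hN : N ≠ 0) (hf : Per N f) {a : F} (ha : a ≠ 0) (ξ : F) :
    fc (fun v => f (emb a * v)) (a * ξ) = fc f ξ := by
  obtain ⟨N1, hN1, hd1, hξ⟩ := IsDual.exists_common hN ξ
  obtain ⟨N2, hN2, hd2, h2⟩ := exists_scale a hN1
  have hf1 := hf.mono hd1
  rw [fc_eq hN2 (hf1.scale h2) (hξ.scale h2), fc_eq hN1 hf1 hξ,
    ← mn_scale hN1 hN2 ha h2 (hf1.twist hξ)]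
  congr 1
  funext v
  rw [← ev_mul, mul_neg]

/-- **Uniqueness of Fourier expansions.** -/
theorem eq_zero_of_fc (hN : N ≠ 0) (hf : Per N f) (h : ∀ ξ, fc f ξ = 0) : f = 0 := by
  obtain ⟨C, hC⟩ := hf.bounded hN
  -- `mn (f * conj f) = 0`
  have h1 : mn N (fun v => f v * (starRingEnd ℂ) (f v)) = 0 := by
    have hp : Per N (fun v => f v * (starRingEnd ℂ) (f v)) := hf.mul hf.cconj
    by_contra hne
    have hpos : 0 < ‖mn N (fun v => f v * (starRingEnd ℂ) (f v))‖ := norm_pos_iff.mpr hne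
    have hC0 : 0 ≤ C := (norm_nonneg _).trans (hC 0)
    obtain ⟨s, c, hs, hc⟩ := hf.cconj.approx hN
      (show 0 < ‖mn N (fun v => f v * (starRingEnd ℂ) (f v))‖ / (2 * (C + 1)) by positivity)
    have hP : Per N (fun v => ∑ ξ ∈ s, c ξ * ev ξ v) :=
      Per.sum s _ fun ξ hξ => (per_ev (hs ξ hξ)).const_mul (c ξ)
    have h2 : mn N (fun v => f v * ∑ ξ ∈ s, c ξ * ev ξ v) = 0 := by
      have e : (fun v => f v * ∑ ξ ∈ s, c ξ * ev ξ v) =
          fun v => ∑ ξ ∈ s, c ξ * (f v * ev ξ v) := by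
        funext v
        rw [Finset.mul_sum]
        exact Finset.sum_congr rfl fun ξ _ => by ring
      rw [e, (isMean_mn hN).sum s _ fun ξ hξ => (hf.mul (per_ev (hs ξ hξ))).const_mul _]
      apply Finset.sum_eq_zero
      intro ξ hξ
      rw [(isMean_mn hN).smul _ (hf.mul (per_ev (hs ξ hξ)))]
      have h3 := fc_eq hN hf (hs ξ hξ).neg
      rw [neg_neg, h] at h3
      rw [← h3, mul_zero]
    have h4 : ‖mn N (fun v => f v * (starRingEnd ℂ) (f v)) -
        mn N (fun v => f v * ∑ ξ ∈ s, c ξ * ev ξ v)‖ ≤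
        C * (‖mn N (fun v => f v * (starRingEnd ℂ) (f v))‖ / (2 * (C + 1))) := by
      rw [← (isMean_mn hN).sub hp (hf.mul hP)]
      apply (isMean_mn hN).bound (hp.sub (hf.mul hP))
      intro v
      rw [← mul_sub, norm_mul]
      exact mul_le_mul (hC v) (hc v) (norm_nonneg _) hC0
    rw [h2, sub_zero] at h4
    have h5 : C * (‖mn N (fun v => f v * (starRingEnd ℂ) (f v))‖ / (2 * (C + 1))) <
        ‖mn N (fun v => f v * (starRingEnd ℂ) (f v))‖ := by
      rw [← mul_div_assoc, div_lt_iff₀ (by positivity)]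
      nlinarith
    linarith
  -- positivity
  have h2 : (∫ t in box (0 : Ix F → ℤ), ‖f (crd N t)‖ ^ 2) = 0 := by
    have h3 : mn N (fun v => f v * (starRingEnd ℂ) (f v)) =
        ((∫ t in box (0 : Ix F → ℤ), ‖f (crd N t)‖ ^ 2 : ℝ) : ℂ) := by
      unfold mn boxMean
      rw [← integral_complex_ofReal]
      apply setIntegral_congr_fun (measurableSet_box 0)
      intro t _
      simp only
      rw [Complex.mul_conj, Complex.normSq_eq_norm_sq]
    rw [h3] at h1
    exact_mod_cast h1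
  have hcont : Continuous fun t : Ix F → ℝ => ‖f (crd N t)‖ ^ 2 :=
    (hf.cont.comp (continuous_crd N)).norm.pow 2
  have hint : IntegrableOn (fun t : Ix F → ℝ => ‖f (crd N t)‖ ^ 2) (box 0) := by
    have : IntegrableOn (fun t : Ix F → ℝ => ‖f (crd N t)‖ ^ 2)
        (Set.Icc (fun i => ((0 : Ix F → ℤ) i : ℝ)) (fun i => ((0 : Ix F → ℤ) i : ℝ) + 1)) :=
      hcont.continuousOn.integrableOn_compact isCompact_Icc
    exact this.mono_set fun x hx => ⟨fun i => (hx i).1.le, fun i => (hx i).2⟩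
  have h3 := (setIntegral_eq_zero_iff_of_nonneg_ae (Filter.Eventually.of_forall fun t => by
    positivity) hint).mp h2
  -- interior points of the box
  have h4 : ∀ t : Ix F → ℝ, (∀ i, t i ∈ Set.Ioo (0 : ℝ) 1) → f (crd N t) = 0 := by
    intro t ht
    by_contra hne
    have hopen : IsOpen {t : Ix F → ℝ | (∀ i, t i ∈ Set.Ioo (0 : ℝ) 1) ∧ f (crd N t) ≠ 0} := by
      apply IsOpen.and
      · have : {t : Ix F → ℝ | ∀ i, t i ∈ Set.Ioo (0 : ℝ) 1} =
            Set.univ.pi fun _ => Set.Ioo (0 : ℝ) 1 := by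
          ext; simp
        rw [this]
        exact isOpen_set_pi Set.finite_univ fun _ _ => isOpen_Ioo
      · exact isOpen_ne_fun (hf.cont.comp (continuous_crd N)) continuous_const
    have hpos := hopen.measure_pos (volume : Measure (Ix F → ℝ)) ⟨t, ht, hne⟩
    rw [Filter.EventuallyEq, ae_restrict_iff' (measurableSet_box 0)] at h3
    have h5 : (volume : Measure (Ix F → ℝ))
        {t : Ix F → ℝ | (∀ i, t i ∈ Set.Ioo (0 : ℝ) 1) ∧ f (crd N t) ≠ 0} = 0 := by
      apply measure_mono_null _ (ae_iff.mp h3)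
      rintro x ⟨hx, hfx⟩
      simp only [Set.mem_ofPred_eq, Classical.not_imp]
      refine ⟨fun i => ?_, ?_⟩
      · have := hx i
        simp only [Pi.zero_apply, Int.cast_zero, zero_add]
        exact ⟨this.1, this.2.le⟩
      · simp only [Pi.zero_apply]
        intro h0
        exact hfx (norm_eq_zero.mp (pow_eq_zero_iff two_ne_zero |>.mp h0))
    exact hpos.ne' h5
  -- density
  have h5 : ∀ t : Ix F → ℝ, (∀ i, t i ∈ Set.Ico (0 : ℝ) 1) → f (crd N t) = 0 := by
    intro t ht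
    have hcl : t ∈ closure {t : Ix F → ℝ | ∀ i, t i ∈ Set.Ioo (0 : ℝ) 1} := by
      have : {t : Ix F → ℝ | ∀ i, t i ∈ Set.Ioo (0 : ℝ) 1} =
            Set.univ.pi fun _ => Set.Ioo (0 : ℝ) 1 := by
          ext; simp
      rw [this, closure_pi_set]
      intro i _
      rw [closure_Ioo (by norm_num)]
      exact ⟨(ht i).1, (ht i).2.le⟩
    have hclosed : IsClosed {t : Ix F → ℝ | f (crd N t) = 0} :=
      isClosed_eq (hf.cont.comp (continuous_crd N)) continuous_const
    exact hclosed.closure_subset_iff.mpr (fun t ht => h4 t ht) hcl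
  funext v
  obtain ⟨t, rfl⟩ := crd_surj hN v
  have h6 : f (crd N t) = f (crd N (fun i => Int.fract (t i))) := by
    have e : t = (fun i => Int.fract (t i)) + zc (fun i => ⌊t i⌋) := by
      funext i
      simp only [Pi.add_apply, zc]
      exact (Int.fract_add_floor (t i)).symm
    conv_lhs => rw [e]
    exact hf.box_per _ _
  rw [h6]
  exact h5 _ fun i => ⟨Int.fract_nonneg _, Int.fract_lt_one _⟩

theorem eq_of_fc (hN : N ≠ 0) (hf : Per N f) (hg : Per N g) (h : ∀ ξ, fc f ξ = fc g ξ) : f = g := by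
  have h1 := eq_zero_of_fc hN (hf.sub hg) fun ξ => by rw [fc_sub hN hf hg, h, sub_self]
  funext v
  exact sub_eq_zero.mp (congrFun h1 v)

/-- **Fourier series.** -/
theorem per_tsum (c : F → ℂ) (hc : Summable fun ξ => ‖c ξ‖) (hd : ∀ ξ, c ξ ≠ 0 → IsDual N ξ) :
    Per N (fun v => ∑' ξ, c ξ * ev ξ v) := by
  constructor
  · apply continuous_tsum (fun ξ => continuous_const.mul (continuous_ev ξ)) hc
    intro ξ v
    show ‖c ξ * ev ξ v‖ ≤ ‖c ξ‖
    rw [norm_mul, norm_ev, mul_one]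
  · intro a v
    apply tsum_congr
    intro ξ
    by_cases h : c ξ = 0
    · rw [h, zero_mul, zero_mul]
    · rw [ev_add, ev_emb_of_isDual (hd ξ h), mul_one]

theorem fc_tsum (hN : N ≠ 0) (c : F → ℂ) (hc : Summable fun ξ => ‖c ξ‖)
    (hd : ∀ ξ, c ξ ≠ 0 → IsDual N ξ) (η : F) : fc (fun v => ∑' ξ, c ξ * ev ξ v) η = c η := by
  classical
  apply eq_of_forall_dist_le
  intro ε hε
  have h1 : Filter.Tendsto (fun s : Finset F => ∑' ξ : {ξ // ξ ∉ s}, ‖c ξ‖) Filter.atTop (𝓝 0) :=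
    tendsto_tsum_compl_atTop_zero fun ξ => ‖c ξ‖
  obtain ⟨s0, hs0⟩ := ((tendsto_order.mp h1).2 ε hε).exists_forall_of_atTop
  let s := insert η s0
  have hs := hs0 s (Finset.subset_insert _ _)
  have hP : Per N (fun v => ∑ ξ ∈ s, c ξ * ev ξ v) := by
    apply Per.sum
    intro ξ _
    by_cases h : c ξ = 0
    · simp only [h, zero_mul]; exact Per.const 0
    · exact (per_ev (hd ξ h)).const_mul _
  have hfull := per_tsum (N := N) c hc hd
  have h2 : fc (fun v => ∑ ξ ∈ s, c ξ * ev ξ v) η = c η := by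
    have h3 : ∀ ξ, fc (fun v => c ξ * ev ξ v) η = if ξ = η then c η else 0 := by
      intro ξ
      obtain ⟨N1, hN1, _, hξ⟩ := IsDual.exists_common one_ne_zero ξ
      rw [fc_const_mul hN1 (per_ev hξ), fc_ev]
      by_cases h : ξ = η
      · rw [if_pos h, if_pos h.symm, h, mul_one]
      · rw [if_neg h, if_neg (Ne.symm h), mul_zero]
    have h4 : ∀ ξ ∈ s, Per N (fun v => c ξ * ev ξ v) := by
      intro ξ _
      by_cases h : c ξ = 0
      · simp only [h, zero_mul]; exact Per.const 0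
      · exact (per_ev (hd ξ h)).const_mul _
    rw [fc_sum hN s _ h4, Finset.sum_congr rfl fun ξ _ => h3 ξ, Finset.sum_ite_eq' s η,
      if_pos (Finset.mem_insert_self η s0)]
  rw [dist_eq_norm]
  conv_lhs => rw [← h2]
  rw [← fc_sub hN hfull hP]
  apply norm_fc_le hN (hfull.sub hP)
  intro v
  have hsum : Summable fun ξ => c ξ * ev ξ v := by
    apply Summable.of_norm
    simpa only [norm_mul, norm_ev, mul_one] using hc
  rw [← hsum.sum_add_tsum_subtype_compl s, add_sub_cancel_left]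
  refine (norm_tsum_le_tsum_norm ?_).trans ?_
  · simp only [norm_mul, norm_ev, mul_one]
    exact hc.comp_injective Subtype.val_injective
  · simp only [norm_mul, norm_ev, mul_one]
    exact hs.le

theorem eq_tsum (hN : N ≠ 0) (hf : Per N f) (hs : Summable fun ξ => ‖fc f ξ‖)
    (v : InfinitePlace F → ℂ) : f v = ∑' ξ, fc f ξ * ev ξ v := by
  have hd : ∀ ξ, fc f ξ ≠ 0 → IsDual N ξ := fun ξ h => fc_ne_zero hN hf h
  have := eq_of_fc hN hf (per_tsum (N := N) (fc f) hs hd) fun ξ => (fc_tsum hN (fc f) hs hd ξ).symm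
  exact congrFun this v

end Fermat.Agent.LT.Fou
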