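import Fermat.Agent.LT.Fou.Box

set_option autoImplicit false

/-! # The archimedean space of a totally complex field, its characters and lattices -/

namespace Fermat.Agent.LT.Fou

open MeasureTheory Complex Topology NumberField
open scoped Real ComplexConjugate

variable {F : Type*} [Field F]

/-- the diagonal embedding `F → ∏_w ℂ` -/
noncomputable def emb (a : F) : InfinitePlace F → ℂ := fun w => w.embedding a

@[simp] theorem emb_apply (a : F) (w : InfinitePlace F) : emb a w = w.embedding a := rfl

theorem emb_add (a b : F) : emb (a + b) = emb a + emb b := by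
  funext w; simp

theorem emb_sub (a b : F) : emb (a - b) = emb a - emb b := by
  funext w; simp

theorem emb_neg (a : F) : emb (-a) = -emb a := by
  funext w; simp

theorem emb_mul (a b : F) : emb (a * b) = emb a * emb b := by
  funext w; simp

@[simp] theorem emb_zero : emb (0 : F) = 0 := by
  funext w; simp

@[simp] theorem emb_one : emb (1 : F) = 1 := by
  funext w; simp

variable [NumberField F]

/-- the real trace form -/
noncomputable def trV (v : InfinitePlace F → ℂ) : ℝ := ∑ w, 2 * (v w).re

theorem trV_add (u v : InfinitePlace F → ℂ) : trV (u + v) = trV u + trV v := by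
  unfold trV
  rw [← Finset.sum_add_distrib]
  exact Finset.sum_congr rfl fun w _ => by rw [Pi.add_apply, Complex.add_re]; ring

theorem trV_neg (u : InfinitePlace F → ℂ) : trV (-u) = -trV u := by
  unfold trV
  rw [← Finset.sum_neg_distrib]
  exact Finset.sum_congr rfl fun w _ => by rw [Pi.neg_apply, Complex.neg_re]; ring

theorem trV_sub (u v : InfinitePlace F → ℂ) : trV (u - v) = trV u - trV v := by
  rw [sub_eq_add_neg, trV_add, trV_neg]; rfl

@[simp] theorem trV_zero : trV (0 : InfinitePlace F → ℂ) = 0 := by
  simp [trV]

theorem trV_smul (t : ℝ) (u : InfinitePlace F → ℂ) : trV (t • u) = t * trV u := by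
  unfold trV
  rw [Finset.mul_sum]
  exact Finset.sum_congr rfl fun w _ => by
    rw [Pi.smul_apply, Complex.real_smul, Complex.re_ofReal_mul]; ring

theorem trV_sum {ι : Type*} (s : Finset ι) (u : ι → InfinitePlace F → ℂ) :
    trV (∑ i ∈ s, u i) = ∑ i ∈ s, trV (u i) := by
  classical
  induction s using Finset.induction_on with
  | empty => simp
  | insert a s ha ih => rw [Finset.sum_insert ha, Finset.sum_insert ha, trV_add, ih]

theorem continuous_trV : Continuous (trV : (InfinitePlace F → ℂ) → ℝ) := by
  unfold trV
  fun_prop

variable [IsTotallyComplex F]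

theorem trV_emb (a : F) : trV (emb a) = ((Algebra.trace ℚ F a : ℚ) : ℝ) := by
  classical
  have h1 : ((Algebra.trace ℚ F a : ℚ) : ℂ) = ∑ φ : F →+* ℂ, φ a := by
    have h := trace_eq_sum_embeddings (K := ℚ) (L := F) ℂ (x := a)
    rw [eq_ratCast] at h
    rw [h]
    symm
    apply Fintype.sum_equiv (RingHom.equivRatAlgHom F ℂ)
    intro φ
    rfl
  have h2 : ∑ φ : F →+* ℂ, φ a = ∑ w : InfinitePlace F, ((2 * (w.embedding a).re : ℝ) : ℂ) := by
    rw [← Finset.sum_fiberwise (s := Finset.univ) (g := fun φ : F →+* ℂ => InfinitePlace.mk φ)]
    apply Finset.sum_congr rfl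
    intro w _
    have hw : ComplexEmbedding.conjugate w.embedding ≠ w.embedding := by
      have := InfinitePlace.isComplex_iff.mp (IsTotallyComplex.isComplex w)
      exact this
    have h3 : (Finset.univ.filter fun φ : F →+* ℂ => InfinitePlace.mk φ = w) =
        {w.embedding, ComplexEmbedding.conjugate w.embedding} := by
      ext φ
      simp only [Finset.mem_filter, Finset.mem_univ, true_and, Finset.mem_insert,
        Finset.mem_singleton]
      conv_lhs => rw [← InfinitePlace.mk_embedding w]
      rw [InfinitePlace.mk_eq_iff]
      constructor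
      · rintro (h | h)
        · exact Or.inl h
        · right
          rw [← h]
          exact (star_involutive φ).symm
      · rintro (h | h)
        · exact Or.inl h
        · right
          rw [h]
          exact star_involutive _
    rw [h3, Finset.sum_pair hw.symm]
    rw [ComplexEmbedding.conjugate_coe_eq, Complex.add_conj]
  have h4 : ((trV (emb a) : ℝ) : ℂ) = ((Algebra.trace ℚ F a : ℚ) : ℂ) := by
    rw [h1, h2]
    unfold trV
    push_cast
    rfl
  exact_mod_cast h4

end Fermat.Agent.LT.Fou
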