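import Fermat.Agent.LT.Fou.Emb

set_option autoImplicit false

/-! # Lattice coordinates, characters and periodic functions on `∏_w ℂ` -/

namespace Fermat.Agent.LT.Fou

open MeasureTheory Complex Topology NumberField
open scoped Real ComplexConjugate

variable {F : Type*} [Field F] [NumberField F]

variable (F) in
/-- the index type of the integral basis -/
abbrev Ix := Module.Free.ChooseBasisIndex ℤ (𝓞 F)

open Classical in
/-- the integral basis -/
noncomputable def bas (i : Ix F) : F := integralBasis F i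

open Classical in
/-- the trace dual basis -/
noncomputable def dua (i : Ix F) : F := (integralBasis F).traceDual i

open Classical in
theorem trace_dua_bas (i j : Ix F) :
    Algebra.trace ℚ F (dua i * bas j) = if j = i then 1 else 0 :=
  Module.Basis.trace_traceDual_mul _ i j

open Classical in
theorem trace_bas_dua (i j : Ix F) :
    Algebra.trace ℚ F (bas i * dua j) = if i = j then 1 else 0 :=
  Module.Basis.trace_mul_traceDual _ i j

/-- integer combinations of the basis -/
noncomputable def intc (k : Ix F → ℤ) : 𝓞 F := ∑ i, k i • RingOfIntegers.basis F i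

theorem coe_intc (k : Ix F → ℤ) : (intc k : F) = ∑ i, (k i : F) * bas i := by
  unfold intc bas
  rw [RingOfIntegers.coe_eq_algebraMap, map_sum]
  apply Finset.sum_congr rfl
  intro i _
  rw [integralBasis_apply, zsmul_eq_mul, map_mul, map_intCast]

theorem exists_intc (a : 𝓞 F) : ∃ k : Ix F → ℤ, a = intc k :=
  ⟨fun i => (RingOfIntegers.basis F).repr a i, ((RingOfIntegers.basis F).sum_repr a).symm⟩

/-- coordinates of the space `∏_w ℂ` with respect to the lattice `N·𝓞` -/
noncomputable def crd (N : ℕ) (t : Ix F → ℝ) : InfinitePlace F → ℂ :=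
  ∑ i, ((N : ℝ) * t i) • emb (bas i)

/-- the inverse coordinates -/
noncomputable def crdInv (N : ℕ) (v : InfinitePlace F → ℂ) : Ix F → ℝ :=
  fun i => trV (emb (dua i) * v) / N

theorem crd_add (N : ℕ) (s t : Ix F → ℝ) : crd N (s + t) = crd (F := F) N s + crd N t := by
  unfold crd
  rw [← Finset.sum_add_distrib]
  apply Finset.sum_congr rfl
  intro i _
  rw [← add_smul, Pi.add_apply, mul_add]

theorem crd_smul (N : ℕ) (c : ℝ) (t : Ix F → ℝ) : crd N (c • t) = c • crd (F := F) N t := by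
  unfold crd
  rw [Finset.smul_sum]
  apply Finset.sum_congr rfl
  intro i _
  rw [smul_smul, Pi.smul_apply, smul_eq_mul]
  congr 1
  ring

theorem continuous_crd (N : ℕ) : Continuous (crd (F := F) N) := by
  unfold crd
  fun_prop

omit [NumberField F] in
theorem emb_ratCast (q : ℚ) (a : F) : emb ((q : F) * a) = (q : ℝ) • emb a := by
  funext w
  rw [Pi.smul_apply, emb_apply, emb_apply, map_mul, map_ratCast, Complex.real_smul]
  push_cast
  rfl

theorem emb_intc (N : ℕ) (k : Ix F → ℤ) : emb ((N : F) * (intc k : F)) = crd N (zc k) := by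
  rw [coe_intc]
  unfold crd zc
  funext w
  rw [emb_apply, map_mul, map_sum, map_natCast, Finset.sum_apply, Finset.mul_sum]
  apply Finset.sum_congr rfl
  intro i _
  rw [map_mul, map_intCast, Pi.smul_apply, emb_apply, Complex.real_smul]
  push_cast
  ring

omit [NumberField F] in
theorem mul_smul_V (c : ℝ) (u v : InfinitePlace F → ℂ) : u * (c • v) = c • (u * v) :=
  mul_smul_comm c u v

section

variable [IsTotallyComplex F]

theorem crdInv_crd {N : ℕ} (hN : N ≠ 0) (t : Ix F → ℝ) : crdInv N (crd (F := F) N t) = t := by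
  classical
  funext i
  unfold crdInv crd
  rw [Finset.mul_sum, trV_sum]
  have : ∀ j, trV (emb (dua i) * (((N : ℝ) * t j) • emb (bas j)) : InfinitePlace F → ℂ) =
      if j = i then (N : ℝ) * t i else 0 := by
    intro j
    rw [mul_smul_V, trV_smul, ← emb_mul, trV_emb, trace_dua_bas]
    split_ifs with h
    · rw [h]; simp
    · simp
  rw [Finset.sum_congr rfl fun j _ => this j, Finset.sum_ite_eq' Finset.univ i]
  rw [if_pos (Finset.mem_univ i)]
  have hN' : (N : ℝ) ≠ 0 := by exact_mod_cast hN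
  field_simp

/-- `crd` as a linear map -/
noncomputable def crdL (N : ℕ) : (Ix F → ℝ) →ₗ[ℝ] (InfinitePlace F → ℂ) where
  toFun := crd N
  map_add' := crd_add N
  map_smul' := crd_smul N

theorem crd_surj {N : ℕ} (hN : N ≠ 0) : Function.Surjective (crd (F := F) N) := by
  have hinj : Function.Injective (crdL (F := F) N) :=
    Function.LeftInverse.injective (g := crdInv N) fun t => crdInv_crd hN t
  have hfin : Module.finrank ℝ (Ix F → ℝ) = Module.finrank ℝ (InfinitePlace F → ℂ) := by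
    rw [Module.finrank_fintype_fun_eq_card, Module.finrank_pi_fintype, Finset.sum_const,
      Complex.finrank_real_complex]
    have h1 : Fintype.card (Ix F) = Module.finrank ℚ F := by
      rw [← Module.finrank_eq_card_basis (integralBasis F)]
    rw [h1, IsTotallyComplex.finrank, Finset.card_univ,
      InfinitePlace.card_eq_nrRealPlaces_add_nrComplexPlaces, IsTotallyComplex.nrRealPlaces_eq_zero,
      zero_add, smul_eq_mul, mul_comm]
  exact (LinearMap.injective_iff_surjective_of_finrank_eq_finrank hfin).mp hinj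

theorem crd_crdInv {N : ℕ} (hN : N ≠ 0) (v : InfinitePlace F → ℂ) : crd N (crdInv N v) = v := by
  obtain ⟨t, rfl⟩ := crd_surj hN v
  rw [crdInv_crd hN]

end

/-- the additive characters of `∏_w ℂ` attached to elements of `F` -/
noncomputable def ev (ξ : F) (v : InfinitePlace F → ℂ) : ℂ :=
  cexp (2 * π * I * (trV (emb ξ * v) : ℝ))

theorem norm_ev (ξ : F) (v : InfinitePlace F → ℂ) : ‖ev ξ v‖ = 1 := by
  unfold ev
  have : (2 * π * I * ((trV (emb ξ * v) : ℝ) : ℂ)) =
      ((2 * π * trV (emb ξ * v) : ℝ) : ℂ) * I := by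
    push_cast; ring
  rw [this, Complex.norm_exp_ofReal_mul_I]

theorem ev_ne_zero (ξ : F) (v : InfinitePlace F → ℂ) : ev ξ v ≠ 0 := Complex.exp_ne_zero _

theorem ev_add (ξ : F) (u v : InfinitePlace F → ℂ) : ev ξ (u + v) = ev ξ u * ev ξ v := by
  unfold ev
  rw [← Complex.exp_add, mul_add, trV_add]
  congr 1
  push_cast
  ring

theorem ev_neg (ξ : F) (v : InfinitePlace F → ℂ) : ev (-ξ) v = ev ξ (-v) := by
  unfold ev
  rw [emb_neg, neg_mul, mul_neg]

theorem ev_neg_mul (ξ : F) (v : InfinitePlace F → ℂ) : ev (-ξ) v * ev ξ v = 1 := by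
  rw [ev_neg, ← ev_add, neg_add_cancel]
  simp [ev]

theorem ev_add_left (ξ η : F) (v : InfinitePlace F → ℂ) : ev (ξ + η) v = ev ξ v * ev η v := by
  unfold ev
  rw [← Complex.exp_add, emb_add, add_mul, trV_add]
  congr 1
  push_cast
  ring

@[simp] theorem ev_zero (v : InfinitePlace F → ℂ) : ev 0 v = 1 := by
  simp [ev]

theorem ev_mul (a ξ : F) (v : InfinitePlace F → ℂ) : ev (a * ξ) v = ev ξ (emb a * v) := by
  unfold ev
  rw [emb_mul, ← mul_assoc, mul_comm (emb ξ) (emb a)]

theorem continuous_ev (ξ : F) : Continuous (ev ξ) := by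
  unfold ev
  have := (continuous_trV (F := F)).comp (continuous_const.mul continuous_id : Continuous
    fun v : InfinitePlace F → ℂ => emb ξ * v)
  fun_prop

/-- `ξ` is orthogonal to `N·𝓞` -/
def IsDual (N : ℕ) (ξ : F) : Prop :=
  ∀ a : 𝓞 F, ∃ m : ℤ, Algebra.trace ℚ F (ξ * ((N : F) * a)) = m

theorem IsDual.zero (N : ℕ) : IsDual N (0 : F) := fun a => ⟨0, by simp⟩

theorem IsDual.add {N : ℕ} {ξ η : F} (h1 : IsDual N ξ) (h2 : IsDual N η) : IsDual N (ξ + η) := by
  intro a
  obtain ⟨m, hm⟩ := h1 a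
  obtain ⟨n, hn⟩ := h2 a
  exact ⟨m + n, by rw [add_mul, map_add, hm, hn]; push_cast; rfl⟩

theorem IsDual.neg {N : ℕ} {ξ : F} (h1 : IsDual N ξ) : IsDual N (-ξ) := by
  intro a
  obtain ⟨m, hm⟩ := h1 a
  exact ⟨-m, by rw [neg_mul, map_neg, hm]; push_cast; rfl⟩

theorem IsDual.sub {N : ℕ} {ξ η : F} (h1 : IsDual N ξ) (h2 : IsDual N η) : IsDual N (ξ - η) := by
  rw [sub_eq_add_neg]; exact h1.add h2.neg

theorem IsDual.mul_int {N : ℕ} {ξ : F} (h1 : IsDual N ξ) (b : 𝓞 F) : IsDual N (ξ * b) := by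
  intro a
  obtain ⟨m, hm⟩ := h1 (b * a)
  refine ⟨m, ?_⟩
  rw [← hm]
  congr 1
  push_cast
  ring

theorem IsDual.mono {N N' : ℕ} (h : N ∣ N') {ξ : F} (h1 : IsDual N ξ) : IsDual N' ξ := by
  obtain ⟨k, rfl⟩ := h
  intro a
  obtain ⟨m, hm⟩ := h1 ((k : 𝓞 F) * a)
  refine ⟨m, ?_⟩
  rw [← hm]
  congr 1
  push_cast
  ring

/-- every `ξ` is orthogonal to some lattice `N·𝓞` -/
theorem exists_isDual (ξ : F) : ∃ N : ℕ, N ≠ 0 ∧ IsDual N ξ := by
  obtain ⟨x, y, hy, rfl⟩ := IsFractionRing.div_surjective (A := 𝓞 F) ξ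
  have hy0 : y ≠ 0 := nonZeroDivisors.ne_zero hy
  have hN : (Ideal.span {y}).absNorm ≠ 0 := by
    rw [Ne, Ideal.absNorm_eq_zero_iff, Ideal.span_singleton_eq_bot]
    exact hy0
  refine ⟨(Ideal.span {y}).absNorm, hN, fun a => ?_⟩
  have h1 : ((Ideal.span {y}).absNorm : 𝓞 F) ∈ Ideal.span {y} := Ideal.absNorm_mem _
  obtain ⟨z, hz⟩ := Ideal.mem_span_singleton.mp h1
  have h2 : ((x : F) / (y : F)) * (((Ideal.span {y}).absNorm : F) * (a : F)) =
      ((x * z * a : 𝓞 F) : F) := by
    have h3 : (((Ideal.span {y}).absNorm : ℕ) : F) = (y : F) * (z : F) := by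
      have := congrArg (algebraMap (𝓞 F) F) hz
      rw [map_natCast, map_mul] at this
      exact this
    have hy1 : (y : F) ≠ 0 := by
      rw [Ne, RingOfIntegers.coe_eq_zero_iff]
      exact hy0
    rw [h3]
    push_cast
    field_simp
  refine ⟨Algebra.trace ℤ (𝓞 F) (x * z * a), ?_⟩
  rw [← RingOfIntegers.coe_eq_algebraMap, ← RingOfIntegers.coe_eq_algebraMap, h2]
  exact (Algebra.coe_trace_int _).symm

section

variable [IsTotallyComplex F]

theorem ev_emb_of_trace_int {ξ a : F} {m : ℤ} (h : Algebra.trace ℚ F (ξ * a) = m) :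
    ev ξ (emb a) = 1 := by
  unfold ev
  rw [← emb_mul, trV_emb, h]
  rw [show (2 * π * I * (((m : ℚ) : ℝ) : ℂ)) = (m : ℂ) * (2 * π * I) by push_cast; ring]
  exact Complex.exp_int_mul_two_pi_mul_I m

theorem ev_emb_of_isDual {N : ℕ} {ξ : F} (h : IsDual N ξ) (a : 𝓞 F) :
    ev ξ (emb ((N : F) * a)) = 1 := by
  obtain ⟨m, hm⟩ := h a
  exact ev_emb_of_trace_int hm

/-- if `ξ` is not orthogonal to `N·𝓞` then the character is nontrivial on the lattice -/
theorem exists_ev_ne_one {N : ℕ} {ξ : F} (h : ¬ IsDual N ξ) :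
    ∃ a : 𝓞 F, ev ξ (emb ((N : F) * a)) ≠ 1 := by
  unfold IsDual at h
  push Not at h
  obtain ⟨a, ha⟩ := h
  refine ⟨a, fun hcon => ?_⟩
  unfold ev at hcon
  rw [← emb_mul, trV_emb, Complex.exp_eq_one_iff] at hcon
  obtain ⟨m, hm⟩ := hcon
  apply ha m
  have h2 : (2 * π * I : ℂ) ≠ 0 := Complex.two_pi_I_ne_zero
  have h3 : (((Algebra.trace ℚ F (ξ * ((N : F) * a)) : ℚ) : ℝ) : ℂ) = (m : ℂ) := by
    apply mul_left_cancel₀ h2
    rw [hm]; ring
  exact_mod_cast h3

/-- frequencies -/
noncomputable def frq (N : ℕ) (m : Ix F → ℤ) : F := ∑ i, (((m i : ℚ) / N : ℚ) : F) * dua i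

omit [IsTotallyComplex F] in
theorem trace_frq_bas {N : ℕ} (hN : N ≠ 0) (m : Ix F → ℤ) (j : Ix F) :
    Algebra.trace ℚ F (frq N m * ((N : F) * bas j)) = m j := by
  classical
  unfold frq
  rw [Finset.sum_mul, map_sum]
  have : ∀ i, Algebra.trace ℚ F ((((m i : ℚ) / N : ℚ) : F) * dua i * ((N : F) * bas j)) =
      if i = j then (m j : ℚ) else 0 := by
    intro i
    have e1 : (((m i : ℚ) / N : ℚ) : F) * dua i * ((N : F) * bas j) =
        (m i : ℚ) • (dua i * bas j) := by
      rw [Rat.smul_def]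
      push_cast
      have hN' : (N : F) ≠ 0 := by exact_mod_cast hN
      field_simp
    rw [e1, map_smul, trace_dua_bas]
    split_ifs with h1 h2 h2
    · rw [h2]; simp
    · exact absurd h1.symm h2
    · exact absurd h2.symm h1
    · simp
  rw [Finset.sum_congr rfl fun i _ => this i, Finset.sum_ite_eq' Finset.univ j,
    if_pos (Finset.mem_univ j)]

theorem ev_frq_crd {N : ℕ} (hN : N ≠ 0) (m : Ix F → ℤ) (t : Ix F → ℝ) :
    ev (frq N m) (crd N t) = ee m t := by
  unfold ev ee crd
  rw [Finset.mul_sum, trV_sum]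
  have : ∀ j, trV (emb (frq N m) * (((N : ℝ) * t j) • emb (bas j)) : InfinitePlace F → ℂ) =
      (m j : ℝ) * t j := by
    intro j
    have e1 : (((N : ℝ) * t j) • emb (bas j) : InfinitePlace F → ℂ) =
        (t j) • emb ((N : F) * bas j) := by
      funext w
      simp only [Pi.smul_apply, emb_apply, Complex.real_smul, map_mul, map_natCast]
      push_cast
      ring
    rw [e1, mul_smul_V, trV_smul, ← emb_mul, trV_emb, trace_frq_bas hN]
    push_cast
    ring
  rw [Finset.sum_congr rfl fun i _ => this i]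
  push_cast
  rfl

theorem isDual_frq {N : ℕ} (hN : N ≠ 0) (m : Ix F → ℤ) : IsDual N (frq N m : F) := by
  intro a
  obtain ⟨k, rfl⟩ := exists_intc a
  refine ⟨∑ i, m i * k i, ?_⟩
  rw [coe_intc, Finset.mul_sum, Finset.mul_sum, map_sum]
  push_cast
  apply Finset.sum_congr rfl
  intro i _
  rw [show frq N m * ((N : F) * ((k i : F) * bas i)) =
    (k i : ℚ) • (frq N m * ((N : F) * bas i)) by rw [Rat.smul_def]; push_cast; ring]
  rw [map_smul, trace_frq_bas hN, smul_eq_mul, mul_comm]

theorem exists_frq {N : ℕ} (hN : N ≠ 0) {ξ : F} (h : IsDual N ξ) : ∃ m : Ix F → ℤ, ξ = frq N m := by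
  classical
  have h1 : ∀ i : Ix F, ∃ m : ℤ, Algebra.trace ℚ F (ξ * ((N : F) * bas i)) = m := by
    intro i
    obtain ⟨m, hm⟩ := h (RingOfIntegers.basis F i)
    refine ⟨m, ?_⟩
    rw [← hm]
    unfold bas
    rw [integralBasis_apply]
  choose m hm using h1
  refine ⟨m, ?_⟩
  apply (integralBasis F).traceDual.ext_elem
  intro i
  rw [Module.Basis.traceDual_repr_apply, Module.Basis.traceDual_repr_apply, Algebra.traceForm_apply,
    Algebra.traceForm_apply]
  have hN' : (N : ℚ) ≠ 0 := by exact_mod_cast hN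
  have h2 := hm i
  have h3 := trace_frq_bas hN m i
  have e : ∀ x : F, Algebra.trace ℚ F (x * ((N : F) * bas i)) =
      (N : ℚ) * Algebra.trace ℚ F (x * bas i) := by
    intro x
    rw [show x * ((N : F) * bas i) = (N : ℚ) • (x * bas i) by rw [Rat.smul_def]; push_cast; ring]
    rw [map_smul, smul_eq_mul]
  rw [e] at h2 h3
  apply mul_left_cancel₀ hN'
  exact h2.trans h3.symm

theorem frq_inj {N : ℕ} (hN : N ≠ 0) : Function.Injective (frq (F := F) N) := by
  intro m m' h
  funext j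
  have h1 := trace_frq_bas hN m j
  rw [h, trace_frq_bas hN] at h1
  exact_mod_cast h1.symm

omit [IsTotallyComplex F] in
@[simp] theorem frq_zero (N : ℕ) : frq N (0 : Ix F → ℤ) = (0 : F) := by
  simp [frq]

end

end Fermat.Agent.LT.Fou
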