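import Fermat.Agent.LT.Fou.AutForm
import Fermat.Agent.LT.Glob.Fin

set_option autoImplicit false
set_option linter.unusedSectionVars false

/-! # Local translations on the restricted product and local additive characters -/

namespace Fermat.Agent.LT.Fou

open Complex Topology NumberField Sp Glob LocFam Filter
open scoped Real ComplexConjugate MatrixGroups

universe w u i

section PGL

variable {R : Type*} [CommRing R]

/-- unipotent elements of `PGL₂(R)` -/
def pN (b : R) : PGL(2, R) := Matrix.ProjGenLinGroup.mk (tri 1 1 b)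

/-- diagonal elements of `PGL₂(R)` -/
def pA (a : Rˣ) : PGL(2, R) := Matrix.ProjGenLinGroup.mk (tri a 1 0)

theorem tri_one : tri (1 : Rˣ) 1 0 = 1 := by
  apply Units.ext
  rw [tri_coe, Units.val_one, Units.val_one, Matrix.one_fin_two]

@[simp] theorem pN_zero : pN (0 : R) = 1 := by
  rw [pN, tri_one, map_one]

theorem pN_add (a b : R) : pN (a + b) = pN a * pN b := by
  rw [pN, pN, pN, ← map_mul, tri_mul]
  congr 2
  · simp
  · simp
  · simp [add_comm]

theorem pN_neg (b : R) : pN (-b) = (pN b)⁻¹ := by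
  rw [eq_inv_iff_mul_eq_one, ← pN_add, neg_add_cancel, pN_zero]

@[simp] theorem pA_one : pA (1 : Rˣ) = 1 := by
  rw [pA, tri_one, map_one]

theorem pA_mul (a b : Rˣ) : pA (a * b) = pA a * pA b := by
  rw [pA, pA, pA, ← map_mul, tri_mul]
  congr 2
  · simp
  · simp

theorem pA_inv (a : Rˣ) : pA a⁻¹ = (pA a)⁻¹ := by
  rw [eq_inv_iff_mul_eq_one, ← pA_mul, inv_mul_cancel, pA_one]

theorem pA_mul_pN (a : Rˣ) (b : R) : pA a * pN b = pN ((a : R) * b) * pA a := by
  rw [pA, pN, pN, ← map_mul, ← map_mul, tri_mul, tri_mul]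
  congr 2
  · simp
  · simp

theorem pN_mul_pA (a : Rˣ) (b : R) : pN b * pA a = pA a * pN (((a⁻¹ : Rˣ) : R) * b) := by
  rw [pA_mul_pN, ← mul_assoc, Units.mul_inv, one_mul]

theorem pN_mem_PK {O : Subring R} {N : ℕ} {b : R} (h : b ∈ NO O N) : pN b ∈ PK O N := by
  refine mk_mem_PK ⟨tri_mem (one_mem _) (one_mem _) (NO_le _ _ h), fun i j => ?_⟩
  rw [tri_coe]
  fin_cases i <;> fin_cases j <;> simp [h, zero_mem]

theorem pN_mem_PO {O : Subring R} {b : R} (h : b ∈ O) : pN b ∈ PO O :=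
  mk_mem_PO (tri_mem (one_mem _) (one_mem _) h)

theorem pA_mem_PO {O : Subring R} {a : Rˣ} (h : a ∈ OU O) : pA a ∈ PO O :=
  mk_mem_PO (tri_mem h (one_mem _) O.zero_mem)

end PGL

section

variable {F : Type u} [Field F] {ι : Type i} {L : LocFam.{w} F ι} {U : L.Level}

theorem emb_nMat (v : ι) (b : F) : L.emb v (nMat b) = pN (L.loc v b) := by
  rw [LocFam.emb_eq, pN]
  congr 1
  apply Units.ext
  ext i j
  show L.loc v ((nMat b : GL (Fin 2) F) i j) = _
  rw [nMat_coe, tri_coe]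
  fin_cases i <;> fin_cases j <;> simp

theorem emb_aMat (v : ι) (a : Fˣ) : L.emb v (aMat a) = pA (L.un v a) := by
  rw [LocFam.emb_eq, pA]
  congr 1
  apply Units.ext
  ext i j
  show L.loc v ((aMat a : GL (Fin 2) F) i j) = _
  rw [aMat_coe, tri_coe]
  fin_cases i <;> fin_cases j <;> simp

open Classical in
/-- change of one coordinate of a point of `D` -/
noncomputable def setv (d : D U) (v : ι) (x : X U v) : D U :=
  ⟨Function.update d.1 v x, by
    have h1 : ∀ᶠ v' in cofinite, v' ≠ v := by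
      rw [eventually_cofinite]
      simp only [not_not]
      exact Set.finite_singleton v
    filter_upwards [d.2, h1] with v' h2 h3
    rw [Function.update_of_ne h3]
    exact h2⟩

theorem setv_same (d : D U) (v : ι) (x : X U v) : (setv d v x) v = x := by
  classical
  exact Function.update_self v x d.1

theorem setv_ne (d : D U) {v v' : ι} (h : v' ≠ v) (x : X U v) : (setv d v x) v' = d v' := by
  classical
  exact Function.update_of_ne h x d.1

theorem setv_self (d : D U) (v : ι) : setv d v (d v) = d := by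
  apply D.ext
  intro v'
  by_cases h : v' = v
  · subst h; rw [setv_same]
  · rw [setv_ne _ h]

theorem setv_setv (d : D U) (v : ι) (x y : X U v) : setv (setv d v x) v y = setv d v y := by
  apply D.ext
  intro v'
  by_cases h : v' = v
  · subst h; rw [setv_same, setv_same]
  · rw [setv_ne _ h, setv_ne _ h, setv_ne _ h]

theorem setv_comm (d : D U) {v v' : ι} (h : v ≠ v') (x : X U v) (y : X U v') :
    setv (setv d v x) v' y = setv (setv d v' y) v x := by
  apply D.ext
  intro u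
  by_cases h1 : u = v
  · subst h1
    rw [setv_ne _ h, setv_same, setv_same]
  · by_cases h2 : u = v'
    · subst h2
      rw [setv_same, setv_ne _ h.symm, setv_same]
    · rw [setv_ne _ h2, setv_ne _ h1, setv_ne _ h1, setv_ne _ h2]

/-- deep congruence subgroups fix a given point -/
theorem exists_deep (v : ι) (x : X U v) : ∃ N : ℕ, N ≠ 0 ∧ ∀ b ∈ NO (L.O v) N, pN b • x = x := by
  classical
  obtain ⟨g, rfl⟩ := QuotientGroup.mk_surjective x
  obtain ⟨h, rfl⟩ := Matrix.ProjGenLinGroup.mk_surjective g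
  obtain ⟨N0, hN0, hU⟩ := U.deep v
  obtain ⟨M₁, hM₁, hM₁'⟩ := finite_denom_mat (L := L) {v} (fun v' => if e : v' = v then
    e ▸ ((h : GL (Fin 2) (L.R v)) : Matrix (Fin 2) (Fin 2) (L.R v)) else 0)
  obtain ⟨M₂, hM₂, hM₂'⟩ := finite_denom_mat (L := L) {v} (fun v' => if e : v' = v then
    e ▸ (((h⁻¹ : GL (Fin 2) (L.R v))) : Matrix (Fin 2) (Fin 2) (L.R v)) else 0)
  have k1 := fun i j => hM₁' v (Finset.mem_singleton_self v) i j
  have k2 := fun i j => hM₂' v (Finset.mem_singleton_self v) i j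
  simp only [dite_true] at k1 k2
  refine ⟨N0 * (M₁ * M₂), mul_ne_zero hN0 (mul_ne_zero hM₁ hM₂), fun b hb => ?_⟩
  have key : ∀ b ∈ NO (L.O v) (N0 * (M₁ * M₂)), ∀ i j,
      ((h⁻¹ * tri 1 1 b * h : GL (Fin 2) (L.R v)) : Matrix (Fin 2) (Fin 2) (L.R v)) i j -
        (1 : Matrix (Fin 2) (Fin 2) (L.R v)) i j ∈ NO (L.O v) N0 := by
    intro b hb i j
    obtain ⟨c, hc, rfl⟩ := hb
    have e1 : ((h⁻¹ * tri 1 1 (((N0 * (M₁ * M₂) : ℕ) : L.R v) * c) * h : GL (Fin 2) (L.R v)) :
        Matrix (Fin 2) (Fin 2) (L.R v)) - 1 =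
        ((h⁻¹ : GL (Fin 2) (L.R v)) : Matrix (Fin 2) (Fin 2) (L.R v)) *
        (((tri 1 1 (((N0 * (M₁ * M₂) : ℕ) : L.R v) * c) : GL (Fin 2) (L.R v)) :
          Matrix (Fin 2) (Fin 2) (L.R v)) - 1) * (h : Matrix (Fin 2) (Fin 2) (L.R v)) := by
      rw [mul_sub, sub_mul, mul_one, ← Units.val_mul, ← Units.val_mul, ← Units.val_mul,
        inv_mul_cancel, Units.val_one]
    rw [← Matrix.sub_apply, e1, Matrix.mul_apply]
    refine sum_mem fun k _ => ?_
    rw [Matrix.mul_apply, Finset.sum_mul]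
    refine sum_mem fun l _ => ?_
    have e2 : (((tri 1 1 (((N0 * (M₁ * M₂) : ℕ) : L.R v) * c) : GL (Fin 2) (L.R v)) :
          Matrix (Fin 2) (Fin 2) (L.R v)) - 1) l k =
        ((N0 * (M₁ * M₂) : ℕ) : L.R v) * (if l = 0 ∧ k = 1 then c else 0) := by
      rw [tri_coe]
      fin_cases l <;> fin_cases k <;> simp
    rw [e2]
    have h3 : (if l = 0 ∧ k = 1 then c else 0) ∈ L.O v := by
      split_ifs
      · exact hc
      · exact (L.O v).zero_mem
    refine ⟨((M₂ : L.R v) * (h⁻¹ : GL (Fin 2) (L.R v)) i l) *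
      ((M₁ : L.R v) * (h : GL (Fin 2) (L.R v)) k j) * (if l = 0 ∧ k = 1 then c else 0), ?_, ?_⟩
    · exact (L.O v).mul_mem ((L.O v).mul_mem (k2 i l) (k1 k j)) h3
    · push_cast
      ring
  have hmem : h⁻¹ * tri 1 1 b * h ∈ KN (L.O v) N0 := by
    have hO : ∀ {x : L.R v} {i j : Fin 2}, x - (1 : Matrix (Fin 2) (Fin 2) (L.R v)) i j ∈
        NO (L.O v) N0 → x ∈ L.O v := by
      intro x i j hx
      have h1 := NO_le _ _ hx
      have h2 : (1 : Matrix (Fin 2) (Fin 2) (L.R v)) i j ∈ L.O v := by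
        rw [Matrix.one_apply]; split_ifs; exacts [(L.O v).one_mem, (L.O v).zero_mem]
      have := (L.O v).add_mem h1 h2
      rwa [sub_add_cancel] at this
    refine ⟨⟨fun i j => hO (key b hb i j), fun i j => ?_⟩, key b hb⟩
    have e3 : (h⁻¹ * tri 1 1 b * h)⁻¹ = h⁻¹ * tri 1 1 (-b) * h := by
      have : (tri 1 1 b : GL (Fin 2) (L.R v))⁻¹ = tri 1 1 (-b) := by
        rw [inv_eq_iff_mul_eq_one, tri_mul]
        simp [tri_one]
      rw [← this]
      group
    rw [e3]
    exact hO (key (-b) (neg_mem hb) i j)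
  show ((pN b * Matrix.ProjGenLinGroup.mk h : L.G v) : L.G v ⧸ U.U v) = _
  rw [QuotientGroup.eq]
  have e4 : (pN b * Matrix.ProjGenLinGroup.mk h : L.G v)⁻¹ * Matrix.ProjGenLinGroup.mk h =
      (Matrix.ProjGenLinGroup.mk (h⁻¹ * tri 1 1 b * h))⁻¹ := by
    rw [map_mul, map_mul, map_inv, pN]
    group
  rw [e4]
  exact inv_mem (hU (mk_mem_PK hmem))

/-- **Strong approximation** for unipotent matrices. -/
theorem exists_near (d : D U) (v : ι) (b : L.R v) (T : Finset ι) (M : ℕ) (hM : M ≠ 0) :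
    ∃ b' : F, nMat b' • d = setv d v (pN b • d v) ∧ L.loc v b' - b ∈ NO (L.O v) M ∧
      (∀ v' ∈ T, v' ≠ v → L.loc v' b' ∈ NO (L.O v') M) ∧ (∀ v' ≠ v, L.loc v' b' ∈ L.O v') := by
  classical
  obtain ⟨S0, hS0⟩ := exists_finset_compl (d.2.and U.eventually_eq)
  choose N hN hN' using fun v' => exists_deep (U := U) v' (d v')
  set S : Finset ι := insert v (T ∪ S0) with hS
  have hP : M * ∏ v' ∈ S, N v' ≠ 0 :=
    mul_ne_zero hM (Finset.prod_ne_zero_iff.mpr fun v' _ => hN v')
  obtain ⟨b', h1, h2⟩ := L.dense S (fun v' => if e : v' = v then e ▸ b else 0) _ hP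
  have hdvd : ∀ v' ∈ S, N v' ∣ M * ∏ v' ∈ S, N v' := fun v' hv' =>
    (Finset.dvd_prod_of_mem N hv').mul_left M
  have hv := h1 v (Finset.mem_insert_self v _)
  simp only [dite_true] at hv
  have hne : ∀ v' ∈ S, v' ≠ v → L.loc v' b' ∈ NO (L.O v') (M * ∏ v' ∈ S, N v') := by
    intro v' hv' hne
    have := h1 v' hv'
    rwa [dif_neg hne, sub_zero] at this
  refine ⟨b', ?_, NO_mono (Dvd.intro _ rfl) hv, fun v' hv' hv'' =>
    NO_mono (Dvd.intro _ rfl) (hne v' (Finset.mem_insert_of_mem (Finset.mem_union_left _ hv')) hv''),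
    fun v' hv' => ?_⟩
  · apply D.ext
    intro v'
    rw [LocFam.smul_apply, emb_nMat]
    by_cases h : v' = v
    · subst h
      rw [setv_same]
      have e : L.loc v' b' = b + (L.loc v' b' - b) := by ring
      rw [e, pN_add, mul_smul, hN' v' _ (NO_mono (hdvd v' (Finset.mem_insert_self _ _)) hv)]
    · rw [setv_ne _ h]
      by_cases hS' : v' ∈ S
      · exact hN' v' _ (NO_mono (hdvd v' hS') (hne v' hS' h))
      · have h3 : v' ∉ S0 := fun h' => hS' (Finset.mem_insert_of_mem (Finset.mem_union_right _ h'))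
        obtain ⟨h4, h5⟩ := hS0 v' h3
        rw [h4]
        exact smul_base (by rw [h5]; exact pN_mem_PO (h2 v' hS'))
  · by_cases hS' : v' ∈ S
    · exact NO_le _ _ (hne v' hS' hv')
    · exact h2 v' hS'

end

end Fermat.Agent.LT.Fou
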