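import Fermat.Agent.LT.Fou.Lat

set_option autoImplicit false
set_option linter.unusedSectionVars false

/-! # Mean values and Fourier coefficients of periodic functions on `∏_w ℂ` -/

namespace Fermat.Agent.LT.Fou

open MeasureTheory Complex Topology NumberField
open scoped Real ComplexConjugate

variable {F : Type*} [Field F] [NumberField F]

/-- continuous functions periodic under the lattice `N·𝓞` -/
structure Per (N : ℕ) (f : (InfinitePlace F → ℂ) → ℂ) : Prop where
  cont : Continuous f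
  per : ∀ (a : 𝓞 F) v, f (v + emb ((N : F) * a)) = f v

namespace Per

variable {N N' : ℕ} {f g : (InfinitePlace F → ℂ) → ℂ}

theorem mono (h : N ∣ N') (hf : Per N f) : Per N' f := by
  refine ⟨hf.cont, fun a v => ?_⟩
  obtain ⟨k, rfl⟩ := h
  have := hf.per ((k : 𝓞 F) * a) v
  rw [← this]
  congr 3
  push_cast
  ring

theorem const (c : ℂ) : Per N (fun _ : InfinitePlace F → ℂ => c) :=
  ⟨continuous_const, fun _ _ => rfl⟩

theorem add (hf : Per N f) (hg : Per N g) : Per N (fun v => f v + g v) :=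
  ⟨hf.cont.add hg.cont, fun a v => by rw [hf.per, hg.per]⟩

theorem sub (hf : Per N f) (hg : Per N g) : Per N (fun v => f v - g v) :=
  ⟨hf.cont.sub hg.cont, fun a v => by rw [hf.per, hg.per]⟩

theorem mul (hf : Per N f) (hg : Per N g) : Per N (fun v => f v * g v) :=
  ⟨hf.cont.mul hg.cont, fun a v => by rw [hf.per, hg.per]⟩

theorem const_mul (c : ℂ) (hf : Per N f) : Per N (fun v => c * f v) :=
  ⟨continuous_const.mul hf.cont, fun a v => by rw [hf.per]⟩

theorem cconj (hf : Per N f) : Per N (fun v => (starRingEnd ℂ) (f v)) :=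
  ⟨Complex.continuous_conj.comp hf.cont, fun a v => by rw [hf.per]⟩

theorem trans (hf : Per N f) (u : InfinitePlace F → ℂ) : Per N (fun v => f (v + u)) :=
  ⟨hf.cont.comp (by fun_prop), fun a v => by
    rw [show v + emb ((N : F) * a) + u = (v + u) + emb ((N : F) * a) by abel, hf.per]⟩

theorem sum {ι : Type*} (s : Finset ι) (f : ι → (InfinitePlace F → ℂ) → ℂ)
    (hf : ∀ i ∈ s, Per N (f i)) : Per N (fun v => ∑ i ∈ s, f i v) :=
  ⟨continuous_finsetSum _ fun i hi => (hf i hi).cont, fun a v =>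
    Finset.sum_congr rfl fun i hi => (hf i hi).per a v⟩

theorem scale {a : F} (hf : Per N f) (h : ∀ b : 𝓞 F, ∃ c : 𝓞 F, a * ((N' : F) * b) = (N : F) * c) :
    Per N' (fun v => f (emb a * v)) :=
  ⟨hf.cont.comp (by fun_prop), fun b v => by
    obtain ⟨c, hc⟩ := h b
    rw [mul_add, ← emb_mul, hc, hf.per]⟩

end Per

section

variable [IsTotallyComplex F] {N N' : ℕ} {f g : (InfinitePlace F → ℂ) → ℂ}

theorem per_ev {ξ : F} (h : IsDual N ξ) : Per N (ev ξ) :=
  ⟨continuous_ev ξ, fun a v => by rw [ev_add, ev_emb_of_isDual h, mul_one]⟩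

theorem Per.box_per (hf : Per N f) (k : Ix F → ℤ) (t : Ix F → ℝ) :
    f (crd N (t + zc k)) = f (crd N t) := by
  rw [crd_add, ← emb_intc, hf.per]

theorem Per.bounded (hN : N ≠ 0) (hf : Per N f) : ∃ C, ∀ v, ‖f v‖ ≤ C := by
  have hc : Continuous (tor fun t => f (crd N t)) :=
    continuous_tor (hf.cont.comp (continuous_crd N)) hf.box_per
  obtain ⟨C, hC⟩ := isCompact_univ.exists_bound_of_continuousOn hc.continuousOn
  refine ⟨C, fun v => ?_⟩
  obtain ⟨t, rfl⟩ := crd_surj hN v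
  rw [← tor_coe (f := fun t => f (crd N t)) hf.box_per t]
  exact hC _ trivial

/-- Approximation by trigonometric polynomials. -/
theorem Per.approx (hN : N ≠ 0) (hf : Per N f) {ε : ℝ} (hε : 0 < ε) :
    ∃ (s : Finset F) (c : F → ℂ), (∀ ξ ∈ s, IsDual N ξ) ∧
      ∀ v, ‖f v - ∑ ξ ∈ s, c ξ * ev ξ v‖ ≤ ε := by
  classical
  obtain ⟨s, c, hc⟩ := Fou.approx (f := fun t => f (crd N t))
    (hf.cont.comp (continuous_crd N)) hf.box_per hε
  refine ⟨s.image (frq N), fun ξ => ∑ m ∈ s.filter (fun m => frq N m = ξ), c m, ?_, ?_⟩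
  · intro ξ hξ
    obtain ⟨m, _, rfl⟩ := Finset.mem_image.mp hξ
    exact isDual_frq hN m
  · intro v
    obtain ⟨t, rfl⟩ := crd_surj hN v
    have h1 : ∑ ξ ∈ s.image (frq N), (∑ m ∈ s.filter (fun m => frq N m = ξ), c m) *
        ev ξ (crd N t) = ∑ m ∈ s, c m * ee m t := by
      rw [← Finset.sum_fiberwise_of_maps_to (g := frq N) (t := s.image (frq N))
        (fun m hm => Finset.mem_image_of_mem _ hm) (fun m => c m * ee m t)]
      apply Finset.sum_congr rfl
      intro ξ _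
      rw [Finset.sum_mul]
      apply Finset.sum_congr rfl
      intro m hm
      rw [← (Finset.mem_filter.mp hm).2, ev_frq_crd hN]
    rw [h1]
    exact hc t

/-- Mean value functionals. -/
structure IsMean (N : ℕ) (m : ((InfinitePlace F → ℂ) → ℂ) → ℂ) : Prop where
  add : ∀ {f g}, Per N f → Per N g → m (fun v => f v + g v) = m f + m g
  smul : ∀ (c : ℂ) {f}, Per N f → m (fun v => c * f v) = c * m f
  bound : ∀ {f} {C : ℝ}, Per N f → (∀ v, ‖f v‖ ≤ C) → ‖m f‖ ≤ C
  ev0 : ∀ {ξ : F}, IsDual N ξ → ξ ≠ 0 → m (ev ξ) = 0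
  one : m (fun _ => 1) = 1

theorem IsMean.sub {m : ((InfinitePlace F → ℂ) → ℂ) → ℂ} (hm : IsMean N m)
    (hf : Per N f) (hg : Per N g) : m (fun v => f v - g v) = m f - m g := by
  have h := hm.add (hf.sub hg) hg
  simp only [sub_add_cancel] at h
  rw [eq_sub_iff_add_eq]
  exact h.symm

theorem IsMean.sum {m : ((InfinitePlace F → ℂ) → ℂ) → ℂ} (hm : IsMean N m)
    {ι : Type*} (s : Finset ι) (f : ι → (InfinitePlace F → ℂ) → ℂ)
    (hf : ∀ i ∈ s, Per N (f i)) : m (fun v => ∑ i ∈ s, f i v) = ∑ i ∈ s, m (f i) := by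
  classical
  induction s using Finset.induction_on with
  | empty =>
    simp only [Finset.sum_empty]
    have := hm.smul 0 (Per.const (F := F) (N := N) 0)
    simpa using this
  | insert a s ha ih =>
    have h1 := hm.add (hf a (Finset.mem_insert_self a s))
      (Per.sum s f fun i hi => hf i (Finset.mem_insert_of_mem hi))
    rw [Finset.sum_insert ha, ← ih fun i hi => hf i (Finset.mem_insert_of_mem hi), ← h1]
    congr 1
    funext v
    rw [Finset.sum_insert ha]

theorem IsMean.trig {m : ((InfinitePlace F → ℂ) → ℂ) → ℂ} (hm : IsMean N m)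
    (s : Finset F) (c : F → ℂ) (hs : ∀ ξ ∈ s, IsDual N ξ) :
    m (fun v => ∑ ξ ∈ s, c ξ * ev ξ v) = open Classical in if (0 : F) ∈ s then c 0 else 0 := by
  classical
  rw [hm.sum s _ fun ξ hξ => (per_ev (hs ξ hξ)).const_mul (c ξ)]
  have : ∀ ξ ∈ s, m (fun v => c ξ * ev ξ v) = if ξ = 0 then c 0 else 0 := by
    intro ξ hξ
    rw [hm.smul _ (per_ev (hs ξ hξ))]
    split_ifs with h
    · subst h
      have : (ev (0 : F)) = fun _ => 1 := by funext v; exact ev_zero v
      rw [this, hm.one, mul_one]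
    · rw [hm.ev0 (hs ξ hξ) h, mul_zero]
  rw [Finset.sum_congr rfl this, Finset.sum_ite_eq']

/-- The mean value is unique. -/
theorem IsMean.unique (hN : N ≠ 0) {m m' : ((InfinitePlace F → ℂ) → ℂ) → ℂ} (hm : IsMean N m)
    (hm' : IsMean N m') (hf : Per N f) : m f = m' f := by
  classical
  apply eq_of_forall_dist_le
  intro ε hε
  obtain ⟨s, c, hs, hc⟩ := hf.approx hN (half_pos hε)
  have hP : Per N (fun v => ∑ ξ ∈ s, c ξ * ev ξ v) :=
    Per.sum s _ fun ξ hξ => (per_ev (hs ξ hξ)).const_mul (c ξ)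
  have h1 := hm.bound (hf.sub hP) hc
  have h2 := hm'.bound (hf.sub hP) hc
  rw [hm.sub hf hP] at h1
  rw [hm'.sub hf hP] at h2
  have h3 : m (fun v => ∑ ξ ∈ s, c ξ * ev ξ v) = m' (fun v => ∑ ξ ∈ s, c ξ * ev ξ v) := by
    rw [hm.trig s c hs, hm'.trig s c hs]
  rw [h3] at h1
  rw [dist_eq_norm]
  calc ‖m f - m' f‖ = ‖(m f - m' (fun v => ∑ ξ ∈ s, c ξ * ev ξ v)) -
        (m' f - m' (fun v => ∑ ξ ∈ s, c ξ * ev ξ v))‖ := by congr 1; ring
    _ ≤ ε / 2 + ε / 2 := (norm_sub_le _ _).trans (add_le_add h1 h2)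
    _ = ε := by ring

theorem IsMean.mono {m : ((InfinitePlace F → ℂ) → ℂ) → ℂ} (h : N ∣ N') (hm : IsMean N' m) :
    IsMean N m where
  add hf hg := hm.add (hf.mono h) (hg.mono h)
  smul c _ hf := hm.smul c (hf.mono h)
  bound hf hC := hm.bound (hf.mono h) hC
  ev0 hξ h0 := hm.ev0 (hξ.mono h) h0
  one := hm.one

/-- the mean value -/
noncomputable def mn (N : ℕ) (f : (InfinitePlace F → ℂ) → ℂ) : ℂ := boxMean fun t => f (crd N t)

theorem isMean_mn (hN : N ≠ 0) : IsMean N (mn (F := F) N) where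
  add hf hg := boxMean_add (hf.cont.comp (continuous_crd N)) (hg.cont.comp (continuous_crd N))
  smul c _ _ := boxMean_smul c _
  bound _ hC := norm_boxMean_le fun t => hC _
  ev0 := by
    intro ξ hξ h0
    obtain ⟨m, rfl⟩ := exists_frq hN hξ
    unfold mn
    have : (fun t => ev (frq N m : F) (crd N t)) = ee m := by
      funext t
      exact ev_frq_crd hN m t
    rw [this, boxMean_ee, if_neg]
    rintro rfl
    exact h0 (frq_zero N)
  one := by
    unfold mn
    have h := boxMean_ee (0 : Ix F → ℤ)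
    rw [if_pos rfl] at h
    have h2 : (fun _ : Ix F → ℝ => (1 : ℂ)) = ee 0 := by
      funext t
      simp [ee]
    rw [h2]
    exact h

theorem mn_dvd (hN' : N' ≠ 0) (h : N ∣ N') (hf : Per N f) : mn N' f = mn N f := by
  have hN : N ≠ 0 := by rintro rfl; exact hN' (Nat.eq_zero_of_zero_dvd h)
  exact IsMean.unique hN ((isMean_mn hN').mono h) (isMean_mn hN) hf

theorem mn_eq (hN : N ≠ 0) (hN' : N' ≠ 0) (hf : Per N f) (hf' : Per N' f) : mn N' f = mn N f := by
  have h0 : N * N' ≠ 0 := mul_ne_zero hN hN'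
  rw [← mn_dvd h0 (Dvd.intro_left N rfl) hf', ← mn_dvd h0 (Dvd.intro N' rfl) hf]

theorem isMean_trans (hN : N ≠ 0) (u : InfinitePlace F → ℂ) :
    IsMean N (fun f : (InfinitePlace F → ℂ) → ℂ => mn N (fun v => f (v + u))) where
  add hf hg := (isMean_mn hN).add (hf.trans u) (hg.trans u)
  smul c _ hf := (isMean_mn hN).smul c (hf.trans u)
  bound hf hC := (isMean_mn hN).bound (hf.trans u) fun v => hC _
  ev0 := by
    intro ξ hξ h0
    have : (fun v => ev ξ (v + u)) = fun v => ev ξ u * ev ξ v := by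
      funext v; rw [ev_add, mul_comm]
    simp only [this]
    rw [(isMean_mn hN).smul _ (per_ev hξ), (isMean_mn hN).ev0 hξ h0, mul_zero]
  one := (isMean_mn hN).one

theorem mn_trans (hN : N ≠ 0) (hf : Per N f) (u : InfinitePlace F → ℂ) :
    mn N (fun v => f (v + u)) = mn N f :=
  IsMean.unique hN (isMean_trans hN u) (isMean_mn hN) hf

theorem IsDual.scale {a ξ : F} (h : ∀ b : 𝓞 F, ∃ c : 𝓞 F, a * ((N' : F) * b) = (N : F) * c)
    (hξ : IsDual N ξ) : IsDual N' (a * ξ) := by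
  intro b
  obtain ⟨c, hc⟩ := h b
  obtain ⟨m, hm⟩ := hξ c
  refine ⟨m, ?_⟩
  rw [← hm, ← hc]
  congr 1
  ring

theorem isMean_scale (hN' : N' ≠ 0) {a : F} (ha : a ≠ 0)
    (h : ∀ b : 𝓞 F, ∃ c : 𝓞 F, a * ((N' : F) * b) = (N : F) * c) :
    IsMean N (fun f : (InfinitePlace F → ℂ) → ℂ => mn N' (fun v => f (emb a * v))) where
  add hf hg := (isMean_mn hN').add (hf.scale h) (hg.scale h)
  smul c _ hf := (isMean_mn hN').smul c (hf.scale h)
  bound hf hC := (isMean_mn hN').bound (hf.scale h) fun v => hC _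
  ev0 := by
    intro ξ hξ h0
    have : (fun v => ev ξ (emb a * v)) = ev (a * ξ) := by
      funext v; rw [ev_mul]
    simp only [this]
    exact (isMean_mn hN').ev0 (hξ.scale h) (mul_ne_zero ha h0)
  one := (isMean_mn hN').one

theorem mn_scale (hN : N ≠ 0) (hN' : N' ≠ 0) {a : F} (ha : a ≠ 0)
    (h : ∀ b : 𝓞 F, ∃ c : 𝓞 F, a * ((N' : F) * b) = (N : F) * c) (hf : Per N f) :
    mn N' (fun v => f (emb a * v)) = mn N f :=
  IsMean.unique hN (isMean_scale hN' ha h) (isMean_mn hN) hf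

omit [IsTotallyComplex F] in
/-- every `a` maps a small lattice into `N·𝓞` -/
theorem exists_scale (a : F) (hN : N ≠ 0) :
    ∃ N' : ℕ, N' ≠ 0 ∧ N ∣ N' ∧ ∀ b : 𝓞 F, ∃ c : 𝓞 F, a * ((N' : F) * b) = (N : F) * c := by
  obtain ⟨x, y, hy, rfl⟩ := IsFractionRing.div_surjective (A := 𝓞 F) a
  have hy0 : y ≠ 0 := nonZeroDivisors.ne_zero hy
  have hM : (Ideal.span {y}).absNorm ≠ 0 := by
    rw [Ne, Ideal.absNorm_eq_zero_iff, Ideal.span_singleton_eq_bot]
    exact hy0
  refine ⟨N * (Ideal.span {y}).absNorm, mul_ne_zero hN hM, Dvd.intro _ rfl, fun b => ?_⟩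
  have h1 : ((Ideal.span {y}).absNorm : 𝓞 F) ∈ Ideal.span {y} := Ideal.absNorm_mem _
  obtain ⟨z, hz⟩ := Ideal.mem_span_singleton.mp h1
  have h3 : (((Ideal.span {y}).absNorm : ℕ) : F) = (y : F) * (z : F) := by
    have := congrArg (algebraMap (𝓞 F) F) hz
    rw [map_natCast, map_mul] at this
    exact this
  have hy1 : (y : F) ≠ 0 := by
    rw [Ne, RingOfIntegers.coe_eq_zero_iff]
    exact hy0
  refine ⟨x * z * b, ?_⟩
  rw [← RingOfIntegers.coe_eq_algebraMap, ← RingOfIntegers.coe_eq_algebraMap]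
  push_cast
  rw [h3]
  field_simp

end

end Fermat.Agent.LT.Fou
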