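import Fermat.Agent.LT.Fou.AutForm
import Fermat.Agent.LT.Bd.Global

set_option autoImplicit false
set_option linter.unusedSectionVars false

/-! # Regular kernels -/

namespace Fermat.Agent.LT.Reg

open MeasureTheory NumberField Topology Module
open scoped MatrixGroups ContDiff
open Sp Fou

section Nhds

variable {F : Type*} [Field F] [NumberField F]
variable {D : Type*} [MulAction (GL (Fin 2) F) D] [FinPart F D]
variable {I : Type*} [Fintype I] {Φ : I → (InfinitePlace F → ℝ) → ℂ} {κ : I → DKer F D}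

theorem exists_radius (hc : ∀ i, HasCompactSupport (Φ i)) :
    ∃ R : ℝ, 0 ≤ R ∧ ∀ i t, Φ i t ≠ 0 → ∀ w, |t w| ≤ R := by
  have hb : ∀ i, ∃ R : ℝ, 0 ≤ R ∧ ∀ t, Φ i t ≠ 0 → ∀ w, |t w| ≤ R := by
    intro i
    obtain ⟨R, hR⟩ := (hc i).isCompact.isBounded.subset_closedBall 0
    refine ⟨max R 0, le_max_right _ _, fun t ht w => ?_⟩
    have h1 := hR (subset_tsupport _ ht)
    rw [Metric.mem_closedBall, dist_zero_right] at h1
    exact ((norm_le_pi_norm t w).trans h1).trans (le_max_left _ _)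
  choose Rb hRb0 hRb using hb
  refine ⟨∑ i, Rb i, Finset.sum_nonneg fun i _ => hRb0 i, fun i t ht w => ?_⟩
  exact (hRb i t ht w).trans (Finset.single_le_sum (fun j _ => hRb0 j) (Finset.mem_univ i))

theorem exists_finset_nhds [IsTotallyComplex F] (hc : ∀ i, HasCompactSupport (Φ i)) (p₀ : HF F)
    (d : D) (x' : HF F × D) :
    ∃ Ψ : Finset PGL(2, F), ∀ p : HF F, (∀ w, H3.cd (p₀ w) (p w) ≤ 2) → ∀ g, g ∉ Ψ →
      ∀ i, Φ i (Bd.cds p (g • x').1) * (κ i).κ d (g • x').2 = 0 := by
  classical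
  obtain ⟨R₀, hR₀, hR₀'⟩ := exists_radius hc
  set Φ' : I → (InfinitePlace F → ℝ) → ℂ := fun _ t => if ∀ w, |t w| ≤ 4 * R₀ then 1 else 0
    with hΦ'
  have hc' : ∀ i, HasCompactSupport (Φ' i) := by
    intro i
    refine HasCompactSupport.intro (isCompact_closedBall (0 : InfinitePlace F → ℝ) (4 * R₀))
      fun t ht => ?_
    rw [hΦ']
    refine if_neg fun h => ht ?_
    rw [Metric.mem_closedBall, dist_zero_right]
    exact (pi_norm_le_iff_of_nonneg (by positivity)).mpr h
  obtain ⟨R, Y, hR1, -, hreg⟩ := Bd.exists_region p₀ 0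
  obtain ⟨C, -, hC⟩ := Bd.exists_support_count (κ := κ) hc' hR1 1 d
  obtain ⟨Ψ, -, hΨ⟩ := hC p₀ Y hreg x'
  refine ⟨Ψ, fun p hp g hg i => ?_⟩
  by_contra hne
  have h1 := hΨ 0 (by simp) g hg i
  rw [Bd.trF_zero] at h1
  have h2 : Φ i (Bd.cds p (g • x').1) ≠ 0 := left_ne_zero_of_mul hne
  have h3 : (κ i).κ d (g • x').2 ≠ 0 := right_ne_zero_of_mul hne
  have h4 : Φ' i (Bd.cds p₀ (g • x').1) = 1 := by
    refine if_pos fun w => ?_
    have h5 : |H3.cd (p w) ((g • x').1 w)| ≤ R₀ := hR₀' i _ h2 w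
    have h6 := le_trans (le_abs_self _) h5
    have h7 := H3.cd_triangle (p₀ w) (p w) ((g • x').1 w)
    have h8 := H3.one_le_cd (p w) ((g • x').1 w)
    have h9 := H3.one_le_cd (p₀ w) ((g • x').1 w)
    have h10 := hp w
    show |H3.cd (p₀ w) ((g • x').1 w)| ≤ 4 * R₀
    rw [abs_of_nonneg (by linarith)]
    have h11 : 2 * H3.cd (p₀ w) (p w) * H3.cd (p w) ((g • x').1 w) ≤ 2 * 2 * R₀ := by
      gcongr
    linarith
  rw [h4, one_mul] at h1
  exact h3 h1

theorem nhds_mem (p₀ : HF F) : ∀ᶠ p in 𝓝 p₀, ∀ w, H3.cd (p₀ w) (p w) ≤ 2 := by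
  rw [Filter.eventually_all]
  intro w
  have h0 := Bd.continuous_applyHF (F := F) w
  have h1 : Continuous fun p : HF F => H3.cd (p₀ w) (p w) := (H3.continuous_cd_right (p₀ w)).comp h0
  have h2 : H3.cd (p₀ w) (p₀ w) < 2 := by rw [H3.cd_self]; norm_num
  filter_upwards [h1.continuousAt.eventually_lt continuousAt_const h2] with p hp
  exact hp.le

theorem continuous_autK_left [IsTotallyComplex F] (hΦ : ∀ i, ContDiff ℝ ∞ (Φ i))
    (hc : ∀ i, HasCompactSupport (Φ i)) (d : D) (x' : HF F × D) :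
    Continuous fun p : HF F => Bd.autK (Bd.famKer Φ κ) (p, d) x' := by
  rw [continuous_iff_continuousAt]
  intro p₀
  obtain ⟨Ψ, hΨ⟩ := exists_finset_nhds (κ := κ) hc p₀ d x'
  have hcont : Continuous fun p : HF F =>
      ∑ g ∈ Ψ, ∑ i, Φ i (Bd.cds p (g • x').1) * (κ i).κ d (g • x').2 := by
    refine continuous_finsetSum _ fun g _ => continuous_finsetSum _ fun i _ => ?_
    have h1 : Continuous fun p : HF F => ((p, (g • x').1) : HF F × HF F) :=
      continuous_id.prodMk continuous_const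
    have h2 := (Bd.continuous_Phi (hΦ i).continuous).comp h1
    exact Continuous.mul h2 continuous_const
  refine hcont.continuousAt.congr ?_
  filter_upwards [nhds_mem p₀] with p hp
  exact (Bd.autK_eq_sum Ψ (p, d) x' fun g hg i => hΨ p hp g hg i).symm

end Nhds

section RegKer

variable {F : Type*} [Field F] [NumberField F] [IsTotallyComplex F]
variable {D : Type*} [MulAction (GL (Fin 2) F) D] [FinPart F D] [MeasurableSpace D]

/-- regular invariant kernels of mean zero -/
structure RegKer (K : HF F × D → HF F × D → ℂ) : Prop where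
  meas : Measurable (Function.uncurry K)
  bdd : ∃ C : ℝ, ∀ x x', ‖K x x'‖ ≤ C
  inv : ∀ (g : PGL(2, F)) x x', K (g • x) x' = K x x'
  cont : ∀ (d : D) x', Continuous fun p => K (p, d) x'
  mean : Bd.MeanZero F K

theorem regKer_autK [DiscreteMeasurableSpace D] [Countable D] {I : Type*} [Fintype I]
    {Φ : I → (InfinitePlace F → ℝ) → ℂ} {κ : I → DKer F D} (hΦ : ∀ i, ContDiff ℝ ∞ (Φ i))
    (hc : ∀ i, HasCompactSupport (Φ i)) (h0 : Bd.MeanZero F (Bd.autK (Bd.famKer Φ κ))) :
    RegKer (Bd.autK (Bd.famKer Φ κ)) where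
  meas := Bd.measurable_autK hΦ hc
  bdd := Bd.exists_global_bound hΦ hc h0
  inv := Bd.autK_smul_left _ Bd.famKer_smul
  cont := continuous_autK_left hΦ hc
  mean := h0

end RegKer

section Mean

variable {F : Type*} [Field F] [NumberField F] [IsTotallyComplex F]

theorem equivFunL_symm_eq (N : ℕ) (hN : N ≠ 0) (t : Ix F → ℝ) :
    (Bd.bN F N hN).equivFun.symm t = crd N t := by
  rw [Basis.equivFun_symm_apply]
  unfold crd
  refine Finset.sum_congr rfl fun i _ => ?_
  funext w
  rw [Pi.smul_apply, Pi.smul_apply, Bd.bN_apply, map_mul, map_natCast, Complex.real_smul,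
    Complex.real_smul, emb_apply]
  push_cast
  rw [bas]
  ring

/-- the mean over the fundamental domain and the mean over the box -/
theorem boxMean_eq_zero {N : ℕ} (hN : N ≠ 0) {g : (InfinitePlace F → ℂ) → ℂ}
    (h : ∫ v in ZSpan.fundamentalDomain (Bd.bN F N hN), g v = 0) :
    ∫ t in box (0 : Ix F → ℤ), g (crd N t) = 0 := by
  set e : (Ix F → ℝ) ≃L[ℝ] (InfinitePlace F → ℂ) := (Bd.bN F N hN).equivFunL.symm with he
  have hecrd : ∀ t, e t = crd N t := fun t => equivFunL_symm_eq N hN t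
  -- the boxes
  have h1 : ∫ t in box (0 : Ix F → ℤ), g (crd N t) =
      ∫ t in e ⁻¹' (ZSpan.fundamentalDomain (Bd.bN F N hN)), g (e t) := by
    simp_rw [hecrd]
    apply setIntegral_congr_set
    have e1 : box (0 : Ix F → ℤ) = Set.univ.pi fun _ => Set.Ioc (0 : ℝ) 1 := by
      ext x; simp [box]
    have e2 : e ⁻¹' (ZSpan.fundamentalDomain (Bd.bN F N hN)) =
        Set.univ.pi fun _ => Set.Ico (0 : ℝ) 1 := by
      ext x
      rw [Set.mem_preimage, ZSpan.mem_fundamentalDomain, Set.mem_univ_pi]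
      have : ∀ i, (Bd.bN F N hN).repr (e x) i = x i := by
        intro i
        have := congrFun ((Bd.bN F N hN).equivFun.apply_symm_apply x) i
        rwa [Basis.equivFun_apply] at this
      simp_rw [this]
    rw [e1, e2]
    exact (Measure.univ_pi_Ioc_ae_eq_Icc (f := fun _ : Ix F => (0 : ℝ)) (g := fun _ => (1 : ℝ))).trans
      (Measure.univ_pi_Ico_ae_eq_Icc (f := fun _ : Ix F => (0 : ℝ)) (g := fun _ => (1 : ℝ))).symm
  have hme : MeasurableEmbedding e := e.toHomeomorph.measurableEmbedding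
  rw [h1, ← hme.setIntegral_map]
  have hc := Measure.isAddLeftInvariant_eq_smul
    ((volume : Measure (Ix F → ℝ)).map e) (volume : Measure (InfinitePlace F → ℂ))
  rw [hc, Measure.restrict_smul, integral_smul_nnreal_measure, h, smul_zero]

end Mean

end Fermat.Agent.LT.Reg
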