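import Fermat.Agent.LT.Fou.Whit
import Fermat.Agent.LT.Fou.Mult
import Fermat.Agent.LT.Cls.AF
import Fermat.Agent.LT.Glob.Twist

set_option autoImplicit false
set_option linter.unusedSectionVars false

/-! # Fourier coefficients and automorphisms of the field -/

namespace Fermat.Agent.LT.Fou

open MeasureTheory Complex Topology NumberField Sp
open scoped Real ComplexConjugate ContDiff

section Space

variable {F : Type*} [Field F]

open Classical in
/-- component of a vector at a complex embedding -/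
noncomputable def ptV (v : InfinitePlace F → ℂ) (φ : F →+* ℂ) : ℂ :=
  if φ = (InfinitePlace.mk φ).embedding then v (InfinitePlace.mk φ)
  else conj (v (InfinitePlace.mk φ))

theorem ptV_add (u v : InfinitePlace F → ℂ) (φ : F →+* ℂ) : ptV (u + v) φ = ptV u φ + ptV v φ := by
  unfold ptV
  split_ifs
  · rfl
  · rw [Pi.add_apply, map_add]

theorem ptV_emb (a : F) (φ : F →+* ℂ) : ptV (emb a) φ = φ a := by
  unfold ptV
  split_ifs with h
  · rw [emb_apply, ← h]
  · rw [emb_apply]
    conv_rhs => rw [eq_conjugate_of_ne h]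
    rfl

theorem pt_tra (v : InfinitePlace F → ℂ) (p : HF F) (φ : F →+* ℂ) :
    pt (tra v p) φ = tra3 (ptV v φ) (pt p φ) := by
  unfold pt ptV
  split_ifs
  · rfl
  · apply H3.ext
    · simp [tra3]
    · rfl

/-- the action of an automorphism on `∏ ℂ` -/
noncomputable def thV (θ : F ≃+* F) (v : InfinitePlace F → ℂ) : InfinitePlace F → ℂ :=
  fun w => ptV v (w.embedding.comp (θ : F →+* F))

theorem thV_add (θ : F ≃+* F) (u v : InfinitePlace F → ℂ) : thV θ (u + v) = thV θ u + thV θ v := by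
  funext w; exact ptV_add _ _ _

theorem thV_emb (θ : F ≃+* F) (a : F) : thV θ (emb a) = emb (θ a) := by
  funext w; exact ptV_emb _ _

theorem thetaHF_tra (θ : F ≃+* F) (v : InfinitePlace F → ℂ) (p : HF F) :
    thetaHF θ (tra v p) = tra (thV θ v) (thetaHF θ p) := by
  funext w
  rw [thetaHF_apply, pt_tra]
  rfl

theorem continuous_thV (θ : F ≃+* F) : Continuous (thV θ : (InfinitePlace F → ℂ) → _) := by
  apply continuous_pi
  intro w
  unfold thV ptV
  split_ifs
  · exact continuous_apply _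
  · exact Complex.continuous_conj.comp (continuous_apply _)

variable [NumberField F]

theorem trV_thV (θ : F ≃+* F) (ξ : F) (v : InfinitePlace F → ℂ) :
    trV (emb (θ ξ) * thV θ v) = trV (emb ξ * v) := by
  unfold trV
  rw [← Equiv.sum_comp (permPl θ) (fun w => 2 * ((emb ξ * v) w).re)]
  apply Finset.sum_congr rfl
  intro w _
  congr 1
  rw [Pi.mul_apply, Pi.mul_apply, emb_apply, emb_apply, permPl_apply]
  set φ := w.embedding.comp (θ : F →+* F) with hφ
  have h1 : w.embedding (θ ξ) = φ ξ := rfl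
  have h2 : thV θ v w = ptV v φ := rfl
  rw [h1, h2]
  unfold ptV
  split_ifs with h
  · rw [← h]
  · have h3 : φ ξ = conj ((InfinitePlace.mk φ).embedding ξ) := by
      conv_lhs => rw [eq_conjugate_of_ne h]
      rfl
    rw [h3, ← map_mul, Complex.conj_re]

theorem ev_thV (θ : F ≃+* F) (ξ : F) (v : InfinitePlace F → ℂ) : ev (θ ξ) (thV θ v) = ev ξ v := by
  unfold ev
  rw [trV_thV]

variable [IsTotallyComplex F]

theorem trace_theta (θ : F ≃+* F) (a : F) : Algebra.trace ℚ F (θ a) = Algebra.trace ℚ F a := by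
  have h := trV_thV θ 1 (emb a)
  rw [map_one, thV_emb, ← emb_mul, ← emb_mul, one_mul, one_mul, trV_emb, trV_emb] at h
  exact_mod_cast h

theorem exists_theta_int (θ : F ≃+* F) (a : 𝓞 F) : ∃ b : 𝓞 F, (b : F) = θ a :=
  ⟨⟨θ a, a.2.map (θ : F →+* F).toIntAlgHom⟩, rfl⟩

theorem IsDual.theta {θ : F ≃+* F} {N : ℕ} {ξ : F} (h : IsDual N (θ ξ)) : IsDual N ξ := by
  intro a
  obtain ⟨b, hb⟩ := exists_theta_int θ a
  obtain ⟨m, hm⟩ := h b
  refine ⟨m, ?_⟩
  rw [← hm, hb, ← trace_theta θ]
  congr 1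
  rw [map_mul, map_mul, map_natCast]

theorem IsDual.theta' {θ : F ≃+* F} {N : ℕ} {ξ : F} (h : IsDual N ξ) : IsDual N (θ ξ) := by
  apply IsDual.theta (θ := θ.symm)
  rwa [RingEquiv.symm_apply_apply]

theorem Per.theta {θ : F ≃+* F} {N : ℕ} {f : (InfinitePlace F → ℂ) → ℂ} (hf : Per N f) :
    Per N (fun v => f (thV θ v)) := by
  refine ⟨hf.cont.comp (continuous_thV θ), fun a v => ?_⟩
  obtain ⟨b, hb⟩ := exists_theta_int θ a
  rw [thV_add, thV_emb, map_mul, map_natCast, ← hb, hf.per]

theorem isMean_theta {θ : F ≃+* F} {N : ℕ} (hN : N ≠ 0) :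
    IsMean N (fun f : (InfinitePlace F → ℂ) → ℂ => mn N (fun v => f (thV θ v))) where
  add hf hg := (isMean_mn hN).add hf.theta hg.theta
  smul c _ hf := (isMean_mn hN).smul c hf.theta
  bound hf hC := (isMean_mn hN).bound hf.theta fun v => hC _
  ev0 := by
    intro ξ hξ h0
    have h1 : (fun v => ev ξ (thV θ v)) = ev (θ.symm ξ) := by
      funext v
      have h2 := ev_thV θ (θ.symm ξ) v
      rwa [RingEquiv.apply_symm_apply] at h2
    rw [h1]
    exact (isMean_mn hN).ev0 hξ.theta' ((map_ne_zero_iff _ θ.symm.injective).mpr h0)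
  one := (isMean_mn hN).one

theorem mn_theta {θ : F ≃+* F} {N : ℕ} (hN : N ≠ 0) {f : (InfinitePlace F → ℂ) → ℂ}
    (hf : Per N f) : mn N (fun v => f (thV θ v)) = mn N f :=
  IsMean.unique hN (isMean_theta hN) (isMean_mn hN) hf

theorem fc_theta {θ : F ≃+* F} {N : ℕ} (hN : N ≠ 0) {f : (InfinitePlace F → ℂ) → ℂ}
    (hf : Per N f) (ξ : F) : fc (fun v => f (thV θ v)) ξ = fc f (θ ξ) := by
  obtain ⟨N', hN', hd, hξ⟩ := IsDual.exists_common hN ξ
  have hf' := hf.mono hd
  rw [fc_eq hN' hf'.theta hξ, fc_eq hN' hf' hξ.theta', ← mn_theta (θ := θ) hN' (hf'.twist hξ.theta')]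
  congr 1
  funext v
  rw [← map_neg, ev_thV]

end Space

section Form

variable {F : Type*} [Field F] [NumberField F] [IsTotallyComplex F]
variable {D : Type*} [MulAction (GL (Fin 2) F) D] {φ : HF F × D → ℂ} (T : Twist F D)

theorem IsInv.act (h : IsInv φ) : IsInv (fun y => φ (T.act y)) where
  cont d := (h.cont (T.dm d)).comp (continuous_thetaHF T.θ)
  inv g p d := by
    have h1 := T.act_smul g (p, d)
    have h2 : (g • (p, d) : HF F × D) = (g • p, g • d) := rfl
    rw [h2] at h1
    rw [h1]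
    exact h.inv (T.gm g) (thetaHF T.θ p) (T.dm d)

variable [FinPart F D]

/-- **Coefficients of the twisted form.** -/
theorem cof_act (h : IsInv φ) (ξ : F) (p : HF F) (d : D) :
    cof (fun y => φ (T.act y)) ξ p d = cof φ (T.θ ξ) (thetaHF T.θ p) (T.dm d) := by
  obtain ⟨N, hN, hd⟩ := exists_Lvl (F := F) (T.dm d)
  unfold cof
  rw [← fc_theta hN (h.per hd (thetaHF T.θ p))]
  congr 1
  funext v
  rw [← thetaHF_tra]
  rfl

theorem AutForm.act (h : AutForm φ) : AutForm (fun y => φ (T.act y)) where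
  toIsInv := h.toIsInv.act T
  bdd := by
    obtain ⟨C, hC⟩ := h.bdd
    exact ⟨C, fun x => hC _⟩
  cusp p d := by rw [cof_act T h.toIsInv, map_zero, h.cusp]
  eig w k hk hs p d := by
    obtain ⟨w', rfl⟩ := (permPl T.θ).surjective w
    have hcont : ∀ q : H3, thetaHF T.θ (upd p (permPl T.θ w') q) =
        upd (thetaHF T.θ p) w' (pt (upd p (permPl T.θ w') q)
          (w'.embedding.comp (T.θ : F →+* F))) := by
      intro q
      funext w''
      by_cases h1 : w'' = w'
      · subst h1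
        rw [upd_same]
        rfl
      · rw [upd_ne _ h1, thetaHF_apply, thetaHF_apply]
        have h2 : InfinitePlace.mk (w''.embedding.comp (T.θ : F →+* F)) ≠ permPl T.θ w' := by
          rw [← permPl_apply]
          exact fun h3 => h1 ((permPl T.θ).injective h3)
        unfold pt
        rw [upd_ne _ h2]
    have hpl : InfinitePlace.mk (w'.embedding.comp (T.θ : F →+* F)) = permPl T.θ w' :=
      (permPl_apply T.θ w').symm
    have main := h.eig w' k hk hs (thetaHF T.θ p) (T.dm d)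
    have hcd : ∀ q : H3, H3.cd (thetaHF T.θ p w') (pt (upd p (permPl T.θ w') q)
          (w'.embedding.comp (T.θ : F →+* F))) = H3.cd (p (permPl T.θ w')) q := by
      intro q
      rw [thetaHF_apply, cd_pt, hpl, upd_same]
    by_cases hc : w'.embedding.comp (T.θ : F →+* F) =
        (InfinitePlace.mk (w'.embedding.comp (T.θ : F →+* F))).embedding
    · have hq : ∀ q : H3, pt (upd p (permPl T.θ w') q) (w'.embedding.comp (T.θ : F →+* F)) = q := by
        intro q
        rw [pt_of_eq _ hc, hpl, upd_same]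
      show ∫ q : H3, k (H3.cd (p (permPl T.θ w')) q) •
        φ (thetaHF T.θ (upd p (permPl T.θ w') q), T.dm d) = _ * φ (thetaHF T.θ p, T.dm d)
      rw [← main]
      congr 1
      funext q
      rw [hcont q, ← hcd q, hq q]
    · have hq : ∀ q : H3, pt (upd p (permPl T.θ w') q) (w'.embedding.comp (T.θ : F →+* F)) =
          H3.cj q := by
        intro q
        rw [pt_of_ne _ hc, hpl, upd_same]
      show ∫ q : H3, k (H3.cd (p (permPl T.θ w')) q) •
        φ (thetaHF T.θ (upd p (permPl T.θ w') q), T.dm d) = _ * φ (thetaHF T.θ p, T.dm d)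
      have e : ∫ q : H3, k (H3.cd (thetaHF T.θ p w') q) •
          φ (upd (thetaHF T.θ p) w' q, T.dm d) =
          ∫ q : H3, k (H3.cd (thetaHF T.θ p w') (H3.cj q)) •
          φ (upd (thetaHF T.θ p) w' (H3.cj q), T.dm d) := by
        exact (H3.measurePreserving_cj.integral_comp H3.cjHomeo.measurableEmbedding
          (fun q => k (H3.cd (thetaHF T.θ p w') q) • φ (upd (thetaHF T.θ p) w' q, T.dm d))).symm
      rw [← main, e]
      congr 1
      funext q
      rw [hcont q, ← hcd q, hq q]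

/-- difference of forms -/
theorem AutForm.sub {φ' : HF F × D → ℂ} (h : AutForm φ) (h' : AutForm φ') :
    AutForm (fun x => φ x - φ' x) := by
  have h1 := Cls.AutForm_lin (Finset.univ : Finset (Fin 2)) ![1, -1] (φ := ![φ, φ']) (by
    intro i _
    fin_cases i
    · exact h
    · exact h')
  have h2 : (fun x => ∑ i : Fin 2, (![1, -1] : Fin 2 → ℂ) i * (![φ, φ'] : Fin 2 → _) i x) =
      fun x => φ x - φ' x := by
    funext x
    rw [Fin.sum_univ_two]
    simp
    ring
  rwa [h2] at h1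

theorem cof_sub {φ' : HF F × D → ℂ} (h : IsInv φ) (h' : IsInv φ') (ξ : F) (p : HF F) (d : D) :
    cof (fun x => φ x - φ' x) ξ p d = cof φ ξ p d - cof φ' ξ p d := by
  obtain ⟨N, hN, hd⟩ := exists_Lvl (F := F) d
  exact fc_sub hN (h.per hd p) (h'.per hd p) ξ

end Form

section Glob

open Glob LocFam

universe w u i

variable {F : Type u} [Field F] [NumberField F] [IsTotallyComplex F] {ι : Type i}
  {L : LocFam.{w} F ι} {U : L.Level} {φ φ' : HF F × D U → ℂ}

theorem EqvAt.sub {v : ι} {J : Subgroup (L.G v)} {ψ : L.G v → ℂ} (h : EqvAt v J ψ φ)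
    (h' : EqvAt v J ψ φ') : EqvAt v J ψ (fun x => φ x - φ' x) := by
  intro p d g j hj hg
  simp only
  rw [h p d g j hj hg, h' p d g j hj hg]
  ring

theorem HeckeAt.sub {v : ι} {H : HData L v} {lam : ℂ} (h : HeckeAt H lam φ)
    (h' : HeckeAt H lam φ') : HeckeAt H lam (fun x => φ x - φ' x) := by
  intro p d g hg
  have h1 := h p d g hg
  have h2 := h' p d g hg
  simp only [Finset.sum_sub_distrib]
  rw [mul_sub, ← h1, ← h2]
  ring

variable {B : Finset ι} {a0 : Fˣ} {J : ∀ v, Subgroup (L.G v)} {ψ : ∀ v, L.G v → ℂ}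
  {I : ι → Type} [∀ v, Fintype (I v)] {H : ∀ v, I v → HData L v} {lam : ∀ v, I v → ℂ}

/-- **Multiplicity one**, version with one point. -/
theorem AutForm.eq_zero_of_type (hT : TypeData L B a0 J ψ I H U) (h : AutForm φ)
    (he : ∀ v ∈ B, EqvAt v (J v) (ψ v) φ) (hh : ∀ v ∉ B, ∀ i, HeckeAt (H v i) (lam v i) φ)
    (p : HF F) (h0 : cof φ (a0 : F) p (D.base U) = 0) : φ = 0 := by
  have h1 : TypeForm B a0 J ψ I H U lam φ := ⟨h.toIsInv, h.cusp, he, hh⟩
  apply h1.eq_zero hT
  intro p'
  rw [h.cof_eq_zero_iff a0.ne_zero]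
  exact (h.cof_eq_zero_iff a0.ne_zero p _).mp h0

/-- **Multiplicity one**: equality of forms with the same first coefficient. -/
theorem AutForm.eq_of_type (hT : TypeData L B a0 J ψ I H U) (h : AutForm φ) (h' : AutForm φ')
    (he : ∀ v ∈ B, EqvAt v (J v) (ψ v) φ) (he' : ∀ v ∈ B, EqvAt v (J v) (ψ v) φ')
    (hh : ∀ v ∉ B, ∀ i, HeckeAt (H v i) (lam v i) φ)
    (hh' : ∀ v ∉ B, ∀ i, HeckeAt (H v i) (lam v i) φ') (p : HF F)
    (h0 : cof φ (a0 : F) p (D.base U) = cof φ' (a0 : F) p (D.base U)) : φ = φ' := by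
  have h1 := AutForm.eq_zero_of_type hT (h.sub h') (fun v hv => (he v hv).sub (he' v hv))
    (fun v hv i => (hh v hv i).sub (hh' v hv i)) p (by
      rw [cof_sub h.toIsInv h'.toIsInv, h0, sub_self])
  funext x
  exact sub_eq_zero.mp (congrFun h1 x)

end Glob

end Fermat.Agent.LT.Fou
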