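import Fermat.Agent.LT.Fou.Twist
import Fermat.Agent.LT.Glob.HeckeLoc

set_option autoImplicit false
set_option linter.unusedSectionVars false

/-! # Types and Hecke eigenvalues of twisted forms -/

namespace Fermat.Agent.LT.Fou

open NumberField Sp Glob LocFam Matrix
open scoped MatrixGroups

universe w u i

section Rep

variable {R : Type*} [CommRing R]

theorem pN_mul_pA_eq (a : Rˣ) (s : R) : pN s * pA a = ProjGenLinGroup.mk (tri a 1 s) := by
  rw [pN, pA, ← map_mul, tri_mul]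
  congr 2 <;> simp

theorem pA_inv_eq (a : Rˣ) : pA a⁻¹ = ProjGenLinGroup.mk (tri 1 a 0) := by
  rw [pA_inv, pA, mk_tri_inv]

theorem HS_mul_unit {O : Subring R} {ϖ u : Rˣ} (hu : u ∈ OU O) : HS O (ϖ * u) = HS O ϖ := by
  have e : tri (ϖ * u) 1 (0 : R) = tri ϖ 1 0 * tri u 1 0 := by
    rw [tri_mul]
    congr 1 <;> simp
  have hm : ProjGenLinGroup.mk (tri u 1 (0 : R)) ∈ PO O :=
    mk_mem_PO (tri_mem hu (one_mem _) O.zero_mem)
  ext g
  constructor
  · rintro ⟨k, hk, k', hk', rfl⟩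
    refine ⟨k, hk, ProjGenLinGroup.mk (tri u 1 (0 : R)) * k', mul_mem hm hk', ?_⟩
    rw [e, map_mul]
    simp only [mul_assoc]
  · rintro ⟨k, hk, k', hk', rfl⟩
    refine ⟨k, hk, (ProjGenLinGroup.mk (tri u 1 (0 : R)))⁻¹ * k', mul_mem (inv_mem hm) hk', ?_⟩
    rw [e, map_mul]
    simp only [mul_assoc, mul_inv_cancel_left]

end Rep

variable {F : Type u} [Field F] {ι : Type i} {L : LocFam.{w} F ι} {U : L.Level}
  {φ : HF F × D U → ℂ} {v : ι}

/-- the Hecke equation in terms of the representatives `rp` -/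
theorem heckeAt_iff {H : HData L v} {lam : ℂ} : HeckeAt H lam φ ↔
    ∀ (p : HF F) (d : D U) (g : L.G v), d v = (g : L.G v ⧸ U.U v) →
    ∑ o : Option H.S, φ (p, setv d v
      ((g * ProjGenLinGroup.mk (rp H.ϖ H.S o) : L.G v) : L.G v ⧸ U.U v)) = lam * φ (p, d) := by
  unfold HeckeAt
  refine forall_congr' fun p => forall_congr' fun d => forall_congr' fun g =>
    forall_congr' fun _ => ?_
  rw [Fintype.sum_option, add_comm, ← Finset.sum_coe_sort H.S]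
  simp only [pN_mul_pA_eq, pA_inv_eq]
  rfl

theorem mk_out_PO (hU : U.U v = PO (L.O v)) (a : L.G v) :
    ((Quotient.out (a : L.G v ⧸ PO (L.O v)) : L.G v) : L.G v ⧸ U.U v) = (a : L.G v ⧸ U.U v) := by
  rw [QuotientGroup.eq, hU]
  exact QuotientGroup.eq.mp (Quotient.out_eq' (a : L.G v ⧸ PO (L.O v)))

/-- **the Hecke equation without representatives** -/
theorem heckeAt_iff_finsum (hU : U.U v = PO (L.O v)) {H : HData L v}
    (hH : Unif (L.O v) H.ϖ H.S) {lam : ℂ} : HeckeAt H lam φ ↔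
    ∀ (p : HF F) (d : D U) (g : L.G v), d v = (g : L.G v ⧸ U.U v) →
    ∑ᶠ y ∈ {y | ∃ a : L.G v, (a : L.G v ⧸ PO (L.O v)) = y ∧ g⁻¹ * a ∈ HS (L.O v) H.ϖ},
      φ (p, setv d v ((Quotient.out y : L.G v) : L.G v ⧸ U.U v)) = lam * φ (p, d) := by
  rw [heckeAt_iff]
  refine forall_congr' fun p => forall_congr' fun d => forall_congr' fun g =>
    forall_congr' fun _ => ?_
  rw [hH.finsum_TT g (fun y => φ (p, setv d v ((Quotient.out y : L.G v) : L.G v ⧸ U.U v)))]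
  have e : ∀ o : Option H.S, φ (p, setv d v
      ((g * ProjGenLinGroup.mk (rp H.ϖ H.S o) : L.G v) : L.G v ⧸ U.U v)) =
      φ (p, setv d v ((Quotient.out (nb (L.O v) H.ϖ H.S g o) : L.G v) : L.G v ⧸ U.U v)) := by
    intro o
    rw [nb, mk_out_PO hU]
  rw [Finset.sum_congr rfl fun o _ => e o]

/-- **independence of the prime element and of the representatives** -/
theorem HeckeAt.change (hU : U.U v = PO (L.O v)) {H H' : HData L v}
    (hH : Unif (L.O v) H.ϖ H.S) (hH' : Unif (L.O v) H'.ϖ H'.S) {u : (L.R v)ˣ}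
    (hu : u ∈ OU (L.O v)) (e : H'.ϖ = H.ϖ * u) {lam : ℂ} (h : HeckeAt H lam φ) :
    HeckeAt H' lam φ := by
  rw [heckeAt_iff_finsum hU hH'] 
  rw [heckeAt_iff_finsum hU hH] at h
  rw [e, HS_mul_unit hu]
  exact h

section Auto

variable (A : Auto L)

theorem mapA_pN (b : L.R v) : A.g v (pN b) = pN (A.s v b) := by
  rw [Auto.g, pN, ProjGenLinGroup.map_mk, pN]
  congr 1
  apply Units.ext
  ext i j
  show A.s v (tri 1 1 b i j) = _
  rw [tri_coe, tri_coe]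
  fin_cases i <;> fin_cases j <;> simp

theorem mapA_pA (a : (L.R v)ˣ) : A.g v (pA a) = pA (Units.map (A.s v : L.R v →* L.R v) a) := by
  rw [Auto.g, pA, ProjGenLinGroup.map_mk, pA]
  congr 1
  apply Units.ext
  ext i j
  show A.s v (tri a 1 0 i j) = _
  rw [tri_coe, tri_coe]
  fin_cases i <;> fin_cases j <;> simp

/-- the image of Hecke data -/
def HData.mapA (H : HData L v) : HData L v where
  ϖ := Units.map (A.s v : L.R v →* L.R v) H.ϖ
  mem := (A.mem_O_iff v _).mpr H.mem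
  S := H.S.map ⟨A.s v, (A.s v).injective⟩
  S_mem s hs := by
    obtain ⟨t, ht, rfl⟩ := Finset.mem_map.mp hs
    exact (A.mem_O_iff v _).mpr (H.S_mem t ht)

theorem unif_mapA {H : HData L v} (h : Unif (L.O v) H.ϖ H.S) :
    Unif (L.O v) (H.mapA A).ϖ (H.mapA A).S := by
  have hinv : ((((H.mapA A).ϖ)⁻¹ : (L.R v)ˣ) : L.R v) = A.s v ((H.ϖ⁻¹ : (L.R v)ˣ) : L.R v) := by
    show (((Units.map (A.s v : L.R v →* L.R v) H.ϖ)⁻¹ : (L.R v)ˣ) : L.R v) = _
    rw [← map_inv]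
    rfl
  refine ⟨(H.mapA A).mem, ?_, (H.mapA A).S_mem, ?_, ?_, ?_⟩
  · rw [hinv, A.mem_O_iff]
    exact h.not_mem
  · intro x hx
    obtain ⟨y, rfl⟩ := (A.s v).surjective x
    obtain ⟨b, hb, hb'⟩ := h.cover y ((A.mem_O_iff v _).mp hx)
    refine ⟨A.s v b, Finset.mem_map.mpr ⟨b, hb, rfl⟩, ?_⟩
    rw [hinv, ← map_sub, ← map_mul, A.mem_O_iff]
    exact hb'
  · intro b hb b' hb' hbb
    obtain ⟨c, hc, rfl⟩ := Finset.mem_map.mp hb
    obtain ⟨c', hc', rfl⟩ := Finset.mem_map.mp hb'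
    have h1 : A.s v (((H.ϖ⁻¹ : (L.R v)ˣ) : L.R v) * (c - c')) ∈ L.O v := by
      rw [map_mul, map_sub, ← hinv]
      exact hbb
    rw [h.inj c hc c' hc' ((A.mem_O_iff v _).mp h1)]
  · intro x hx
    obtain ⟨y, rfl⟩ := (A.s v).surjective x
    rcases h.field y ((A.mem_O_iff v _).mp hx) with h1 | ⟨z, hz, h1⟩
    · left
      rw [hinv, ← map_mul, A.mem_O_iff]
      exact h1
    · right
      refine ⟨A.s v z, (A.mem_O_iff v _).mpr hz, ?_⟩
      rw [hinv, ← map_mul, ← map_one (A.s v), ← map_sub, ← map_mul, A.mem_O_iff]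
      exact h1

variable {A} (hA : A.IsCubic) (hP : A.Pres U)

theorem dmap_setv (d : D U) (g : L.G v) :
    Auto.dmap hP (setv d v (g : L.G v ⧸ U.U v)) =
      setv (Auto.dmap hP d) v ((A.g v g : L.G v) : L.G v ⧸ U.U v) := by
  classical
  apply D.ext
  intro v'
  by_cases h : v' = v
  · subst h
    rw [Auto.dmap_apply, setv_same, setv_same]
    rfl
  · rw [Auto.dmap_apply, setv_ne _ h, setv_ne _ h, Auto.dmap_apply]

theorem dmap_mk {d : D U} {g : L.G v} (h : d v = (g : L.G v ⧸ U.U v)) :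
    Auto.dmap hP d v = ((A.g v g : L.G v) : L.G v ⧸ U.U v) := by
  rw [Auto.dmap_apply, h]
  rfl

theorem dmap_base : Auto.dmap hP (D.base U) = D.base U :=
  D.ext fun v => Auto.xmap_base hP v

theorem EqvAt.act {J : Subgroup (L.G v)} {ψ : L.G v → ℂ} (h : EqvAt v J ψ φ)
    (hJ : ∀ j ∈ J, A.g v j ∈ J) (hψ : ∀ j ∈ J, ψ (A.g v j) = ψ j) :
    EqvAt v J ψ (fun y => φ ((Auto.twist hA hP).act y)) := by
  intro p d g j hj hg
  show φ (thetaHF A.θ p, Auto.dmap hP (setv d v ((g * j : L.G v) : L.G v ⧸ U.U v))) =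
    ψ j * φ (thetaHF A.θ p, Auto.dmap hP d)
  rw [dmap_setv hP, map_mul, h _ _ _ _ (hJ j hj) (dmap_mk hP hg), hψ j hj]

theorem HeckeAt.act_mapA {H : HData L v} {lam : ℂ} (h : HeckeAt (H.mapA A) lam φ) :
    HeckeAt H lam (fun y => φ ((Auto.twist hA hP).act y)) := by
  intro p d g hg
  have h1 := h (thetaHF A.θ p) (Auto.dmap hP d) (A.g v g) (dmap_mk hP hg)
  show ∑ s ∈ H.S, φ (thetaHF A.θ p, Auto.dmap hP (setv d v
      ((g * (pN s * pA H.ϖ) : L.G v) : L.G v ⧸ U.U v))) +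
    φ (thetaHF A.θ p, Auto.dmap hP (setv d v ((g * pA H.ϖ⁻¹ : L.G v) : L.G v ⧸ U.U v))) =
    lam * φ (thetaHF A.θ p, Auto.dmap hP d)
  rw [← h1]
  show _ = ∑ s ∈ H.S.map ⟨A.s v, (A.s v).injective⟩, _ + _
  rw [Finset.sum_map]
  congr 1
  · refine Finset.sum_congr rfl fun s _ => ?_
    rw [dmap_setv hP, map_mul, map_mul, mapA_pN, mapA_pA]
    rfl
  · rw [dmap_setv hP, map_mul, mapA_pA, map_inv]
    rfl

/-- **Hecke eigenvalues of twisted forms.** -/
theorem HeckeAt.act (hU : U.U v = PO (L.O v)) {H H' : HData L v} (hH : Unif (L.O v) H.ϖ H.S)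
    (hH' : Unif (L.O v) H'.ϖ H'.S) {u : (L.R v)ˣ} (hu : u ∈ OU (L.O v))
    (e : Units.map (A.s v : L.R v →* L.R v) H'.ϖ = H.ϖ * u) {lam : ℂ} (h : HeckeAt H lam φ) :
    HeckeAt H' lam (fun y => φ ((Auto.twist hA hP).act y)) :=
  HeckeAt.act_mapA hA hP (h.change hU hH (unif_mapA A hH') hu e)

end Auto

section Main

variable [NumberField F] [IsTotallyComplex F]

theorem thetaHF_pt1 (θ : F ≃+* F) : thetaHF θ (pt1 : HF F) = pt1 := by
  funext w
  rw [thetaHF_apply]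
  unfold pt
  split_ifs
  · rfl
  · apply H3.ext
    · show starRingEnd ℂ (0 : ℂ) = 0
      exact map_zero _
    · rfl

variable {B : Finset ι} {a0 : Fˣ} {J : ∀ v, Subgroup (L.G v)} {ψ : ∀ v, L.G v → ℂ}
  {I : ι → Type} [∀ v, Fintype (I v)] {H : ∀ v, I v → HData L v} {lam : ∀ v, I v → ℂ}
  {A : Auto L}

/-- **Forms whose type and eigenvalues are stable under an automorphism are invariant.** -/
theorem AutForm.act_eq (hT : TypeData L B a0 J ψ I H U) (hA : A.IsCubic) (hP : A.Pres U)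
    (ha0 : A.θ (a0 : F) = a0) (hJ : ∀ v ∈ B, ∀ j ∈ J v, A.g v j ∈ J v)
    (hψ : ∀ v ∈ B, ∀ j ∈ J v, ψ v (A.g v j) = ψ v j)
    (hU : ∀ v ∉ B, ∀ i, Unif (L.O v) (H v i).ϖ (H v i).S) (τ : ∀ v, I v → I v)
    (hτ : ∀ v ∉ B, ∀ i, ∃ u ∈ OU (L.O v),
      Units.map (A.s v : L.R v →* L.R v) (H v i).ϖ = (H v (τ v i)).ϖ * u)
    (hlam : ∀ v ∉ B, ∀ i, lam v (τ v i) = lam v i) (h : AutForm φ)
    (he : ∀ v ∈ B, EqvAt v (J v) (ψ v) φ) (hh : ∀ v ∉ B, ∀ i, HeckeAt (H v i) (lam v i) φ) :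
    (fun y => φ ((Auto.twist hA hP).act y)) = φ := by
  refine AutForm.eq_of_type (lam := lam) hT (h.act _) h
    (fun v hv => (he v hv).act hA hP (hJ v hv) (hψ v hv)) he (fun v hv i => ?_) hh pt1 ?_
  · obtain ⟨u, hu, e⟩ := hτ v hv i
    rw [← hlam v hv i]
    exact HeckeAt.act hA hP (hT.level v hv) (hU v hv (τ v i)) (hU v hv i) hu e (hh v hv (τ v i))
  · rw [cof_act (Auto.twist hA hP) h.toIsInv]
    show cof φ (A.θ (a0 : F)) (thetaHF A.θ pt1) (Auto.dmap hP (D.base U)) = _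
    rw [ha0, thetaHF_pt1, dmap_base hP]

end Main

end Fermat.Agent.LT.Fou
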