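import Fermat.Agent.LT.Fou.AutForm
import Fermat.Agent.LT.H3.Uniq4
import Fermat.Agent.LT.H3.Bess3

set_option autoImplicit false
set_option linter.unusedSectionVars false

/-! # Fourier–Bessel expansion of automorphic eigenforms -/

namespace Fermat.Agent.LT.Fou

open MeasureTheory Complex Topology NumberField Sp
open scoped Real ComplexConjugate ContDiff

variable {F : Type*} [Field F] [NumberField F] [IsTotallyComplex F]
variable {D : Type*} [MulAction (GL (Fin 2) F) D]

theorem upd_upd (p : HF F) (w : InfinitePlace F) (q q' : H3) : upd (upd p w q) w q' = upd p w q' := by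
  funext w'
  by_cases h : w' = w
  · subst h; rw [upd_same, upd_same]
  · rw [upd_ne _ h, upd_ne _ h, upd_ne _ h]

open Classical in
/-- the vector supported at one place -/
noncomputable def sgl (w : InfinitePlace F) (z : ℂ) : InfinitePlace F → ℂ := Pi.single w z

omit [NumberField F] [IsTotallyComplex F] in
theorem sgl_same (w : InfinitePlace F) (z : ℂ) : sgl w z w = z := by
  unfold sgl
  simp

omit [NumberField F] [IsTotallyComplex F] in
theorem sgl_ne {w w' : InfinitePlace F} (h : w' ≠ w) (z : ℂ) : sgl w z w' = 0 := by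
  unfold sgl
  simp [h]

theorem trV_mul_sgl (ξ : F) (w : InfinitePlace F) (z : ℂ) :
    trV (emb ξ * sgl w z) = 2 * (w.embedding ξ * z).re := by
  classical
  unfold trV
  rw [Finset.sum_eq_single w]
  · rw [Pi.mul_apply, sgl_same, emb_apply]
  · intro w' _ h
    rw [Pi.mul_apply, sgl_ne h, mul_zero, Complex.zero_re, mul_zero]
  · intro h
    exact absurd (Finset.mem_univ w) h

theorem ev_sgl (ξ : F) (w : InfinitePlace F) (z : ℂ) :
    ev ξ (sgl w z) = H3.ex (w.embedding ξ) z := by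
  unfold ev H3.ex
  rw [trV_mul_sgl]
  congr 1
  push_cast
  ring

theorem tra_sgl (w : InfinitePlace F) (z : ℂ) (p : HF F) (q : H3) :
    tra (sgl w z) (upd p w q) = upd p w (tra3 z q) := by
  classical
  rw [tra_upd, sgl_same]
  funext w'
  by_cases h : w' = w
  · subst h; rw [upd_same, upd_same]
  · rw [upd_ne _ h, upd_ne _ h]
    apply H3.ext
    · rw [tra_z]
      rw [sgl_ne h, add_zero]
    · rfl

variable [FinPart F D] {φ : HF F × D → ℂ}

/-- the dependence of the coefficients on one coordinate -/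
theorem AutForm.cof_one (h : AutForm φ) {ξ : F} (hξ : ξ ≠ 0) (w : InfinitePlace F) (p : HF F)
    (d : D) : ∃ c : ℂ, ∀ q : H3, cof φ ξ (upd p w q) d = c * H3.bes (w.embedding ξ) q := by
  have hξw : w.embedding ξ ≠ 0 := (map_ne_zero _).mpr hξ
  obtain ⟨C, hC⟩ := h.bdd
  set W : ℝ → ℂ := fun y => cof φ ξ (upd p w (H3.ofCR (0, y))) d with hWdef
  have hof : ∀ q : H3, cof φ ξ (upd p w q) d = W q.y * H3.ex (w.embedding ξ) q.z := by
    intro q
    have e1 : upd p w q = tra (sgl w q.z) (upd p w (H3.ofCR (0, q.y))) := by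
      rw [tra_sgl]
      congr 1
      have : H3.ofCR (0, q.y) = ⟨0, q.y, q.pos⟩ := H3.ofCR_of_pos q.pos
      rw [this]
      apply H3.ext
      · simp [tra3]
      · rfl
    rw [e1, cof_tra h.toIsInv, ev_sgl, mul_comm]
  have hWc : ContinuousOn W (Set.Ioi 0) := by
    have h1 : Continuous fun q : H3 => cof φ ξ (upd p w q) d :=
      (continuous_cof h.toIsInv ξ d).comp ((continuous_upd w).comp
        (continuous_const.prodMk continuous_id))
    rw [continuousOn_iff_continuous_domRestrict]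
    have h2 : Continuous fun y : Set.Ioi (0 : ℝ) => (⟨0, y.1, y.2⟩ : H3) :=
      H3.continuous_mk continuous_const continuous_subtype_val
    have h3 : (Set.Ioi (0 : ℝ)).domRestrict W = fun y : Set.Ioi (0 : ℝ) =>
        cof φ ξ (upd p w (⟨0, y.1, y.2⟩ : H3)) d := by
      funext y
      simp only [Set.domRestrict_apply, hWdef]
      congr 2
      exact H3.ofCR_of_pos (q := ((0 : ℂ), (y : ℝ))) y.2
    rw [h3]
    exact h1.comp h2
  obtain ⟨c, hc⟩ := H3.unique hξw hWc
    (fun Y _ => ⟨C, fun y _ => norm_cof_le h.toIsInv _ (fun v => hC _) ξ⟩)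
    (fun k hk hks y hy => by
      have h1 := cof_eig h.toIsInv w hk.continuous hks (c := (H3.khat k : ℂ)) (d := d)
        (fun p => h.eig w k hk hks p d) ξ (upd p w (⟨0, y, hy⟩ : H3))
      simp only [upd_upd, upd_same] at h1
      have h2 : cof φ ξ (upd p w ⟨0, y, hy⟩) d = W y := by
        rw [hof]
        simp [H3.ex]
      rw [h2] at h1
      rw [← h1]
      congr 1
      funext q
      rw [hof q])
  refine ⟨c, fun q => ?_⟩
  rw [hof q, hc q.y q.pos, H3.bes]
  push_cast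
  ring

/-- the product Bessel function -/
noncomputable def besF (ξ : F) (p : HF F) : ℂ := ∏ w, H3.bes (w.embedding ξ) (p w)

/-- the base point -/
noncomputable def pt1 : HF F := fun _ => H3.j

theorem bes_eq (ξ : ℂ) (p : H3) : H3.bes ξ p = ((H3.whit ξ p.y : ℝ) : ℂ) * H3.ex ξ p.z := rfl

theorem bes_ne_zero {ξ : ℂ} (hξ : ξ ≠ 0) (p : H3) : H3.bes ξ p ≠ 0 := by
  rw [bes_eq]
  refine mul_ne_zero ?_ (Complex.exp_ne_zero _)
  exact_mod_cast (H3.whit_pos hξ p.pos).ne'

theorem norm_bes {ξ : ℂ} (hξ : ξ ≠ 0) (p : H3) : ‖H3.bes ξ p‖ = H3.whit ξ p.y := by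
  rw [bes_eq, norm_mul, H3.norm_ex, mul_one, Complex.norm_real,
    Real.norm_of_nonneg (H3.whit_pos hξ p.pos).le]

theorem besF_ne_zero {ξ : F} (hξ : ξ ≠ 0) (p : HF F) : besF ξ p ≠ 0 :=
  Finset.prod_ne_zero_iff.mpr fun _ _ => bes_ne_zero ((map_ne_zero _).mpr hξ) _

theorem AutForm.cof_swap (h : AutForm φ) {ξ : F} (hξ : ξ ≠ 0) (w : InfinitePlace F) (p : HF F)
    (d : D) (q : H3) : cof φ ξ (upd p w q) d * H3.bes (w.embedding ξ) (p w) =
      cof φ ξ p d * H3.bes (w.embedding ξ) q := by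
  obtain ⟨c, hc⟩ := h.cof_one hξ w p d
  have h1 := hc (p w)
  rw [upd_self] at h1
  rw [h1, hc q]
  ring

open Classical in
/-- mixing two points -/
noncomputable def mixHF (S : Finset (InfinitePlace F)) (p p₀ : HF F) : HF F :=
  fun w => if w ∈ S then p w else p₀ w

theorem mixHF_empty (p p₀ : HF F) : mixHF ∅ p p₀ = p₀ := by
  funext w
  unfold mixHF
  simp

theorem mixHF_univ (p p₀ : HF F) : mixHF Finset.univ p p₀ = p := by
  funext w
  unfold mixHF
  simp

theorem mixHF_of_notMem {S : Finset (InfinitePlace F)} {w : InfinitePlace F} (hw : w ∉ S)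
    (p p₀ : HF F) : mixHF S p p₀ w = p₀ w := by
  unfold mixHF
  exact if_neg hw

theorem mixHF_insert [DecidableEq (InfinitePlace F)] {S : Finset (InfinitePlace F)}
    (w : InfinitePlace F) (p p₀ : HF F) :
    mixHF (insert w S) p p₀ = upd (mixHF S p p₀) w (p w) := by
  funext w'
  by_cases h' : w' = w
  · subst h'
    rw [upd_same]
    unfold mixHF
    simp
  · rw [upd_ne _ h']
    unfold mixHF
    simp [h']

/-- **Fourier–Bessel coefficients**: product formula -/
theorem AutForm.cof_mul (h : AutForm φ) {ξ : F} (hξ : ξ ≠ 0) (p p₀ : HF F) (d : D) :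
    cof φ ξ p d * besF ξ p₀ = cof φ ξ p₀ d * besF ξ p := by
  classical
  have key : ∀ S : Finset (InfinitePlace F),
      cof φ ξ (mixHF S p p₀) d * ∏ w ∈ S, H3.bes (w.embedding ξ) (p₀ w) =
      cof φ ξ p₀ d * ∏ w ∈ S, H3.bes (w.embedding ξ) (p w) := by
    intro S
    induction S using Finset.induction_on with
    | empty => rw [mixHF_empty, Finset.prod_empty, Finset.prod_empty]
    | insert w S hw ih =>
      rw [Finset.prod_insert hw, Finset.prod_insert hw, mixHF_insert]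
      have h2 := h.cof_swap hξ w (mixHF S p p₀) d (p w)
      rw [mixHF_of_notMem hw] at h2
      calc _ = (cof φ ξ (upd (mixHF S p p₀) w (p w)) d *
            H3.bes (w.embedding ξ) (p₀ w)) * ∏ w ∈ S, H3.bes (w.embedding ξ) (p₀ w) := by ring
        _ = (cof φ ξ (mixHF S p p₀) d *
            ∏ w ∈ S, H3.bes (w.embedding ξ) (p₀ w)) * H3.bes (w.embedding ξ) (p w) := by
            rw [h2]; ring
        _ = _ := by rw [ih]; ring
  have := key Finset.univ
  rwa [mixHF_univ] at this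

/-- the Whittaker function of a form -/
noncomputable def Wh (φ : HF F × D → ℂ) (ξ : F) (d : D) : ℂ := cof φ ξ pt1 d / besF ξ pt1

/-- **Fourier–Bessel expansion.** -/
theorem AutForm.cof_eq (h : AutForm φ) {ξ : F} (hξ : ξ ≠ 0) (p : HF F) (d : D) :
    cof φ ξ p d = Wh φ ξ d * besF ξ p := by
  unfold Wh
  rw [div_mul_eq_mul_div, ← h.cof_mul hξ p pt1 d, mul_div_cancel_right₀ _ (besF_ne_zero hξ _)]

theorem AutForm.cof_eq_zero_iff (h : AutForm φ) {ξ : F} (hξ : ξ ≠ 0) (p : HF F) (d : D) :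
    cof φ ξ p d = 0 ↔ Wh φ ξ d = 0 := by
  rw [h.cof_eq hξ, mul_eq_zero, or_iff_left (besF_ne_zero hξ p)]

/-- trivial bound for the Whittaker function -/
theorem AutForm.exists_bound (h : AutForm φ) : ∃ C : ℝ, ∀ (ξ : F), ξ ≠ 0 → ∀ d,
    ‖Wh φ ξ d‖ ≤ C * ∏ w : InfinitePlace F, ‖w.embedding ξ‖ := by
  obtain ⟨C, hC⟩ := h.bdd
  refine ⟨|C| / ∏ _w : InfinitePlace F, K0 (4 * π), fun ξ hξ d => ?_⟩
  have hpos : ∀ w : InfinitePlace F, 0 < ‖w.embedding ξ‖ := fun w =>
    norm_pos_iff.mpr ((map_ne_zero _).mpr hξ)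
  have hK : 0 < K0 (4 * π) := K0_pos (by positivity)
  set p : HF F := fun w => ⟨0, ‖w.embedding ξ‖⁻¹, inv_pos.mpr (hpos w)⟩ with hp
  have h1 : ‖cof φ ξ p d‖ ≤ |C| := norm_cof_le h.toIsInv p (fun v => (hC _).trans (le_abs_self C)) ξ
  have h2 : ‖besF ξ p‖ = (∏ w : InfinitePlace F, ‖w.embedding ξ‖)⁻¹ *
      ∏ _w : InfinitePlace F, K0 (4 * π) := by
    unfold besF
    rw [norm_prod, ← Finset.prod_inv_distrib, ← Finset.prod_mul_distrib]
    apply Finset.prod_congr rfl
    intro w _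
    rw [norm_bes ((map_ne_zero _).mpr hξ), H3.whit]
    have : (p w).y = ‖w.embedding ξ‖⁻¹ := rfl
    rw [this, mul_assoc, mul_assoc, mul_inv_cancel₀ (hpos w).ne', mul_one]
  rw [h.cof_eq hξ, norm_mul, h2] at h1
  have hP : 0 < ∏ w : InfinitePlace F, ‖w.embedding ξ‖ := Finset.prod_pos fun w _ => hpos w
  have hKP : 0 < ∏ _w : InfinitePlace F, K0 (4 * π) := Finset.prod_pos fun w _ => hK
  rw [div_mul_eq_mul_div, le_div_iff₀ hKP]
  calc ‖Wh φ ξ d‖ * ∏ _w : InfinitePlace F, K0 (4 * π)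
      = (‖Wh φ ξ d‖ * ((∏ w : InfinitePlace F, ‖w.embedding ξ‖)⁻¹ *
        ∏ _w : InfinitePlace F, K0 (4 * π))) * ∏ w : InfinitePlace F, ‖w.embedding ξ‖ := by
        field_simp
    _ ≤ |C| * ∏ w : InfinitePlace F, ‖w.embedding ξ‖ := mul_le_mul_of_nonneg_right h1 hP.le

end Fermat.Agent.LT.Fou
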